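/-
TEAM TW56 -> S56, block [GRP] (architect helper74): pure finite group theory / linear algebra.

GOAL (`Stmt_H1van`): `k` a finite field of odd characteristic `p`, `GG ≤ GL₂(k)` "big"
(`Big p GG`: all eigenvalues in `k`, every subgroup of index `≤ 2` is irreducible, `det GG ⊇ 𝔽_pˣ`).
Then `H¹(GG, ad⁰ ⊗ det) = 0`, in raw cocycles.  NO classification of subgroups of `GL₂`.

Route.  `U` = Sylow `p`-subgroup, conjugated to `{uu x : x ∈ X}` (upper unitriangular).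
* `Avg`   : a cocycle vanishing on `U` is a coboundary (averaging over `GG/U`).
* `CocU`  : cocycles on `U`:  `κ(uu x) = α E + β H + γ F`, `γ = c₀ x`, `β = c₀ x²/2 + c₁ x`,
            `α = -c₀ x³/3 - c₁ x² + α₀`, `α₀` additive (`c₀ = 0` if `p = 3`).
* invariance under the upper triangular `t ∈ GG` (`λ = a/d`, `δ = ad`):
            `c₀ (λ² - δ) = 0`,  `α₀(λ x) = δ λ α₀(x) + b x`.
* `LemmaT`: `G1 = GG ∩ SL₂`, `q = #X`, `Λ = {λ(t) : t ∈ G1 upper triangular}`: `q - 1 ≤ 2 #Λ`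
            (orbit counting on `ℙ¹(k)`, `Stmt_Count`).
* `TypeII`: then `α₀` is `k`-linear (Leibniz rule on `Λ`), i.e. a coboundary.
* `TypeI` : `c₀ ≠ 0` forces `λ² = 1` on `Λ`, `q ≤ 5`, `p = q = 5`, `δ = λ² = ±1` on all upper
            triangular `t ∈ GG`, contradicting `det` onto `𝔽₅ˣ` (Frattini).
Also: `ad⁰` is irreducible (`Stmt_AdIrr`), no invariants (`Stmt_AdInv`), regular semisimple elements
in normal subgroups with abelian quotient (`Stmt_RegSS`).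
-/
import Mathlib

set_option autoImplicit false

noncomputable section

namespace Fermat.Agent.TW56.Grp

open Matrix Polynomial

/-- `2 × 2` matrices -/
abbrev M2 (k : Type) : Type := Matrix (Fin 2) (Fin 2) k

variable {k : Type} [Field k]

/-- the action of `GL₂(k)` on `ad ⊗ det`. -/
def act (g : GL (Fin 2) k) (m : M2 k) : M2 k :=
  (g : M2 k).det • ((g : M2 k) * m * ((g⁻¹ : GL (Fin 2) k) : M2 k))

/-- the upper unitriangular matrix `[[1,x],[0,1]]`. -/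
def uu (x : k) : GL (Fin 2) k :=
  Matrix.GeneralLinearGroup.mkOfDetNeZero !![1, x; 0, 1] (by simp [Matrix.det_fin_two])

/-- `κ` is a 1-cocycle on `GG` with values in `ad⁰ ⊗ det`. -/
structure IsCoc (GG : Subgroup (GL (Fin 2) k)) (κ : GL (Fin 2) k → M2 k) : Prop where
  tr : ∀ g ∈ GG, (κ g).trace = 0
  coc : ∀ g ∈ GG, ∀ h ∈ GG, κ (g * h) = κ g + act g (κ h)

/-- `κ` is a coboundary on `D`. -/
def IsCob (D : Subgroup (GL (Fin 2) k)) (κ : GL (Fin 2) k → M2 k) : Prop :=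
  ∃ m : M2 k, m.trace = 0 ∧ ∀ g ∈ D, κ g = act g m - m

/-- `H ≤ GG` has index `1` or `2` (elementwise). -/
def IdxLe2 {G : Type} [Group G] (H GG : Subgroup G) : Prop :=
  H ≤ GG ∧ ∀ a ∈ GG, ∀ b ∈ GG, a ∉ H → b ∉ H → a * b ∈ H

/-- `H` stabilises a line of `k²`. -/
def HasLine (H : Subgroup (GL (Fin 2) k)) : Prop :=
  ∃ v : Fin 2 → k, v ≠ 0 ∧ ∀ h ∈ H, ∃ c : k, (h : M2 k) *ᵥ v = c • v

/-- the hypotheses of S56 on the image of `ρ̄`. -/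
structure Big (p : ℕ) (GG : Subgroup (GL (Fin 2) k)) : Prop where
  split : ∀ g ∈ GG, ∃ a b : k, (g : M2 k).charpoly = (X - C a) * (X - C b)
  irr : ∀ H : Subgroup (GL (Fin 2) k), IdxLe2 H GG → ¬ HasLine H
  det : ∀ a : ℕ, ¬ p ∣ a → ∃ g ∈ GG, (g : M2 k).det = (a : k)

/-- the `x` with `uu x ∈ GG`. -/
def XX (GG : Subgroup (GL (Fin 2) k)) : Set k := {x | uu x ∈ GG}

/-- the ratios `λ = a/d` of the upper triangular elements of determinant one of `GG`. -/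
def Lam (GG : Subgroup (GL (Fin 2) k)) : Set k :=
  {l | ∃ t ∈ GG, (t : M2 k) 1 0 = 0 ∧ (t : M2 k).det = 1 ∧ l = (t : M2 k) 0 0 / (t : M2 k) 1 1}

/-! ### abstract packages -/

/-- GRP-AVG. -/
def Stmt_Avg : Prop :=
  ∀ (k M G : Type) [Field k] [AddCommGroup M] [Module k M] [Group G] [Finite G]
    (a : G →* Module.End k M) (U : Subgroup G), ((U.index : ℕ) : k) ≠ 0 →
    ∀ κ : G → M, (∀ g h, κ (g * h) = κ g + a g (κ h)) → (∀ u ∈ U, κ u = 0) →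
    ∃ m : M, ∀ g, κ g = a g m - m

/-- GRP-UNI : a `p`-subgroup of `GL₂(k)` is conjugate to a group of upper unitriangular matrices. -/
def Stmt_Uni : Prop :=
  ∀ (p : ℕ) [Fact p.Prime] (k : Type) [Field k] [Finite k] [CharP k p]
    (U : Subgroup (GL (Fin 2) k)), IsPGroup p U →
    ∃ P : GL (Fin 2) k, ∀ u ∈ U, ∃ x : k, P * u * P⁻¹ = uu x

/-- GRP-COCU : the functional equations of a cocycle on `U`. -/
def Stmt_CocU : Prop :=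
  ∀ (p : ℕ) [Fact p.Prime] (k : Type) [Field k] [CharP k p], p ≠ 2 →
    ∀ (X : AddSubgroup k) (α β γ : k → k), (∃ x ∈ X, x ≠ 0) →
    (∀ x ∈ X, ∀ y ∈ X, γ (x + y) = γ x + γ y) →
    (∀ x ∈ X, ∀ y ∈ X, β (x + y) = β x + β y + x * γ y) →
    (∀ x ∈ X, ∀ y ∈ X, α (x + y) = α x + α y - 2 * x * β y - x ^ 2 * γ y) →
    ∃ c₀ c₁ : k, (p = 3 → c₀ = 0) ∧ (∀ x ∈ X, γ x = c₀ * x) ∧
      (∀ x ∈ X, β x = c₀ * x ^ 2 / 2 + c₁ * x) ∧
      ∀ x ∈ X, ∀ y ∈ X, α (x + y) + c₀ * (x + y) ^ 3 / 3 + c₁ * (x + y) ^ 2 =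
        (α x + c₀ * x ^ 3 / 3 + c₁ * x ^ 2) + (α y + c₀ * y ^ 3 / 3 + c₁ * y ^ 2)

/-- GRP-COUNT : orbit counting.  `G` acts on `Ω` with kernel `Z`; every `x ∉ Z` has one or two fixed
points; the `x ∉ Z` whose only fixed point is `P` are `z (q - 1)` in number; the unique fixed point of
an `x ∉ Z` with one fixed point lies in the orbit of `P`; `#Stab P = z q τ`; the orbit of `P` has at
least `q + 1` elements.  Then `q - 1 ≤ 2 τ`. -/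
def Stmt_Count : Prop :=
  ∀ (G Ω : Type) [Group G] [Finite G] [Finite Ω] [MulAction G Ω] (Z : Subgroup G) (P : Ω)
    (q τ : ℕ), 2 ≤ q →
    (∀ x : G, x ∈ Z ↔ ∀ ω : Ω, x • ω = ω) →
    (∀ x : G, x ∉ Z → (∃ ω : Ω, ∀ ω' : Ω, x • ω' = ω' ↔ ω' = ω) ∨
      ∃ ω₁ ω₂ : Ω, ω₁ ≠ ω₂ ∧ ∀ ω' : Ω, x • ω' = ω' ↔ (ω' = ω₁ ∨ ω' = ω₂)) →
    Nat.card {x : G // x ∉ Z ∧ ∀ ω' : Ω, x • ω' = ω' ↔ ω' = P} = Nat.card Z * (q - 1) →
    (∀ (x : G) (ω : Ω), x ∉ Z → (∀ ω' : Ω, x • ω' = ω' ↔ ω' = ω) → ω ∈ MulAction.orbit G P) →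
    Nat.card (MulAction.stabilizer G P) = Nat.card Z * q * τ →
    q + 1 ≤ Nat.card (MulAction.orbit G P) →
    q - 1 ≤ 2 * τ

/-- GRP-T2 : type II classes vanish. -/
def Stmt_TypeII : Prop :=
  ∀ (p : ℕ) [Fact p.Prime] (k : Type) [Field k] [Finite k] [CharP k p] (X : AddSubgroup k)
    (Λ : Set k), (∀ l ∈ Λ, l ≠ 0) → (1 : k) ∈ Λ → (∀ l ∈ Λ, ∀ l' ∈ Λ, l * l' ∈ Λ) →
    (∀ l ∈ Λ, ∀ x ∈ X, l * x ∈ X) → Nat.card X - 1 ≤ 2 * Nat.card Λ →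
    ∀ α₀ : k → k, (∀ x ∈ X, ∀ y ∈ X, α₀ (x + y) = α₀ x + α₀ y) →
    (∀ l ∈ Λ, ∃ b : k, ∀ x ∈ X, α₀ (l * x) = l * α₀ x + b * x) →
    ∃ c : k, ∀ x ∈ X, α₀ x = c * x

/-! ### matrix packages -/

/-- GRP-LT : **Lemma T**. -/
def Stmt_LemmaT : Prop :=
  ∀ (p : ℕ) [Fact p.Prime] (k : Type) [Field k] [Finite k] [CharP k p], p ≠ 2 →
    ∀ G1 : Subgroup (GL (Fin 2) k), (∀ g ∈ G1, (g : M2 k).det = 1) →
    (∀ g ∈ G1, ∃ a b : k, (g : M2 k).charpoly = (X - C a) * (X - C b)) →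
    (∃ x : k, x ≠ 0 ∧ uu x ∈ G1) → (∃ g ∈ G1, (g : M2 k) 1 0 ≠ 0) →
    Nat.card (XX G1) - 1 ≤ 2 * Nat.card (Lam G1)

/-- GRP-EQ : the functional equations for the entries of `κ (uu x)`. -/
def Stmt_Eqs : Prop :=
  ∀ (k : Type) [Field k] (GG : Subgroup (GL (Fin 2) k)) (κ : GL (Fin 2) k → M2 k), IsCoc GG κ →
    ∀ x ∈ XX GG, ∀ y ∈ XX GG,
      κ (uu (x + y)) 1 0 = κ (uu x) 1 0 + κ (uu y) 1 0 ∧
      κ (uu (x + y)) 0 0 = κ (uu x) 0 0 + κ (uu y) 0 0 + x * κ (uu y) 1 0 ∧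
      κ (uu (x + y)) 0 1 = κ (uu x) 0 1 + κ (uu y) 0 1 - 2 * x * κ (uu y) 0 0 - x ^ 2 * κ (uu y) 1 0

/-- GRP-INV : invariance under the upper triangular elements `t` of `GG`. -/
def Stmt_Inv : Prop :=
  ∀ (k : Type) [Field k] (GG : Subgroup (GL (Fin 2) k)) (κ : GL (Fin 2) k → M2 k), IsCoc GG κ →
    ∀ t ∈ GG, (t : M2 k) 1 0 = 0 →
      (∀ x ∈ XX GG, (t : M2 k) 0 0 / (t : M2 k) 1 1 * x ∈ XX GG) ∧
      (∀ x ∈ XX GG, κ (uu ((t : M2 k) 0 0 / (t : M2 k) 1 1 * x)) 1 0 =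
        (t : M2 k) 1 1 ^ 2 * κ (uu x) 1 0) ∧
      ((∀ x ∈ XX GG, κ (uu x) 1 0 = 0 ∧ κ (uu x) 0 0 = 0) → ∃ b : k, ∀ x ∈ XX GG,
        κ (uu ((t : M2 k) 0 0 / (t : M2 k) 1 1 * x)) 0 1 =
          (t : M2 k) 0 0 ^ 2 * κ (uu x) 0 1 + b * x)

/-- GRP-FRAT : Frattini: the upper triangular elements of `GG` have all the determinants of `GG`,
if `{uu x ∈ GG}` is a Sylow `p`-subgroup (its index is prime to `p`). -/
def Stmt_Frat : Prop :=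
  ∀ (p : ℕ) [Fact p.Prime] (k : Type) [Field k] [Finite k] [CharP k p]
    (GG : Subgroup (GL (Fin 2) k)), (∃ x : k, x ≠ 0 ∧ uu x ∈ GG) →
    ¬ p ∣ Nat.card GG / Nat.card (XX GG) →
    ∀ g ∈ GG, ∃ t ∈ GG, (t : M2 k) 1 0 = 0 ∧ (t : M2 k).det = (g : M2 k).det

/-- GRP-NF : the vanishing theorem in normal form (`{uu x ∈ GG}` is a nontrivial Sylow subgroup). -/
def Stmt_H1vanNF : Prop :=
  ∀ (p : ℕ) [Fact p.Prime] (k : Type) [Field k] [Finite k] [CharP k p], p ≠ 2 →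
    ∀ GG : Subgroup (GL (Fin 2) k), Big p GG → (∃ x : k, x ≠ 0 ∧ uu x ∈ GG) →
    ¬ p ∣ Nat.card GG / Nat.card (XX GG) →
    ∀ κ : GL (Fin 2) k → M2 k, IsCoc GG κ → IsCob GG κ

/-- GRP-CONJ : everything is invariant under conjugation. -/
def Stmt_Conj : Prop :=
  ∀ (p : ℕ) (k : Type) [Field k] (GG : Subgroup (GL (Fin 2) k)) (P : GL (Fin 2) k),
    (Big p GG → Big p (GG.map (MulAut.conj P).toMonoidHom)) ∧
    ∀ κ : GL (Fin 2) k → M2 k,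
      (IsCoc GG κ → IsCoc (GG.map (MulAut.conj P).toMonoidHom)
        fun g => (P : M2 k) * κ (P⁻¹ * g * P) * ((P⁻¹ : GL (Fin 2) k) : M2 k)) ∧
      (IsCob (GG.map (MulAut.conj P).toMonoidHom)
        (fun g => (P : M2 k) * κ (P⁻¹ * g * P) * ((P⁻¹ : GL (Fin 2) k) : M2 k)) → IsCob GG κ)

/-- **GRP-MAIN** : `H¹(GG, ad⁰ ⊗ det) = 0`. -/
def Stmt_H1van : Prop :=
  ∀ (p : ℕ) [Fact p.Prime] (k : Type) [Field k] [Finite k] [CharP k p], p ≠ 2 →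
    ∀ GG : Subgroup (GL (Fin 2) k), Big p GG →
    ∀ κ : GL (Fin 2) k → M2 k, IsCoc GG κ → IsCob GG κ

/-- GRP-ADIRR : `ad⁰` is an irreducible `k[GG]`-module. -/
def Stmt_AdIrr : Prop :=
  ∀ (p : ℕ) [Fact p.Prime] (k : Type) [Field k] [CharP k p], p ≠ 2 →
    ∀ GG : Subgroup (GL (Fin 2) k), Big p GG →
    ∀ W : Submodule k (M2 k), (∀ m ∈ W, m.trace = 0) → (∀ g ∈ GG, ∀ m ∈ W, act g m ∈ W) →
    (∃ m ∈ W, m ≠ 0) → ∀ m : M2 k, m.trace = 0 → m ∈ W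

/-- GRP-REGSS : a normal subgroup `G'` of `GG`, contained in `SL₂`, with abelian quotient, contains an
element with distinct eigenvalues. -/
def Stmt_RegSS : Prop :=
  ∀ (p : ℕ) [Fact p.Prime] (k : Type) [Field k] [Finite k] [CharP k p], p ≠ 2 →
    ∀ GG : Subgroup (GL (Fin 2) k), Big p GG → ∀ G' : Subgroup (GL (Fin 2) k), G' ≤ GG →
    (∀ g ∈ GG, ∀ h ∈ G', g * h * g⁻¹ ∈ G') → (∀ g ∈ GG, ∀ h ∈ GG, g * h * g⁻¹ * h⁻¹ ∈ G') →
    (∀ h ∈ G', (h : M2 k).det = 1) →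
    ∃ h ∈ G', ∃ a b : k, a ≠ b ∧ (h : M2 k).charpoly = (X - C a) * (X - C b)

/-- GRP-COKER : for `h` of determinant one with distinct eigenvalues, `(h - 1) ad⁰` is a proper
subspace: there is a nonzero linear form `φ` on `M₂(k)`, nonzero on `ad⁰`, killing it. -/
def Stmt_Coker : Prop :=
  ∀ (k : Type) [Field k] (h : GL (Fin 2) k) (a b : k), a ≠ b →
    (h : M2 k).charpoly = (X - C a) * (X - C b) →
    ∃ φ : M2 k →ₗ[k] k, (∃ m : M2 k, m.trace = 0 ∧ φ m ≠ 0) ∧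
      ∀ m : M2 k, φ ((h : M2 k) * m * ((h⁻¹ : GL (Fin 2) k) : M2 k) - m) = 0

end Fermat.Agent.TW56.Grp

end
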