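/-
TEAM TW56 -> S56, block [GRP], package GRP-LT : **Lemma T**, `q - 1 ≤ 2 #Λ`, by orbit counting on
`ℙ¹(k) = OnePoint k` (`Stmt_Count`).
-/
import Fermat.Agent.TW56.Grp.Interface

set_option autoImplicit false

noncomputable section

namespace Fermat.Agent.TW56.Grp

open Matrix Polynomial OnePoint Matrix.GeneralLinearGroup

section Alg

variable {k : Type} [Field k]

/-- `(M - α)² = 0 ⟹ M ^ p = α ^ p`. -/
lemma LemmaT_pow_p (p : ℕ) [Fact p.Prime] [CharP k p] (M : M2 k) (α : k)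
    (h : (M - algebraMap k (M2 k) α) * (M - algebraMap k (M2 k) α) = 0) :
    M ^ p = algebraMap k (M2 k) (α ^ p) := by
  have hp : 2 ≤ p := (Fact.out : p.Prime).two_le
  have e : M = algebraMap k (M2 k) α + (M - algebraMap k (M2 k) α) := by abel
  have hN : (M - algebraMap k (M2 k) α) ^ p = 0 := by
    obtain ⟨m, rfl⟩ := Nat.exists_eq_add_of_le hp
    rw [pow_add, pow_two, h, zero_mul]
  conv_lhs => rw [e]
  rw [add_pow_char_of_commute _ (Algebra.commute_algebraMap_left α _), hN, add_zero, map_pow]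

lemma LemmaT_pow_odd {p : ℕ} (hp : Odd p) {α : k} (h : α * α = 1) : α ^ p = α := by
  obtain ⟨m, rfl⟩ := hp
  rw [pow_succ, pow_mul, pow_two, h, one_pow, one_mul]

@[simp] lemma LemmaT_uu_00 (y : k) : (uu y : M2 k) 0 0 = 1 := rfl
@[simp] lemma LemmaT_uu_01 (y : k) : (uu y : M2 k) 0 1 = y := rfl
@[simp] lemma LemmaT_uu_10 (y : k) : (uu y : M2 k) 1 0 = 0 := rfl
@[simp] lemma LemmaT_uu_11 (y : k) : (uu y : M2 k) 1 1 = 1 := rfl

lemma LemmaT_ext {g h : GL (Fin 2) k} (h00 : (g : M2 k) 0 0 = (h : M2 k) 0 0)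
    (h01 : (g : M2 k) 0 1 = (h : M2 k) 0 1) (h10 : (g : M2 k) 1 0 = (h : M2 k) 1 0)
    (h11 : (g : M2 k) 1 1 = (h : M2 k) 1 1) : g = h := by
  apply Units.ext
  ext i j
  fin_cases i <;> fin_cases j <;> assumption

/-- an upper triangular matrix with equal diagonal entries `α`. -/
lemma LemmaT_sq_zero (M : M2 k) (α : k) (h10 : M 1 0 = 0) (h00 : M 0 0 = α) (h11 : M 1 1 = α) :
    (M - algebraMap k (M2 k) α) * (M - algebraMap k (M2 k) α) = 0 := by
  ext i j
  fin_cases i <;> fin_cases j <;>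
    simp [Matrix.mul_apply, Fin.sum_univ_two, Matrix.algebraMap_matrix_apply, h10, h00, h11]

lemma LemmaT_uu_pow (p : ℕ) [Fact p.Prime] [CharP k p] (y : k) : (uu y) ^ p = 1 := by
  apply Units.ext
  rw [Units.val_pow_eq_pow_val, LemmaT_pow_p p _ 1 (LemmaT_sq_zero _ 1 rfl rfl rfl)]
  simp

/-- the fixed point congruence for an element of order `p`. -/
lemma LemmaT_card_modEq {G α : Type*} [Group G] [MulAction G α] [Finite α] (p : ℕ)
    [Fact p.Prime] (g : G) (hg : g ^ p = 1) :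
    Nat.card α ≡ Nat.card {a : α // g • a = a} [MOD p] := by
  have hP : IsPGroup p (Subgroup.zpowers g) := by
    rintro ⟨h, hh⟩
    obtain ⟨n, rfl⟩ := Subgroup.mem_zpowers_iff.1 hh
    refine ⟨1, ?_⟩
    apply Subtype.ext
    show (g ^ n) ^ p ^ 1 = 1
    rw [pow_one, ← zpow_natCast, ← _root_.zpow_mul, mul_comm, _root_.zpow_mul, zpow_natCast, hg, _root_.one_zpow]
  have h1 := hP.card_modEq_card_fixedPoints α
  have h2 : (MulAction.fixedPoints (Subgroup.zpowers g) α) = {a : α | g • a = a} := by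
    ext a
    constructor
    · intro h
      exact h ⟨g, Subgroup.mem_zpowers g⟩
    · intro h x
      have h3 : Subgroup.zpowers g ≤ MulAction.stabilizer G a := by
        rw [Subgroup.zpowers_le]
        exact h
      exact h3 x.2
  rw [h2] at h1
  exact h1


end Alg

section Act

variable {k : Type} [Field k] [DecidableEq k]

lemma LemmaT_fix_infty (g : GL (Fin 2) k) :
    g • (∞ : OnePoint k) = ∞ ↔ (g : M2 k) 1 0 = 0 := smul_infty_eq_self_iff

lemma LemmaT_fix_coe (g : GL (Fin 2) k) (w : k) :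
    g • (w : OnePoint k) = w ↔
      (g : M2 k) 1 0 * w ^ 2 + ((g : M2 k) 1 1 - (g : M2 k) 0 0) * w - (g : M2 k) 0 1 = 0 := by
  rw [← fixpointPolynomial_aeval_eq_zero_iff]
  simp [fixpointPolynomial]

/-- the kernel of the action. -/
lemma LemmaT_kernel (g : GL (Fin 2) k) :
    (∀ ω : OnePoint k, g • ω = ω) ↔
      (g : M2 k) 1 0 = 0 ∧ (g : M2 k) 0 1 = 0 ∧ (g : M2 k) 0 0 = (g : M2 k) 1 1 := by
  constructor
  · intro h
    have h1 := (LemmaT_fix_infty g).1 (h ∞)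
    have h2 := (LemmaT_fix_coe g 0).1 (h _)
    have h3 := (LemmaT_fix_coe g 1).1 (h _)
    rw [h1] at h2 h3
    have h4 : (g : M2 k) 0 1 = 0 := by simpa using h2
    rw [h4] at h3
    refine ⟨h1, h4, ?_⟩
    have : (g : M2 k) 1 1 - (g : M2 k) 0 0 = 0 := by simpa using h3
    exact (sub_eq_zero.1 this).symm
  · rintro ⟨h1, h2, h3⟩ ω
    cases ω with
    | infty => exact (LemmaT_fix_infty g).2 h1
    | coe w =>
      rw [LemmaT_fix_coe, h1, h2, h3]
      ring

omit [DecidableEq k] in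
lemma LemmaT_det (g : GL (Fin 2) k) (h : (g : M2 k).det = 1) :
    (g : M2 k) 0 0 * (g : M2 k) 1 1 - (g : M2 k) 0 1 * (g : M2 k) 1 0 = 1 := by
  rw [← h, Matrix.det_fin_two]

omit [DecidableEq k] in
/-- trace and determinant from the factorisation of the characteristic polynomial. -/
lemma LemmaT_charpoly (M : M2 k) (a b : k) (h : M.charpoly = (X - C a) * (X - C b)) :
    M.trace = a + b ∧ M.det = a * b := by
  rw [Matrix.charpoly_fin_two] at h
  have h0 := congrArg (eval 0) h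
  have h1 := congrArg (eval 1) h
  simp at h0 h1
  refine ⟨?_, h0⟩
  rw [h0] at h1
  linear_combination -h1

/-- fixed points of a non scalar element of determinant one with split characteristic polynomial. -/
lemma LemmaT_fixedPoints (g : GL (Fin 2) k) (hdet : (g : M2 k).det = 1) (a b : k)
    (hc : (g : M2 k).charpoly = (X - C a) * (X - C b))
    (hns : ¬ ∀ ω : OnePoint k, g • ω = ω) :
    (a = b ∧ ∃ ω : OnePoint k, ∀ ω' : OnePoint k, g • ω' = ω' ↔ ω' = ω) ∨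
      ∃ ω₁ ω₂ : OnePoint k, ω₁ ≠ ω₂ ∧ ∀ ω' : OnePoint k, g • ω' = ω' ↔ (ω' = ω₁ ∨ ω' = ω₂) := by
  obtain ⟨htr, hd⟩ := LemmaT_charpoly _ a b hc
  rw [hdet] at hd
  rw [Matrix.trace_fin_two] at htr
  have hD := LemmaT_det g hdet
  rw [LemmaT_kernel] at hns
  set A := (g : M2 k) 0 0
  set B := (g : M2 k) 0 1
  set Cc := (g : M2 k) 1 0
  set Dd := (g : M2 k) 1 1
  by_cases hC : Cc = 0
  · -- upper triangular
    rw [hC, mul_zero, sub_zero] at hD
    by_cases hAD : A = Dd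
    · left
      have hB : B ≠ 0 := fun hB => hns ⟨hC, hB, hAD⟩
      refine ⟨?_, ∞, fun ω' => ?_⟩
      · have : (a - b) ^ 2 = 0 := by
          have e : (a - b) ^ 2 = (a + b) ^ 2 - 4 * (a * b) := by ring
          rw [e, ← htr, ← hd, ← hD, hAD]
          ring
        exact sub_eq_zero.1 (pow_eq_zero_iff (two_ne_zero) |>.1 this)
      · cases ω' with
        | infty => simp [LemmaT_fix_infty, hC, Cc]
        | coe w =>
          rw [LemmaT_fix_coe]
          show Cc * w ^ 2 + (Dd - A) * w - B = 0 ↔ _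
          rw [hC, hAD]
          simp [hB]
    · right
      have hDA : Dd - A ≠ 0 := fun h => hAD (sub_eq_zero.1 h).symm
      refine ⟨∞, ((B / (Dd - A) : k) : OnePoint k), by simp, fun ω' => ?_⟩
      cases ω' with
      | infty => simp [LemmaT_fix_infty, hC, Cc]
      | coe w =>
        rw [LemmaT_fix_coe]
        show Cc * w ^ 2 + (Dd - A) * w - B = 0 ↔ _
        rw [hC]
        simp only [zero_mul, zero_add, coe_ne_infty, false_or, coe_eq_coe]
        rw [eq_div_iff hDA, sub_eq_zero, mul_comm]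
  · -- `c ≠ 0`
    have key : ∀ w : k, Cc * (Cc * w ^ 2 + (Dd - A) * w - B)
        = (Cc * w - a + Dd) * (Cc * w - b + Dd) := by
      intro w
      have e1 : A = a + b - Dd := by rw [← htr]; ring
      have e2 : B * Cc = A * Dd - 1 := by rw [← hD]; ring
      have e3 : Cc * (Cc * w ^ 2 + (Dd - A) * w - B)
          = Cc ^ 2 * w ^ 2 + Cc * (Dd - A) * w - B * Cc := by ring
      rw [e3, e2, e1]
      linear_combination hd
    have hfix : ∀ w : k, g • (w : OnePoint k) = w ↔ (w = (a - Dd) / Cc ∨ w = (b - Dd) / Cc) := by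
      intro w
      rw [LemmaT_fix_coe]
      show Cc * w ^ 2 + (Dd - A) * w - B = 0 ↔ _
      rw [← mul_right_inj' hC, mul_zero, key, mul_eq_zero, eq_div_iff hC, eq_div_iff hC]
      constructor
      · rintro (h | h)
        · left; linear_combination h
        · right; linear_combination h
      · rintro (h | h)
        · left; linear_combination h
        · right; linear_combination h
    have hinf : ¬ g • (∞ : OnePoint k) = ∞ := by rw [LemmaT_fix_infty]; exact hC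
    by_cases hab : a = b
    · left
      refine ⟨hab, (((a - Dd) / Cc : k) : OnePoint k), fun ω' => ?_⟩
      cases ω' with
      | infty => simp [hinf]
      | coe w => rw [hfix, coe_eq_coe, hab, or_self]
    · right
      refine ⟨(((a - Dd) / Cc : k) : OnePoint k), (((b - Dd) / Cc : k) : OnePoint k), ?_,
        fun ω' => ?_⟩
      · rw [Ne, coe_eq_coe, div_left_inj' hC, sub_left_inj]
        exact hab
      · cases ω' with
        | infty => simp [hinf]
        | coe w => rw [hfix, coe_eq_coe, coe_eq_coe]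


end Act

section Main

variable {k : Type} [Field k] [DecidableEq k] (G1 : Subgroup (GL (Fin 2) k))

/-- the kernel of the action of `G1` on `ℙ¹(k)`. -/
def LemmaT_Z : Subgroup G1 := (MulAction.toPermHom G1 (OnePoint k)).ker

lemma LemmaT_mem_Z (x : G1) : x ∈ LemmaT_Z G1 ↔ ∀ ω : OnePoint k, x • ω = ω := by
  rw [LemmaT_Z, MonoidHom.mem_ker, Equiv.ext_iff]
  rfl

lemma LemmaT_mem_Z' (x : G1) : x ∈ LemmaT_Z G1 ↔
    ((x : GL (Fin 2) k) : M2 k) 1 0 = 0 ∧ ((x : GL (Fin 2) k) : M2 k) 0 1 = 0 ∧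
      ((x : GL (Fin 2) k) : M2 k) 0 0 = ((x : GL (Fin 2) k) : M2 k) 1 1 := by
  rw [LemmaT_mem_Z]
  exact LemmaT_kernel (x : GL (Fin 2) k)

/-- the stabiliser of `∞`. -/
abbrev LemmaT_S : Subgroup G1 := MulAction.stabilizer G1 (∞ : OnePoint k)

lemma LemmaT_mem_S (x : G1) : x ∈ LemmaT_S G1 ↔ ((x : GL (Fin 2) k) : M2 k) 1 0 = 0 := by
  rw [MulAction.mem_stabilizer_iff]
  exact LemmaT_fix_infty _

omit [DecidableEq k] in
lemma LemmaT_00_ne (g : GL (Fin 2) k) (h : (g : M2 k) 1 0 = 0) : (g : M2 k) 0 0 ≠ 0 := by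
  intro h0
  have := g.det_ne_zero
  rw [Matrix.det_fin_two, h, h0] at this
  simp at this

/-- `t ↦ t₀₀` on the stabiliser of `∞`. -/
def LemmaT_chi : LemmaT_S G1 →* kˣ :=
  MonoidHom.mk' (fun x => Units.mk0 ((((x : G1) : GL (Fin 2) k) : M2 k) 0 0)
      (LemmaT_00_ne _ ((LemmaT_mem_S G1 x.1).1 x.2)))
    (by
      intro x y
      apply Units.ext
      have hy := (LemmaT_mem_S G1 y.1).1 y.2
      simp [Matrix.mul_apply, Fin.sum_univ_two, hy])

lemma LemmaT_chi_apply (x : LemmaT_S G1) :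
    ((LemmaT_chi G1 x : kˣ) : k) = (((x : G1) : GL (Fin 2) k) : M2 k) 0 0 := rfl

/-- `t ↦ t₀₀²`. -/
def LemmaT_lam : LemmaT_S G1 →* kˣ := LemmaT_chi G1 * LemmaT_chi G1

lemma LemmaT_lam_apply (x : LemmaT_S G1) :
    ((LemmaT_lam G1 x : kˣ) : k) = (((x : G1) : GL (Fin 2) k) : M2 k) 0 0 *
      (((x : G1) : GL (Fin 2) k) : M2 k) 0 0 := rfl

omit [DecidableEq k] in
lemma LemmaT_card_hom {G H : Type*} [Group G] [Group H] (f : G →* H) :
    Nat.card G = Nat.card f.ker * Nat.card f.range := by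
  rw [← Subgroup.index_ker, Subgroup.card_mul_index]

variable (hdet : ∀ g ∈ G1, (g : M2 k).det = 1)

include hdet

lemma LemmaT_diag (x : LemmaT_S G1) : (((x : G1) : GL (Fin 2) k) : M2 k) 0 0 *
    (((x : G1) : GL (Fin 2) k) : M2 k) 1 1 = 1 := by
  have h := LemmaT_det _ (hdet _ x.1.2)
  rwa [(LemmaT_mem_S G1 x.1).1 x.2, mul_zero, sub_zero] at h

lemma LemmaT_mem_ker_lam (x : LemmaT_S G1) : x ∈ (LemmaT_lam G1).ker ↔
    (((x : G1) : GL (Fin 2) k) : M2 k) 0 0 = (((x : G1) : GL (Fin 2) k) : M2 k) 1 1 := by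
  have h := LemmaT_diag G1 hdet x
  have h0 := LemmaT_00_ne _ ((LemmaT_mem_S G1 x.1).1 x.2)
  rw [MonoidHom.mem_ker, ← Units.val_inj, LemmaT_lam_apply, Units.val_one, ← h]
  exact mul_right_inj' h0

/-- (K2) -/
lemma LemmaT_card_range_lam : Nat.card (LemmaT_lam G1).range = Nat.card (Lam G1) := by
  have h : Lam G1 = (fun u : kˣ => (u : k)) '' ((LemmaT_lam G1).range : Set kˣ) := by
    ext l
    constructor
    · rintro ⟨t, ht, h10, -, rfl⟩
      let x : LemmaT_S G1 := ⟨⟨t, ht⟩, (LemmaT_mem_S G1 _).2 h10⟩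
      refine ⟨LemmaT_lam G1 x, ⟨x, rfl⟩, ?_⟩
      have hx := LemmaT_diag G1 hdet x
      have hx' : (t : M2 k) 0 0 * (t : M2 k) 1 1 = 1 := hx
      have h11 : (t : M2 k) 1 1 ≠ 0 := right_ne_zero_of_mul_eq_one hx'
      show (t : M2 k) 0 0 * (t : M2 k) 0 0 = _
      rw [eq_div_iff h11, mul_assoc, hx', mul_one]
    · rintro ⟨_, ⟨x, rfl⟩, rfl⟩
      refine ⟨x.1.1, x.1.2, (LemmaT_mem_S G1 x.1).1 x.2, hdet _ x.1.2, ?_⟩
      have hx := LemmaT_diag G1 hdet x
      have h11 := right_ne_zero_of_mul_eq_one hx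
      show (((x : G1) : GL (Fin 2) k) : M2 k) 0 0 * (((x : G1) : GL (Fin 2) k) : M2 k) 0 0 = _
      rw [eq_div_iff h11, mul_assoc, hx, mul_one]
  rw [h, Nat.card_image_of_injective Units.val_injective]
  rfl

/-- the `p`-th power trick: `± u ∈ G1 ⟹ ± 1 ∈ G1`. -/
lemma LemmaT_exists_Z (p : ℕ) [Fact p.Prime] [CharP k p] (hp2 : p ≠ 2) (x : G1)
    (h10 : ((x : GL (Fin 2) k) : M2 k) 1 0 = 0)
    (had : ((x : GL (Fin 2) k) : M2 k) 0 0 = ((x : GL (Fin 2) k) : M2 k) 1 1) :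
    ∃ ζ ∈ LemmaT_Z G1, ((ζ : GL (Fin 2) k) : M2 k) 0 0 = ((x : GL (Fin 2) k) : M2 k) 0 0 := by
  have hodd : Odd p := (Fact.out : p.Prime).odd_of_ne_two hp2
  have hd : ((x : GL (Fin 2) k) : M2 k) 0 0 * ((x : GL (Fin 2) k) : M2 k) 1 1 = 1 :=
    LemmaT_diag G1 hdet ⟨x, (LemmaT_mem_S G1 x).2 h10⟩
  rw [← had] at hd
  have hpow : (((x ^ p : G1) : GL (Fin 2) k) : M2 k)
      = algebraMap k (M2 k) (((x : GL (Fin 2) k) : M2 k) 0 0) := by
    rw [Subgroup.coe_pow, Units.val_pow_eq_pow_val,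
      LemmaT_pow_p p _ _ (LemmaT_sq_zero _ _ h10 rfl had.symm), LemmaT_pow_odd hodd hd]
  refine ⟨x ^ p, ?_, ?_⟩
  · rw [LemmaT_mem_Z', hpow]
    simp [Matrix.algebraMap_matrix_apply]
  · rw [hpow]
    simp [Matrix.algebraMap_matrix_apply]

/-- `t ↦ t₀₀` on `{± u}`. -/
def LemmaT_chi1 : (LemmaT_lam G1).ker →* kˣ := (LemmaT_chi G1).comp (LemmaT_lam G1).ker.subtype

omit hdet in
lemma LemmaT_chi1_apply (x : (LemmaT_lam G1).ker) :
    ((LemmaT_chi1 G1 x : kˣ) : k) = (((x.1 : G1) : GL (Fin 2) k) : M2 k) 0 0 := rfl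

lemma LemmaT_card_ker_chi1 : Nat.card (LemmaT_chi1 G1).ker = Nat.card (XX G1) := by
  let f : (LemmaT_chi1 G1).ker → k := fun x => (((x.1.1 : G1) : GL (Fin 2) k) : M2 k) 0 1
  have hent : ∀ x : (LemmaT_chi1 G1).ker, (((x.1.1 : G1) : GL (Fin 2) k) : M2 k) 0 0 = 1 ∧
      (((x.1.1 : G1) : GL (Fin 2) k) : M2 k) 1 0 = 0 ∧
      (((x.1.1 : G1) : GL (Fin 2) k) : M2 k) 1 1 = 1 := by
    intro x
    have h1 : (((x.1.1 : G1) : GL (Fin 2) k) : M2 k) 0 0 = 1 := by
      have := x.2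
      rw [MonoidHom.mem_ker, ← Units.val_inj, LemmaT_chi1_apply, Units.val_one] at this
      exact this
    have h2 := LemmaT_diag G1 hdet x.1.1
    rw [h1, one_mul] at h2
    exact ⟨h1, (LemmaT_mem_S G1 x.1.1.1).1 x.1.1.2, h2⟩
  have heq : ∀ x : (LemmaT_chi1 G1).ker, ((x.1.1 : G1) : GL (Fin 2) k) = uu (f x) := by
    intro x
    obtain ⟨h1, h2, h3⟩ := hent x
    exact LemmaT_ext h1 rfl h2 h3
  have hinj : Function.Injective f := by
    intro x y hxy
    apply Subtype.ext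
    apply Subtype.ext
    apply Subtype.ext
    apply Subtype.ext
    rw [heq x, heq y, hxy]
  have hrange : Set.range f = XX G1 := by
    ext y
    constructor
    · rintro ⟨x, rfl⟩
      show uu (f x) ∈ G1
      rw [← heq x]
      exact x.1.1.1.2
    · intro hy
      have hy' : uu y ∈ G1 := hy
      let x0 : LemmaT_S G1 := ⟨⟨uu y, hy'⟩, (LemmaT_mem_S G1 _).2 rfl⟩
      let x1 : (LemmaT_lam G1).ker := ⟨x0, (LemmaT_mem_ker_lam G1 hdet x0).2 rfl⟩
      have hx1 : x1 ∈ (LemmaT_chi1 G1).ker := by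
        rw [MonoidHom.mem_ker, ← Units.val_inj, LemmaT_chi1_apply, Units.val_one]
        rfl
      exact ⟨⟨x1, hx1⟩, rfl⟩
  rw [← hrange, Nat.card_range_of_injective hinj]

lemma LemmaT_card_range_chi1 (p : ℕ) [Fact p.Prime] [CharP k p] (hp2 : p ≠ 2) :
    Nat.card (LemmaT_chi1 G1).range = Nat.card (LemmaT_Z G1) := by
  have hZ : ∀ ζ : LemmaT_Z G1, ∃ x : (LemmaT_lam G1).ker, (x.1 : G1) = ζ.1 := by
    intro ζ
    obtain ⟨h1, -, h3⟩ := (LemmaT_mem_Z' G1 ζ.1).1 ζ.2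
    exact ⟨⟨⟨ζ.1, (LemmaT_mem_S G1 _).2 h1⟩, (LemmaT_mem_ker_lam G1 hdet _).2 h3⟩, rfl⟩
  choose j hj using hZ
  let g : LemmaT_Z G1 → kˣ := fun ζ => LemmaT_chi1 G1 (j ζ)
  have hg : ∀ ζ : LemmaT_Z G1, ((g ζ : kˣ) : k) = (((ζ : G1) : GL (Fin 2) k) : M2 k) 0 0 := by
    intro ζ
    show ((LemmaT_chi1 G1 (j ζ) : kˣ) : k) = _
    rw [LemmaT_chi1_apply, hj]
  have hinj : Function.Injective g := by
    intro ζ ζ' h
    have h0 : (((ζ : G1) : GL (Fin 2) k) : M2 k) 0 0 = (((ζ' : G1) : GL (Fin 2) k) : M2 k) 0 0 := by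
      rw [← hg, ← hg, h]
    obtain ⟨h1, h2, h3⟩ := (LemmaT_mem_Z' G1 ζ.1).1 ζ.2
    obtain ⟨h1', h2', h3'⟩ := (LemmaT_mem_Z' G1 ζ'.1).1 ζ'.2
    apply Subtype.ext
    apply Subtype.ext
    exact LemmaT_ext h0 (h2.trans h2'.symm) (h1.trans h1'.symm) (by rw [← h3, ← h3', h0])
  have hrange : Set.range g = ((LemmaT_chi1 G1).range : Set kˣ) := by
    ext u
    constructor
    · rintro ⟨ζ, rfl⟩
      exact ⟨j ζ, rfl⟩
    · rintro ⟨x, rfl⟩
      obtain ⟨ζ, hζ, h0⟩ := LemmaT_exists_Z G1 hdet p hp2 x.1.1 ((LemmaT_mem_S G1 _).1 x.1.2)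
        ((LemmaT_mem_ker_lam G1 hdet x.1).1 x.2)
      refine ⟨⟨ζ, hζ⟩, ?_⟩
      apply Units.ext
      rw [hg, LemmaT_chi1_apply]
      exact h0
  have := Nat.card_range_of_injective hinj
  rw [hrange] at this
  exact this

/-- (K3) -/
lemma LemmaT_card_ker_lam (p : ℕ) [Fact p.Prime] [CharP k p] (hp2 : p ≠ 2) :
    Nat.card (LemmaT_lam G1).ker = Nat.card (LemmaT_Z G1) * Nat.card (XX G1) := by
  rw [LemmaT_card_hom (LemmaT_chi1 G1), LemmaT_card_ker_chi1 G1 hdet,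
    LemmaT_card_range_chi1 G1 hdet p hp2, mul_comm]

/-- (H5) -/
lemma LemmaT_card_stab (p : ℕ) [Fact p.Prime] [CharP k p] (hp2 : p ≠ 2) :
    Nat.card (MulAction.stabilizer G1 (∞ : OnePoint k)) =
      Nat.card (LemmaT_Z G1) * Nat.card (XX G1) * Nat.card (Lam G1) := by
  rw [LemmaT_card_hom (LemmaT_lam G1), LemmaT_card_ker_lam G1 hdet p hp2,
    LemmaT_card_range_lam G1 hdet]

/-- (H3) -/
lemma LemmaT_card_T [Finite k] (p : ℕ) [Fact p.Prime] [CharP k p] (hp2 : p ≠ 2) :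
    Nat.card {x : G1 // x ∉ LemmaT_Z G1 ∧ ∀ ω' : OnePoint k, x • ω' = ω' ↔ ω' = ∞} =
      Nat.card (LemmaT_Z G1) * (Nat.card (XX G1) - 1) := by
  let f : (LemmaT_lam G1).ker → G1 := fun x => x.1.1
  have hinj : Function.Injective f := fun x y h => Subtype.ext (Subtype.ext h)
  have hset : {x : G1 | x ∉ LemmaT_Z G1 ∧ ∀ ω' : OnePoint k, x • ω' = ω' ↔ ω' = ∞}
      = Set.range f \ (LemmaT_Z G1 : Set G1) := by
    ext x
    constructor
    · rintro ⟨hxZ, hx⟩
      have h10 : ((x : GL (Fin 2) k) : M2 k) 1 0 = 0 := (LemmaT_fix_infty _).1 ((hx ∞).2 rfl)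
      have had : ((x : GL (Fin 2) k) : M2 k) 0 0 = ((x : GL (Fin 2) k) : M2 k) 1 1 := by
        by_contra hne
        have hDA : ((x : GL (Fin 2) k) : M2 k) 1 1 - ((x : GL (Fin 2) k) : M2 k) 0 0 ≠ 0 :=
          fun h => hne (sub_eq_zero.1 h).symm
        set w : k := ((x : GL (Fin 2) k) : M2 k) 0 1 / (((x : GL (Fin 2) k) : M2 k) 1 1 -
            ((x : GL (Fin 2) k) : M2 k) 0 0) with hw
        have hfix : x • (w : OnePoint k) = w := by
          refine (LemmaT_fix_coe (x : GL (Fin 2) k) _).2 ?_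
          rw [h10, hw]
          field_simp
          ring
        exact coe_ne_infty _ ((hx _).1 hfix)
      exact ⟨⟨⟨⟨x, (LemmaT_mem_S G1 _).2 h10⟩, (LemmaT_mem_ker_lam G1 hdet _).2 had⟩, rfl⟩, hxZ⟩
    · rintro ⟨⟨y, rfl⟩, hxZ⟩
      refine ⟨hxZ, fun ω' => ?_⟩
      have h10 := (LemmaT_mem_S G1 _).1 y.1.2
      have had := (LemmaT_mem_ker_lam G1 hdet y.1).1 y.2
      have hB : (((y.1 : G1) : GL (Fin 2) k) : M2 k) 0 1 ≠ 0 := fun hB =>
        hxZ ((LemmaT_mem_Z' G1 _).2 ⟨h10, hB, had⟩)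
      cases ω' with
      | infty =>
        simp only [iff_true]
        exact (LemmaT_fix_infty _).2 h10
      | coe w =>
        simp only [coe_ne_infty, iff_false]
        intro hw
        have h4 : (((y.1 : G1) : GL (Fin 2) k) : M2 k) 1 0 * w ^ 2 +
            ((((y.1 : G1) : GL (Fin 2) k) : M2 k) 1 1 - (((y.1 : G1) : GL (Fin 2) k) : M2 k) 0 0) * w
            - (((y.1 : G1) : GL (Fin 2) k) : M2 k) 0 1 = 0 := (LemmaT_fix_coe _ w).1 hw
        rw [h10, had] at h4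
        apply hB
        simpa using h4
  have hsub : (LemmaT_Z G1 : Set G1) ⊆ Set.range f := by
    intro ζ hζ
    obtain ⟨h1, -, h3⟩ := (LemmaT_mem_Z' G1 ζ).1 hζ
    exact ⟨⟨⟨ζ, (LemmaT_mem_S G1 _).2 h1⟩, (LemmaT_mem_ker_lam G1 hdet _).2 h3⟩, rfl⟩
  show Nat.card ↥{x : G1 | x ∉ LemmaT_Z G1 ∧ ∀ ω' : OnePoint k, x • ω' = ω' ↔ ω' = ∞} = _
  rw [hset, Nat.card_coe_set_eq, Set.ncard_sdiff hsub (Set.toFinite _), ← Nat.card_coe_set_eq,
    Nat.card_range_of_injective hinj, LemmaT_card_ker_lam G1 hdet p hp2, Nat.mul_sub, mul_one]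
  rfl

omit hdet in
/-- (H6) -/
lemma LemmaT_card_orbit [Finite k] (g : GL (Fin 2) k) (hg : g ∈ G1) (hg10 : (g : M2 k) 1 0 ≠ 0) :
    Nat.card (XX G1) + 1 ≤ Nat.card (MulAction.orbit G1 (∞ : OnePoint k)) := by
  have hfin : Finite (OnePoint k) := inferInstanceAs (Finite (Option k))
  set c : k := (g : M2 k) 0 0 / (g : M2 k) 1 0 with hc
  have hgc : g • (∞ : OnePoint k) = c := by
    rw [smul_infty_eq_ite, if_neg hg10]
  let W : Set (OnePoint k) := insert ∞ ((fun y : k => ((c + y : k) : OnePoint k)) '' XX G1)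
  have hW : W ⊆ MulAction.orbit G1 (∞ : OnePoint k) := by
    rintro ω (rfl | ⟨y, hy, rfl⟩)
    · exact MulAction.mem_orbit_self _
    · have hy' : uu y ∈ G1 := hy
      refine ⟨⟨uu y, hy'⟩ * ⟨g, hg⟩, ?_⟩
      show (uu y * g) • (∞ : OnePoint k) = _
      rw [mul_smul, hgc, smul_some_eq_ite]
      simp
  have hinj : Function.Injective (fun y : k => ((c + y : k) : OnePoint k)) := by
    intro y y' h
    exact add_left_cancel (coe_injective h)
  have hcard : W.ncard = Nat.card (XX G1) + 1 := by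
    rw [Set.ncard_insert_of_notMem (by simp) (Set.toFinite _), Set.ncard_image_of_injective _ hinj,
      Nat.card_coe_set_eq]
  rw [← hcard, Nat.card_coe_set_eq]
  exact Set.ncard_le_ncard hW (Set.toFinite _)

/-- (H4) -/
lemma LemmaT_mem_orbit [Finite k] (p : ℕ) [Fact p.Prime] [CharP k p] (hp2 : p ≠ 2)
    (hsplit : ∀ g ∈ G1, ∃ a b : k, (g : M2 k).charpoly = (X - C a) * (X - C b))
    (x₀ : k) (hx₀ : x₀ ≠ 0) (hx₀G : uu x₀ ∈ G1) (x : G1) (ω : OnePoint k)
    (hxZ : x ∉ LemmaT_Z G1) (hx : ∀ ω' : OnePoint k, x • ω' = ω' ↔ ω' = ω) :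
    ω ∈ MulAction.orbit G1 (∞ : OnePoint k) := by
  have hfin : Finite (OnePoint k) := inferInstanceAs (Finite (Option k))
  by_contra hω
  have hodd : Odd p := (Fact.out : p.Prime).odd_of_ne_two hp2
  -- first congruence
  have h1 : Nat.card (MulAction.orbit G1 (∞ : OnePoint k)) ≡ 1 [MOD p] := by
    have hu : (⟨uu x₀, hx₀G⟩ : G1) ^ p = 1 := Subtype.ext (LemmaT_uu_pow p x₀)
    have h := LemmaT_card_modEq (α := MulAction.orbit G1 (∞ : OnePoint k)) p _ hu
    have h2 : Nat.card {a : MulAction.orbit G1 (∞ : OnePoint k) //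
        (⟨uu x₀, hx₀G⟩ : G1) • a = a} = 1 := by
      rw [Nat.card_eq_one_iff_exists]
      refine ⟨⟨⟨∞, MulAction.mem_orbit_self _⟩, Subtype.ext ((LemmaT_fix_infty (uu x₀)).2 rfl)⟩, ?_⟩
      rintro ⟨⟨a, ha⟩, hfix⟩
      apply Subtype.ext
      apply Subtype.ext
      show a = ∞
      have hfix' : uu x₀ • a = a := congrArg Subtype.val hfix
      cases a with
      | infty => rfl
      | coe w =>
        exfalso
        have := (LemmaT_fix_coe _ w).1 hfix'
        apply hx₀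
        simpa using this
    rwa [h2] at h
  -- second congruence
  have h0 : Nat.card (MulAction.orbit G1 (∞ : OnePoint k)) ≡ 0 [MOD p] := by
    obtain ⟨a, b, hc⟩ := hsplit x x.2
    have hns : ¬ ∀ ω : OnePoint k, (x : GL (Fin 2) k) • ω = ω := fun h =>
      hxZ ((LemmaT_mem_Z G1 x).2 h)
    have hab : a = b := by
      rcases LemmaT_fixedPoints (x : GL (Fin 2) k) (hdet _ x.2) a b hc hns with h | h
      · exact h.1
      · exfalso
        obtain ⟨ω₁, ω₂, hne, hf⟩ := h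
        have e1 : ω₁ = ω := (hx ω₁).1 ((hf ω₁).2 (Or.inl rfl))
        have e2 : ω₂ = ω := (hx ω₂).1 ((hf ω₂).2 (Or.inr rfl))
        exact hne (e1.trans e2.symm)
    subst hab
    have haa : a * a = 1 := by
      rw [← (LemmaT_charpoly _ a a hc).2]
      exact hdet _ x.2
    have hCH : (((x : GL (Fin 2) k) : M2 k) - algebraMap k (M2 k) a) *
        (((x : GL (Fin 2) k) : M2 k) - algebraMap k (M2 k) a) = 0 := by
      have := Matrix.aeval_self_charpoly ((x : GL (Fin 2) k) : M2 k)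
      rw [hc] at this
      simpa using this
    have hpow : (((x ^ p : G1) : GL (Fin 2) k) : M2 k) = algebraMap k (M2 k) a := by
      rw [Subgroup.coe_pow, Units.val_pow_eq_pow_val, LemmaT_pow_p p _ _ hCH,
        LemmaT_pow_odd hodd haa]
    have htriv : ∀ ω' : OnePoint k, (x ^ p) • ω' = ω' := by
      refine (LemmaT_kernel ((x ^ p : G1) : GL (Fin 2) k)).2 ?_
      rw [hpow]
      simp [Matrix.algebraMap_matrix_apply]
    have hx' : (x ^ (p + 1)) ^ p = 1 := by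
      rw [← pow_mul, mul_comm, pow_mul]
      apply Subtype.ext
      apply Units.ext
      rw [Subgroup.coe_pow, Units.val_pow_eq_pow_val, hpow, ← map_pow, pow_succ,
        LemmaT_pow_odd hodd haa, haa, map_one]
      rfl
    have h := LemmaT_card_modEq (α := MulAction.orbit G1 (∞ : OnePoint k)) p _ hx'
    have h2 : Nat.card {a : MulAction.orbit G1 (∞ : OnePoint k) // (x ^ (p + 1)) • a = a} = 0 := by
      have : IsEmpty {a : MulAction.orbit G1 (∞ : OnePoint k) // (x ^ (p + 1)) • a = a} := by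
        refine ⟨?_⟩
        rintro ⟨⟨a', ha'⟩, hfix⟩
        have hfix' : (x ^ (p + 1)) • a' = a' := congrArg Subtype.val hfix
        rw [pow_succ, mul_smul, htriv] at hfix'
        exact hω ((hx a').1 hfix' ▸ ha')
      exact Nat.card_of_isEmpty
    rwa [h2] at h
  have h2 : 1 ≡ 0 [MOD p] := h1.symm.trans h0
  have h3 : p ∣ 1 := (Nat.modEq_zero_iff_dvd.1 h2)
  exact (Fact.out : p.Prime).one_lt.ne' (Nat.dvd_one.1 h3)

end Main

/-- **Lemma T**. -/
theorem lemmaT (h : Stmt_Count) : Stmt_LemmaT := by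
  intro p _ k _ _ _ hp2 G1 hdet hsplit hx hg
  obtain ⟨x₀, hx₀, hx₀G⟩ := hx
  obtain ⟨g, hg, hg10⟩ := hg
  classical
  have hfin : Finite (OnePoint k) := inferInstanceAs (Finite (Option k))
  refine h G1 (OnePoint k) (LemmaT_Z G1) ∞ (Nat.card (XX G1)) (Nat.card (Lam G1)) ?_
    (LemmaT_mem_Z G1) ?_ (LemmaT_card_T G1 hdet p hp2)
    (fun x ω hxZ hx => LemmaT_mem_orbit G1 hdet p hp2 hsplit x₀ hx₀ hx₀G x ω hxZ hx)
    (LemmaT_card_stab G1 hdet p hp2) (LemmaT_card_orbit G1 g hg hg10)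
  · rw [Nat.card_coe_set_eq, Nat.succ_le_iff, Set.one_lt_ncard_iff (Set.toFinite _)]
    refine ⟨0, x₀, ?_, hx₀G, hx₀.symm⟩
    show uu 0 ∈ G1
    have : (uu 0 : GL (Fin 2) k) = 1 := LemmaT_ext rfl rfl rfl rfl
    rw [this]
    exact G1.one_mem
  · intro x hxZ
    obtain ⟨a, b, hc⟩ := hsplit x x.2
    have hns : ¬ ∀ ω : OnePoint k, (x : GL (Fin 2) k) • ω = ω := fun h =>
      hxZ ((LemmaT_mem_Z G1 x).2 h)
    rcases LemmaT_fixedPoints (x : GL (Fin 2) k) (hdet _ x.2) a b hc hns with h | h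
    · exact Or.inl h.2
    · exact Or.inr h

end Fermat.Agent.TW56.Grp

end
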