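import Fermat.Agent.TW56.Grp.Interface

/-! # TW56 / Grp : GRP-AVG, averaging over `G ⧸ U`. -/

set_option autoImplicit false

noncomputable section

namespace Fermat.Agent.TW56.Grp

theorem avg : Stmt_Avg := by
  intro k M G _ _ _ _ _ a U hidx κ hκ hU
  classical
  have : Fintype (G ⧸ U) := Fintype.ofFinite _
  -- `κ` factors through `G ⧸ U`
  let kb : G ⧸ U → M := fun x => Quotient.liftOn' x κ (fun g g' h => by
    have h' : g⁻¹ * g' ∈ U := QuotientGroup.leftRel_apply.1 h
    have e := hκ g (g⁻¹ * g')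
    rw [mul_inv_cancel_left, hU _ h', map_zero, add_zero] at e
    exact e.symm)
  have hkb : ∀ g : G, kb (g : G ⧸ U) = κ g := fun g => rfl
  have hsm : ∀ (h : G) (x : G ⧸ U), kb (h • x) = κ h + a h (kb x) := by
    intro h x
    induction x using QuotientGroup.induction_on with
    | H g =>
      have : h • (g : G ⧸ U) = ((h * g : G) : G ⧸ U) := rfl
      rw [this, hkb, hkb, hκ]
  set s : M := ∑ x : G ⧸ U, kb x with hs
  have key : ∀ h : G, ((U.index : ℕ) : k) • κ h = s - a h s := by
    intro h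
    have e1 : ∑ x : G ⧸ U, kb (h • x) = s := Equiv.sum_comp (MulAction.toPerm h) kb
    have e2 : ∑ x : G ⧸ U, kb (h • x) = (Fintype.card (G ⧸ U)) • κ h + a h s := by
      simp only [hsm]
      rw [Finset.sum_add_distrib, Finset.sum_const, Finset.card_univ, hs, map_sum]
    have e3 : Fintype.card (G ⧸ U) = U.index := by
      rw [Subgroup.index, Nat.card_eq_fintype_card]
    rw [e1, e3] at e2
    rw [Nat.cast_smul_eq_nsmul, eq_sub_iff_add_eq]
    exact e2.symm
  refine ⟨-(((U.index : ℕ) : k)⁻¹ • s), fun g => ?_⟩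
  have h1 : κ g = ((U.index : ℕ) : k)⁻¹ • (s - a g s) := by
    rw [← key g, smul_smul, inv_mul_cancel₀ hidx, one_smul]
  rw [h1, map_neg, map_smul, smul_sub]
  abel

end Fermat.Agent.TW56.Grp

end
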