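import Fermat.Agent.TW56.Grp.Interface

/-!
# TW56 / Grp / COCU : the functional equations of a cocycle on `U`
-/

set_option autoImplicit false

namespace Fermat.Agent.TW56.Grp

theorem CocU_prime_ne_zero (p : ℕ) [hp : Fact p.Prime] (k : Type) [Field k] [CharP k p] (q : ℕ)
    (hq : q.Prime) (hpq : p ≠ q) : ((q : ℕ) : k) ≠ 0 := by
  intro h
  rw [CharP.cast_eq_zero_iff k p q] at h
  exact hpq ((Nat.prime_dvd_prime_iff_eq hp.out hq).1 h)

theorem cocU : Stmt_CocU := by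
  intro p _ k _ _ hp2 X α β γ hX hG hB hA
  obtain ⟨x0, hx0, hx0ne⟩ := hX
  have h2 : (2 : k) ≠ 0 := by
    have := CocU_prime_ne_zero p k 2 Nat.prime_two hp2
    exact_mod_cast this
  -- `γ`
  have hGs : ∀ x ∈ X, ∀ y ∈ X, x * γ y = y * γ x := by
    intro x hx y hy
    have h1 := hB x hx y hy
    have h1' := hB y hy x hx
    rw [add_comm y x] at h1'
    linear_combination h1' - h1
  obtain ⟨c₀, hc₀⟩ : ∃ c₀ : k, c₀ = γ x0 / x0 := ⟨_, rfl⟩
  have hγ : ∀ x ∈ X, γ x = c₀ * x := by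
    intro x hx
    have h1 := hGs x0 hx0 x hx
    rw [hc₀]
    field_simp
    linear_combination h1
  -- `β`
  have hBs : ∀ x ∈ X, ∀ y ∈ X,
      x * (β y - c₀ * y ^ 2 / 2) = y * (β x - c₀ * x ^ 2 / 2) := by
    intro x hx y hy
    have h1 := hA x hx y hy
    have h1' := hA y hy x hx
    rw [add_comm y x, hγ x hx] at h1'
    rw [hγ y hy] at h1
    have h3 : 2 * (x * (β y - c₀ * y ^ 2 / 2)) = 2 * (y * (β x - c₀ * x ^ 2 / 2)) := by
      field_simp
      linear_combination h1 - h1'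
    exact mul_left_cancel₀ h2 h3
  obtain ⟨c₁, hc₁⟩ : ∃ c₁ : k, c₁ = (β x0 - c₀ * x0 ^ 2 / 2) / x0 := ⟨_, rfl⟩
  have hβ : ∀ x ∈ X, β x = c₀ * x ^ 2 / 2 + c₁ * x := by
    intro x hx
    have h1 := hBs x0 hx0 x hx
    have h3 : c₁ * x0 = β x0 - c₀ * x0 ^ 2 / 2 := by
      rw [hc₁]
      field_simp
    have h4 : x0 * (β x - (c₀ * x ^ 2 / 2 + c₁ * x)) = 0 := by
      linear_combination h1 - x * h3
    have h5 := (mul_eq_zero.1 h4).resolve_left hx0ne
    linear_combination h5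
  -- `p = 3`
  have hp3 : p = 3 → c₀ = 0 := by
    intro hp
    subst hp
    have h3 : (3 : k) = 0 := by
      have := CharP.cast_eq_zero k 3
      exact_mod_cast this
    have hxx : x0 + x0 ∈ X := X.add_mem hx0 hx0
    have A0 := hA 0 X.zero_mem 0 X.zero_mem
    have A1 := hA x0 hx0 x0 hx0
    have A2 := hA (x0 + x0) hxx x0 hx0
    have hz : x0 + x0 + x0 = 0 := by linear_combination x0 * h3
    rw [hz] at A2
    rw [add_zero] at A0
    have hα0 : α 0 = 0 := by linear_combination -A0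
    rw [hα0] at A2
    have h4 : x0 ^ 2 * γ x0 = 0 := by
      linear_combination -A2 - A1 + (- α x0 + 2 * x0 * β x0 + 2 * x0 ^ 2 * γ x0) * h3
    have h5 : γ x0 = 0 := (mul_eq_zero.1 h4).resolve_left (pow_ne_zero 2 hx0ne)
    rw [hc₀, h5, zero_div]
  refine ⟨c₀, c₁, hp3, hγ, hβ, ?_⟩
  intro x hx y hy
  have h1 := hA x hx y hy
  rw [hγ y hy, hβ y hy] at h1
  by_cases hp : p = 3
  · have hc := hp3 hp
    rw [hc] at h1 ⊢
    linear_combination h1
  · have h3 : (3 : k) ≠ 0 := by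
      have := CocU_prime_ne_zero p k 3 Nat.prime_three hp
      exact_mod_cast this
    rw [h1]
    field_simp
    ring

end Fermat.Agent.TW56.Grp
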