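/-
TEAM TW56 -> S56, block [GRP], task GRP-COKER (helper31): the linear form `m ↦ trace (m h)`.
-/
import Fermat.Agent.TW56.Grp.Interface

set_option autoImplicit false

namespace Fermat.Agent.TW56.Grp

open Matrix Polynomial

/-- the linear form `m ↦ trace (m * h)`. -/
noncomputable def Coker_phi {k : Type} [Field k] (h : M2 k) : M2 k →ₗ[k] k :=
  (Matrix.traceLinearMap (Fin 2) k k).comp (LinearMap.mulRight k h)

theorem Coker_phi_apply {k : Type} [Field k] (h m : M2 k) : Coker_phi h m = (m * h).trace := rfl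

theorem Coker_root {k : Type} [Field k] (h : M2 k) (a b : k)
    (hc : h.charpoly = (X - C a) * (X - C b)) :
    a ^ 2 - h.trace * a + h.det = 0 ∧ b ^ 2 - h.trace * b + h.det = 0 := by
  rw [Matrix.charpoly_fin_two] at hc
  constructor
  · have := congrArg (Polynomial.eval a) hc
    simpa using this
  · have := congrArg (Polynomial.eval b) hc
    simpa using this

theorem Coker_trE {k : Type} [Field k] (H : M2 k) : ((!![0, 1; 0, 0] : M2 k) * H).trace = H 1 0 := by
  rw [Matrix.trace_fin_two, Matrix.mul_apply, Matrix.mul_apply, Fin.sum_univ_two, Fin.sum_univ_two]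
  simp

theorem Coker_trF {k : Type} [Field k] (H : M2 k) : ((!![0, 0; 1, 0] : M2 k) * H).trace = H 0 1 := by
  rw [Matrix.trace_fin_two, Matrix.mul_apply, Matrix.mul_apply, Fin.sum_univ_two, Fin.sum_univ_two]
  simp

theorem Coker_trH {k : Type} [Field k] (H : M2 k) :
    ((!![1, 0; 0, -1] : M2 k) * H).trace = H 0 0 - H 1 1 := by
  rw [Matrix.trace_fin_two, Matrix.mul_apply, Matrix.mul_apply, Fin.sum_univ_two, Fin.sum_univ_two]
  simp [sub_eq_add_neg]

/-- a matrix with distinct eigenvalues is not killed by all traceless test matrices. -/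
theorem Coker_nonzero {k : Type} [Field k] (H : M2 k) (a b : k) (hab : a ≠ b)
    (hc : H.charpoly = (X - C a) * (X - C b)) : ∃ m : M2 k, m.trace = 0 ∧ Coker_phi H m ≠ 0 := by
  by_contra hcon
  push Not at hcon
  have e1 := hcon !![0, 1; 0, 0] (by simp [Matrix.trace_fin_two])
  have e2 := hcon !![0, 0; 1, 0] (by simp [Matrix.trace_fin_two])
  have e3 := hcon !![1, 0; 0, -1] (by simp [Matrix.trace_fin_two])
  rw [Coker_phi_apply, Coker_trE] at e1
  rw [Coker_phi_apply, Coker_trF] at e2
  rw [Coker_phi_apply, Coker_trH] at e3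
  obtain ⟨ha, hb⟩ := Coker_root H a b hc
  rw [Matrix.trace_fin_two, Matrix.det_fin_two, e1, e2] at ha hb
  have e4 : H 1 1 = H 0 0 := by linear_combination -e3
  rw [e4] at ha hb
  have ha' : (a - H 0 0) ^ 2 = 0 := by linear_combination ha
  have hb' : (b - H 0 0) ^ 2 = 0 := by linear_combination hb
  have ha'' := (pow_eq_zero_iff (two_ne_zero)).mp ha'
  have hb'' := (pow_eq_zero_iff (two_ne_zero)).mp hb'
  exact hab (by linear_combination ha'' - hb'')

theorem coker : Stmt_Coker := by
  intro k _ h a b hab hc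
  refine ⟨Coker_phi (h : M2 k), Coker_nonzero _ a b hab hc, ?_⟩
  intro m
  rw [map_sub, Coker_phi_apply, Coker_phi_apply]
  have hinv : ((h⁻¹ : GL (Fin 2) k) : M2 k) * (h : M2 k) = 1 := by
    rw [← Units.val_mul, inv_mul_cancel, Units.val_one]
  rw [Matrix.mul_assoc, hinv, Matrix.mul_one, Matrix.trace_mul_comm, sub_self]

end Fermat.Agent.TW56.Grp

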