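import Fermat.Agent.TW56.Grp.Interface

/-!
# TW56 / Grp : GRP-CONJ, conjugation invariance (helper9)
-/

set_option autoImplicit false

noncomputable section

namespace Fermat.Agent.TW56.Grp

open Matrix Polynomial

variable {k : Type} [Field k]

theorem Conj_inv_mul (P : GL (Fin 2) k) : ((P⁻¹ : GL (Fin 2) k) : M2 k) * (P : M2 k) = 1 :=
  Units.inv_mul P

theorem Conj_mul_inv (P : GL (Fin 2) k) : (P : M2 k) * ((P⁻¹ : GL (Fin 2) k) : M2 k) = 1 :=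
  Units.mul_inv P

theorem Conj_val (P g : GL (Fin 2) k) : ((P * g * P⁻¹ : GL (Fin 2) k) : M2 k)
    = (P : M2 k) * (g : M2 k) * ((P⁻¹ : GL (Fin 2) k) : M2 k) := rfl

theorem Conj_cancel (P : GL (Fin 2) k) (x : M2 k) :
    ((P⁻¹ : GL (Fin 2) k) : M2 k) * ((P : M2 k) * x * ((P⁻¹ : GL (Fin 2) k) : M2 k)) * (P : M2 k)
      = x := by
  calc ((P⁻¹ : GL (Fin 2) k) : M2 k) * ((P : M2 k) * x * ((P⁻¹ : GL (Fin 2) k) : M2 k)) * (P : M2 k)
      = (((P⁻¹ : GL (Fin 2) k) : M2 k) * (P : M2 k)) * x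
        * (((P⁻¹ : GL (Fin 2) k) : M2 k) * (P : M2 k)) := by simp only [Matrix.mul_assoc]
    _ = x := by rw [Conj_inv_mul, Matrix.one_mul, Matrix.mul_one]

theorem Conj_cancel' (P : GL (Fin 2) k) (x : M2 k) :
    (P : M2 k) * (((P⁻¹ : GL (Fin 2) k) : M2 k) * x * (P : M2 k)) * ((P⁻¹ : GL (Fin 2) k) : M2 k)
      = x := by
  calc (P : M2 k) * (((P⁻¹ : GL (Fin 2) k) : M2 k) * x * (P : M2 k)) * ((P⁻¹ : GL (Fin 2) k) : M2 k)
      = ((P : M2 k) * ((P⁻¹ : GL (Fin 2) k) : M2 k)) * x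
        * ((P : M2 k) * ((P⁻¹ : GL (Fin 2) k) : M2 k)) := by simp only [Matrix.mul_assoc]
    _ = x := by rw [Conj_mul_inv, Matrix.one_mul, Matrix.mul_one]

theorem Conj_inj (P : GL (Fin 2) k) {a b : M2 k}
    (h : (P : M2 k) * a * ((P⁻¹ : GL (Fin 2) k) : M2 k)
      = (P : M2 k) * b * ((P⁻¹ : GL (Fin 2) k) : M2 k)) : a = b := by
  rw [← Conj_cancel P a, h, Conj_cancel]

theorem Conj_det (P g : GL (Fin 2) k) :
    ((P * g * P⁻¹ : GL (Fin 2) k) : M2 k).det = (g : M2 k).det := by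
  rw [Conj_val]
  exact Matrix.det_units_conj P (g : M2 k)

theorem Conj_charpoly (P g : GL (Fin 2) k) :
    ((P * g * P⁻¹ : GL (Fin 2) k) : M2 k).charpoly = (g : M2 k).charpoly := by
  rw [Conj_val, Matrix.charpoly_mul_comm, ← Matrix.mul_assoc, Conj_inv_mul, Matrix.one_mul]

theorem Conj_act (P g : GL (Fin 2) k) (m : M2 k) :
    act (P * g * P⁻¹) ((P : M2 k) * m * ((P⁻¹ : GL (Fin 2) k) : M2 k))
      = (P : M2 k) * act g m * ((P⁻¹ : GL (Fin 2) k) : M2 k) := by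
  unfold act
  have e1 : (P * g * P⁻¹)⁻¹ = P * g⁻¹ * P⁻¹ := by group
  rw [Conj_det, e1, Conj_val, Conj_val, Matrix.mul_smul, Matrix.smul_mul]
  congr 1
  calc (P : M2 k) * (g : M2 k) * ((P⁻¹ : GL (Fin 2) k) : M2 k)
        * ((P : M2 k) * m * ((P⁻¹ : GL (Fin 2) k) : M2 k))
        * ((P : M2 k) * ((g⁻¹ : GL (Fin 2) k) : M2 k) * ((P⁻¹ : GL (Fin 2) k) : M2 k))
      = (P : M2 k) * (g : M2 k) * (((P⁻¹ : GL (Fin 2) k) : M2 k) * (P : M2 k)) * m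
        * (((P⁻¹ : GL (Fin 2) k) : M2 k) * (P : M2 k)) * ((g⁻¹ : GL (Fin 2) k) : M2 k)
        * ((P⁻¹ : GL (Fin 2) k) : M2 k) := by simp only [Matrix.mul_assoc]
    _ = (P : M2 k) * ((g : M2 k) * m * ((g⁻¹ : GL (Fin 2) k) : M2 k))
        * ((P⁻¹ : GL (Fin 2) k) : M2 k) := by
      rw [Conj_inv_mul]
      simp only [Matrix.mul_one, Matrix.mul_assoc]

theorem Conj_mem {GG : Subgroup (GL (Fin 2) k)} {P g' : GL (Fin 2) k} :
    g' ∈ GG.map (MulAut.conj P).toMonoidHom ↔ ∃ g ∈ GG, P * g * P⁻¹ = g' := Iff.rfl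

theorem Conj_back (P g : GL (Fin 2) k) : P⁻¹ * (P * g * P⁻¹) * P = g := by group

theorem conj : Stmt_Conj := by
  intro p k _ GG P
  refine ⟨fun hB => ⟨?_, ?_, ?_⟩, fun κ => ⟨fun hc => ⟨?_, ?_⟩, ?_⟩⟩
  · rintro _ ⟨g, hg, rfl⟩
    obtain ⟨a, b, hab⟩ := hB.split g hg
    exact ⟨a, b, (Conj_charpoly P g).trans hab⟩
  · intro H' hH' hline
    apply hB.irr (H'.comap (MulAut.conj P).toMonoidHom)
    · refine ⟨?_, ?_⟩
      · intro h hh
        obtain ⟨g, hg, hgh⟩ := hH'.1 (Subgroup.mem_comap.1 hh)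
        have : g = h := (MulAut.conj P).injective hgh
        exact this ▸ hg
      · intro a ha b hb haH hbH
        rw [Subgroup.mem_comap, map_mul]
        exact hH'.2 _ ⟨a, ha, rfl⟩ _ ⟨b, hb, rfl⟩ haH hbH
    · obtain ⟨v, hv, hl⟩ := hline
      refine ⟨((P⁻¹ : GL (Fin 2) k) : M2 k) *ᵥ v, ?_, ?_⟩
      · intro h0
        apply hv
        have h1 : (P : M2 k) *ᵥ (((P⁻¹ : GL (Fin 2) k) : M2 k) *ᵥ v) = (P : M2 k) *ᵥ 0 := by
          rw [h0]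
        rwa [Matrix.mulVec_mulVec, Conj_mul_inv, Matrix.one_mulVec, Matrix.mulVec_zero] at h1
      · intro h hh
        obtain ⟨c, hc⟩ := hl _ (Subgroup.mem_comap.1 hh)
        refine ⟨c, ?_⟩
        have e1 : ((MulAut.conj P).toMonoidHom h : GL (Fin 2) k) = P * h * P⁻¹ := rfl
        rw [e1, Conj_val] at hc
        have := congrArg (fun w => ((P⁻¹ : GL (Fin 2) k) : M2 k) *ᵥ w) hc
        simp only [Matrix.mulVec_mulVec, Matrix.mulVec_smul] at this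
        rw [← this, Matrix.mulVec_mulVec]
        congr 1
        rw [← Matrix.mul_assoc, ← Matrix.mul_assoc, Conj_inv_mul, Matrix.one_mul]
  · intro a ha
    obtain ⟨g, hg, hd⟩ := hB.det a ha
    exact ⟨P * g * P⁻¹, ⟨g, hg, rfl⟩, (Conj_det P g).trans hd⟩
  · rintro _ ⟨g, hg, rfl⟩
    show ((P : M2 k) * κ (P⁻¹ * (P * g * P⁻¹) * P) * ((P⁻¹ : GL (Fin 2) k) : M2 k)).trace = 0
    rw [Conj_back]
    exact (Matrix.trace_units_conj P (κ g)).trans (hc.tr g hg)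
  · rintro _ ⟨g, hg, rfl⟩ _ ⟨h, hh, rfl⟩
    show (P : M2 k) * κ (P⁻¹ * ((P * g * P⁻¹) * (P * h * P⁻¹)) * P) * ((P⁻¹ : GL (Fin 2) k) : M2 k)
      = (P : M2 k) * κ (P⁻¹ * (P * g * P⁻¹) * P) * ((P⁻¹ : GL (Fin 2) k) : M2 k)
        + act (P * g * P⁻¹)
          ((P : M2 k) * κ (P⁻¹ * (P * h * P⁻¹) * P) * ((P⁻¹ : GL (Fin 2) k) : M2 k))
    have e1 : P⁻¹ * ((P * g * P⁻¹) * (P * h * P⁻¹)) * P = g * h := by group
    rw [e1, Conj_back, Conj_back, Conj_act, hc.coc g hg h hh, Matrix.mul_add, Matrix.add_mul]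
  · rintro ⟨m', hm', hcob⟩
    refine ⟨((P⁻¹ : GL (Fin 2) k) : M2 k) * m' * (P : M2 k), ?_, ?_⟩
    · exact (Matrix.trace_units_conj' P m').trans hm'
    · intro g hg
      have h1 := hcob (P * g * P⁻¹) ⟨g, hg, rfl⟩
      simp only [Conj_back] at h1
      apply Conj_inj P
      rw [h1, Matrix.mul_sub, Matrix.sub_mul, ← Conj_act, Conj_cancel']

end Fermat.Agent.TW56.Grp

end
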