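import Fermat.Agent.TW56.Grp.Interface

/-!
# TW56 / GRP-COUNT1 : the double counting identity behind `Stmt_Count`

`G` acts on `Ω` with kernel `Z`; every `x ∉ Z` has one or two fixed points; the `x ∉ Z` whose only
fixed point is `P` are `z (q - 1)` in number, and the unique fixed point of an `x ∉ Z` with one fixed
point lies in the orbit of `P`.  Then, with `z = #Z`, `n = #(G P)`,

  `∑_{ω ∉ G P} (#Stab ω - z) = #G - 2 z - z (q - 2) n`.

Proof: for `x ∉ Z` one has `#{ω : x ω = ω} + #{ω : ω is the only fixed point of x} = 2`.  Sum over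
`x` and exchange the two summations.
-/

set_option autoImplicit false

namespace Fermat.Agent.TW56.Grp

open MulAction

/-- GRP-COUNT1 : the counting identity (binders of `Stmt_Count` without its last hypothesis). -/
def Stmt_Count1 : Prop :=
  ∀ (G Ω : Type) [Group G] [Finite G] [Finite Ω] [MulAction G Ω] (Z : Subgroup G) (P : Ω)
    (q τ : ℕ), 2 ≤ q →
    (∀ x : G, x ∈ Z ↔ ∀ ω : Ω, x • ω = ω) →
    (∀ x : G, x ∉ Z → (∃ ω : Ω, ∀ ω' : Ω, x • ω' = ω' ↔ ω' = ω) ∨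
      ∃ ω₁ ω₂ : Ω, ω₁ ≠ ω₂ ∧ ∀ ω' : Ω, x • ω' = ω' ↔ (ω' = ω₁ ∨ ω' = ω₂)) →
    Nat.card {x : G // x ∉ Z ∧ ∀ ω' : Ω, x • ω' = ω' ↔ ω' = P} = Nat.card Z * (q - 1) →
    (∀ (x : G) (ω : Ω), x ∉ Z → (∀ ω' : Ω, x • ω' = ω' ↔ ω' = ω) → ω ∈ MulAction.orbit G P) →
    Nat.card (MulAction.stabilizer G P) = Nat.card Z * q * τ →
    (∑ᶠ ω : {ω : Ω // ω ∉ MulAction.orbit G P},
      ((Nat.card (MulAction.stabilizer G ω.1) : ℤ) - Nat.card Z)) =
      (Nat.card G : ℤ) - 2 * Nat.card Z -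
        Nat.card Z * ((q : ℤ) - 2) * Nat.card (MulAction.orbit G P)

theorem Count1_sum_ind {α : Type} [Fintype α] (p : α → Prop) [DecidablePred p] :
    (∑ x, if p x then (1 : ℤ) else 0) = Nat.card {x // p x} := by
  rw [Finset.sum_boole, Nat.card_eq_fintype_card, Fintype.card_subtype]

section

variable {G Ω : Type} [Group G] [MulAction G Ω]

theorem Count1_card_stab (g : G) (P : Ω) :
    Nat.card (stabilizer G (g • P)) = Nat.card (stabilizer G P) :=
  Nat.card_congr (stabilizerEquivStabilizer (rfl : g • P = g • P)).symm.toEquiv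

theorem Count1_card_orbit_mul (P : Ω) :
    Nat.card (orbit G P) * Nat.card (stabilizer G P) = Nat.card G := by
  rw [← Nat.card_prod]
  exact Nat.card_congr (orbitProdStabilizerEquivGroup G P)

theorem Count1_conj_mem {Z : Subgroup G} (hZ : ∀ x : G, x ∈ Z ↔ ∀ ω : Ω, x • ω = ω) (g x : G) :
    g⁻¹ * x * g ∈ Z ↔ x ∈ Z := by
  rw [hZ, hZ]
  constructor
  · intro h ω
    have h1 := h (g⁻¹ • ω)
    rw [mul_smul, mul_smul, smul_inv_smul, smul_left_cancel_iff] at h1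
    exact h1
  · intro h ω
    rw [mul_smul, mul_smul, h, inv_smul_smul]

theorem Count1_card_E {Z : Subgroup G} (hZ : ∀ x : G, x ∈ Z ↔ ∀ ω : Ω, x • ω = ω) (g : G)
    (P : Ω) :
    Nat.card {x : G // x ∉ Z ∧ ∀ ω' : Ω, x • ω' = ω' ↔ ω' = g • P} =
      Nat.card {x : G // x ∉ Z ∧ ∀ ω' : Ω, x • ω' = ω' ↔ ω' = P} := by
  refine Nat.card_congr (Equiv.subtypeEquiv (MulAut.conj g⁻¹).toEquiv ?_)
  intro x
  have e : (MulAut.conj g⁻¹).toEquiv x = g⁻¹ * x * g := by simp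
  rw [e, Count1_conj_mem hZ]
  refine and_congr_right fun _ => ?_
  constructor
  · intro h ω'
    rw [mul_smul, mul_smul, inv_smul_eq_iff, h, smul_left_cancel_iff]
  · intro h ω'
    have h1 := h (g⁻¹ • ω')
    rw [mul_smul, mul_smul, smul_inv_smul, smul_left_cancel_iff, inv_smul_eq_iff] at h1
    exact h1

end

/-- the identity, with `Fintype` sums. -/
theorem count1_sum (G Ω : Type) [Group G] [Fintype G] [Fintype Ω] [MulAction G Ω]
    (Z : Subgroup G) (P : Ω) [DecidablePred fun ω : Ω => ω ∉ orbit G P] (q : ℕ) (hq : 2 ≤ q)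
    (hZ : ∀ x : G, x ∈ Z ↔ ∀ ω : Ω, x • ω = ω)
    (h12 : ∀ x : G, x ∉ Z → (∃ ω : Ω, ∀ ω' : Ω, x • ω' = ω' ↔ ω' = ω) ∨
      ∃ ω₁ ω₂ : Ω, ω₁ ≠ ω₂ ∧ ∀ ω' : Ω, x • ω' = ω' ↔ (ω' = ω₁ ∨ ω' = ω₂))
    (hE : Nat.card {x : G // x ∉ Z ∧ ∀ ω' : Ω, x • ω' = ω' ↔ ω' = P} = Nat.card Z * (q - 1))
    (horb : ∀ (x : G) (ω : Ω), x ∉ Z → (∀ ω' : Ω, x • ω' = ω' ↔ ω' = ω) → ω ∈ orbit G P) :
    ∑ ω ∈ Finset.univ.filter (fun ω : Ω => ω ∉ orbit G P),
      ((Nat.card (stabilizer G ω) : ℤ) - Nat.card Z) =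
      (Nat.card G : ℤ) - 2 * Nat.card Z - Nat.card Z * ((q : ℤ) - 2) * Nat.card (orbit G P) := by
  classical
  -- Step A : pointwise count
  have hA : ∀ x : G, ∑ ω : Ω, ((if x ∉ Z ∧ x • ω = ω then (1 : ℤ) else 0) +
      (if x ∉ Z ∧ ∀ ω' : Ω, x • ω' = ω' ↔ ω' = ω then (1 : ℤ) else 0)) =
      2 - 2 * (if x ∈ Z then (1 : ℤ) else 0) := by
    intro x
    by_cases hx : x ∈ Z
    · simp [hx]
    · simp only [hx, not_false_eq_true, true_and, if_false]
      rw [Finset.sum_add_distrib]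
      rcases h12 x hx with ⟨ω₀, h0⟩ | ⟨ω₁, ω₂, hne, h0⟩
      · have e1 : ∀ ω : Ω, (∀ ω' : Ω, x • ω' = ω' ↔ ω' = ω) ↔ ω = ω₀ := by
          intro ω
          constructor
          · intro h
            exact (h0 ω).1 ((h ω).2 rfl)
          · rintro rfl
            exact h0
        simp only [e1]
        simp only [h0]
        simp
      · have e1 : ∀ ω : Ω, ¬ (∀ ω' : Ω, x • ω' = ω' ↔ ω' = ω) := by
          intro ω h
          have h1 : ω₁ = ω := (h ω₁).1 ((h0 ω₁).2 (Or.inl rfl))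
          have h2 : ω₂ = ω := (h ω₂).1 ((h0 ω₂).2 (Or.inr rfl))
          exact hne (h1.trans h2.symm)
        simp only [e1, if_false, Finset.sum_const_zero, add_zero]
        simp only [h0]
        have e2 : ∀ ω : Ω, (if ω = ω₁ ∨ ω = ω₂ then (1 : ℤ) else 0) =
            (if ω = ω₁ then 1 else 0) + (if ω = ω₂ then 1 else 0) := by
          intro ω
          by_cases h1 : ω = ω₁
          · have h2 : ω ≠ ω₂ := fun h => hne (h1.symm.trans h)
            simp [h1, hne]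
          · simp [h1]
        simp only [e2, Finset.sum_add_distrib]
        simp
  -- Step B : exchange the summations
  have ha : ∀ ω : Ω, ∑ x : G, (if x ∉ Z ∧ x • ω = ω then (1 : ℤ) else 0) =
      (Nat.card (stabilizer G ω) : ℤ) - Nat.card Z := by
    intro ω
    have h1 : ∑ x : G, (if x ∉ Z ∧ x • ω = ω then (1 : ℤ) else 0) +
        ∑ x : G, (if x ∈ Z then (1 : ℤ) else 0) = ∑ x : G, (if x • ω = ω then (1 : ℤ) else 0) := by
      rw [← Finset.sum_add_distrib]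
      refine Finset.sum_congr rfl fun x _ => ?_
      by_cases hx : x ∈ Z
      · simp [hx, (hZ x).1 hx ω]
      · simp [hx]
    rw [Count1_sum_ind (fun x : G => x ∈ Z), Count1_sum_ind (fun x : G => x • ω = ω)] at h1
    have h2 : Nat.card {x : G // x • ω = ω} = Nat.card (stabilizer G ω) := rfl
    have h3 : Nat.card {x : G // x ∈ Z} = Nat.card Z := rfl
    rw [h2, h3] at h1
    linarith
  have hB : ∑ ω : Ω, (((Nat.card (stabilizer G ω) : ℤ) - Nat.card Z) +
      (Nat.card {x : G // x ∉ Z ∧ ∀ ω' : Ω, x • ω' = ω' ↔ ω' = ω} : ℤ)) =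
      2 * Nat.card G - 2 * Nat.card Z := by
    have h1 : ∑ x : G, (2 - 2 * (if x ∈ Z then (1 : ℤ) else 0)) =
        2 * Nat.card G - 2 * Nat.card Z := by
      rw [Finset.sum_sub_distrib, ← Finset.mul_sum, Count1_sum_ind (fun x : G => x ∈ Z)]
      have h3 : Nat.card {x : G // x ∈ Z} = Nat.card Z := rfl
      rw [h3, Finset.sum_const, Finset.card_univ, Nat.card_eq_fintype_card]
      simp [mul_comm]
    rw [← h1, ← Finset.sum_congr rfl (fun x _ => hA x), Finset.sum_comm]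
    refine Finset.sum_congr rfl fun ω _ => ?_
    rw [Finset.sum_add_distrib, ha ω, Count1_sum_ind]
  -- Step C, D : the values on and off the orbit
  have hC : ∀ ω : Ω, (((Nat.card (stabilizer G ω) : ℤ) - Nat.card Z) +
      (Nat.card {x : G // x ∉ Z ∧ ∀ ω' : Ω, x • ω' = ω' ↔ ω' = ω} : ℤ)) =
      (if ω ∉ orbit G P then ((Nat.card (stabilizer G ω) : ℤ) - Nat.card Z) else 0) +
      ((Nat.card (stabilizer G P) : ℤ) - Nat.card Z + Nat.card Z * ((q : ℤ) - 1)) *
        (if ω ∈ orbit G P then (1 : ℤ) else 0) := by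
    intro ω
    by_cases hω : ω ∈ orbit G P
    · obtain ⟨g, rfl⟩ := hω
      have hm : g • P ∈ orbit G P := ⟨g, rfl⟩
      rw [Count1_card_stab, Count1_card_E hZ, hE]
      simp only [hm, not_true_eq_false, if_false, if_true]
      push_cast [Nat.cast_sub (by omega : 1 ≤ q)]
      ring
    · have hemp : IsEmpty {x : G // x ∉ Z ∧ ∀ ω' : Ω, x • ω' = ω' ↔ ω' = ω} :=
        ⟨fun x => hω (horb x.1 ω x.2.1 x.2.2)⟩
      have h0 : Nat.card {x : G // x ∉ Z ∧ ∀ ω' : Ω, x • ω' = ω' ↔ ω' = ω} = 0 :=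
        Nat.card_of_isEmpty
      rw [h0]
      simp [hω]
  rw [Finset.sum_congr rfl (fun ω _ => hC ω), Finset.sum_add_distrib, ← Finset.mul_sum,
    Count1_sum_ind (fun ω : Ω => ω ∈ orbit G P), ← Finset.sum_filter] at hB
  have h4 : Nat.card {ω : Ω // ω ∈ orbit G P} = Nat.card (orbit G P) := rfl
  rw [h4] at hB
  have h5 : (Nat.card (orbit G P) : ℤ) * Nat.card (stabilizer G P) = Nat.card G := by
    exact_mod_cast Count1_card_orbit_mul (G := G) P
  have h6 : ∑ ω ∈ Finset.univ.filter (fun ω : Ω => ω ∉ orbit G P),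
      ((Nat.card (stabilizer G ω) : ℤ) - Nat.card Z) =
      2 * Nat.card G - 2 * Nat.card Z -
      ((Nat.card (stabilizer G P) : ℤ) - Nat.card Z + Nat.card Z * ((q : ℤ) - 1)) *
        Nat.card (orbit G P) := by
    rw [← hB]
    have : ∀ a b : ℤ, a = a + b - b := fun a b => by ring
    convert this _ _
  rw [h6]
  linear_combination (-1 : ℤ) * h5

/-- **GRP-COUNT1** -/
theorem count1 : Stmt_Count1 := by
  intro G Ω _ _ _ _ Z P q τ hq hZ h12 hE horb _
  classical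
  have : Fintype G := Fintype.ofFinite G
  have : Fintype Ω := Fintype.ofFinite Ω
  rw [← count1_sum G Ω Z P q hq hZ h12 hE horb, finsum_eq_sum_of_fintype]
  exact (Finset.sum_subtype (Finset.univ.filter (fun ω : Ω => ω ∉ orbit G P))
    (fun ω => by rw [Finset.mem_filter]; exact ⟨fun h => h.2, fun h => ⟨Finset.mem_univ _, h⟩⟩)
    (fun ω => (Nat.card (stabilizer G ω) : ℤ) - Nat.card Z)).symm

end Fermat.Agent.TW56.Grp
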