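/-
TEAM TW56 -> S56, block [GRP], task GRP-COUNT2 (helper40; architect helper74).

`count : Count2_Stmt_Count1 → Stmt_Count` : the inequality `q - 1 ≤ 2 τ` from the double counting
identity `∑_{ω ∉ orbit P} (#Stab ω - z) = #G - 2 z - z (q - 2) n`.

`Count2_Stmt_Count1` is the identity in the form of the task text of GRP-COUNT1 (a `finsum` over the
subtype of the points outside the orbit of `P`).  `Count2_main` is the same result for one action,
with the identity as a hypothesis; `Count2_main'` is the variant with a `Finset.sum` over a filter.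
-/
import Fermat.Agent.TW56.Grp.Interface

set_option autoImplicit false

noncomputable section

namespace Fermat.Agent.TW56.Grp

/-- the counting identity (GRP-COUNT1), in the form of the task text. -/
def Count2_Stmt_Count1 : Prop :=
  ∀ (G Ω : Type) [Group G] [Finite G] [Finite Ω] [MulAction G Ω] (Z : Subgroup G) (P : Ω)
    (q τ : ℕ), 2 ≤ q →
    (∀ x : G, x ∈ Z ↔ ∀ ω : Ω, x • ω = ω) →
    (∀ x : G, x ∉ Z → (∃ ω : Ω, ∀ ω' : Ω, x • ω' = ω' ↔ ω' = ω) ∨
      ∃ ω₁ ω₂ : Ω, ω₁ ≠ ω₂ ∧ ∀ ω' : Ω, x • ω' = ω' ↔ (ω' = ω₁ ∨ ω' = ω₂)) →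
    Nat.card {x : G // x ∉ Z ∧ ∀ ω' : Ω, x • ω' = ω' ↔ ω' = P} = Nat.card Z * (q - 1) →
    (∀ (x : G) (ω : Ω), x ∉ Z → (∀ ω' : Ω, x • ω' = ω' ↔ ω' = ω) → ω ∈ MulAction.orbit G P) →
    Nat.card (MulAction.stabilizer G P) = Nat.card Z * q * τ →
    (∑ᶠ ω : {ω : Ω // ω ∉ MulAction.orbit G P},
      ((Nat.card (MulAction.stabilizer G ω.1) : ℤ) - Nat.card Z)) =
      (Nat.card G : ℤ) - 2 * Nat.card Z - Nat.card Z * (q - 2) * Nat.card (MulAction.orbit G P)

/-! ### arithmetic -/

/-- the final arithmetic step. -/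
lemma Count2_arith (q τ n n1 e1 : ℤ) (hq : 2 ≤ q) (hτ : 1 ≤ τ) (hn : q + 1 ≤ n)
    (h1 : n1 = 2 + (q - 2) * n) (h2 : n1 * e1 = q * τ * n) : q - 1 ≤ 2 * τ := by
  have hdvd : n1 ∣ 2 * q * τ := ⟨q * τ - (q - 2) * e1, by
    have : n1 * (q * τ - (q - 2) * e1) = q * τ * n1 - (q - 2) * (n1 * e1) := by ring
    rw [this, h2, h1]; ring⟩
  have hpos : 0 < 2 * q * τ := by positivity
  have hle : n1 ≤ 2 * q * τ := Int.le_of_dvd hpos hdvd
  have hlow : q * (q - 1) ≤ n1 := by
    rw [h1]; nlinarith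
  have h3 : q * (q - 1) ≤ q * (2 * τ) := by nlinarith
  exact le_of_mul_le_mul_left h3 (by linarith)

/-- `T ≠ 0`. -/
lemma Count2_arith0 (q τ n : ℤ) (hq : 2 ≤ q) (hn : q + 1 ≤ n)
    (h : q * τ * n = 2 + (q - 2) * n) : False := by
  have hdvd : n ∣ 2 := ⟨q * τ - (q - 2), by linear_combination -h⟩
  have := Int.le_of_dvd (by norm_num) hdvd
  linarith

/-! ### orbits and stabilisers -/

section
variable {G Ω : Type} [Group G] [MulAction G Ω]

lemma Count2_orbit_mul_stab (ω : Ω) :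
    (Nat.card (MulAction.orbit G ω) : ℤ) * Nat.card (MulAction.stabilizer G ω) = Nat.card G := by
  have h := (MulAction.stabilizer G ω).index_mul_card
  rw [MulAction.index_stabilizer, ← Nat.card_coe_set_eq] at h
  exact_mod_cast h

lemma Count2_orbit_pos [Finite Ω] (ω : Ω) : (0 : ℤ) < Nat.card (MulAction.orbit G ω) := by
  have : Nonempty (MulAction.orbit G ω) := ⟨⟨ω, MulAction.mem_orbit_self ω⟩⟩
  exact_mod_cast Nat.card_pos

lemma Count2_stab_const [Finite Ω] {ω ω' : Ω} (h : ω' ∈ MulAction.orbit G ω) :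
    (Nat.card (MulAction.stabilizer G ω') : ℤ) = Nat.card (MulAction.stabilizer G ω) := by
  have h1 := Count2_orbit_mul_stab (G := G) ω
  have h2 := Count2_orbit_mul_stab (G := G) ω'
  rw [MulAction.orbit_eq_iff.mpr h] at h2
  exact mul_left_cancel₀ (Count2_orbit_pos (G := G) ω).ne' (h2.trans h1.symm)

open scoped Classical in
/-- the sum of `#Stab - z` over an orbit. -/
lemma Count2_sum_orbit [Fintype Ω] (z : ℤ) (ω : Ω) :
    ∑ ω' ∈ Finset.univ.filter (· ∈ MulAction.orbit G ω),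
      ((Nat.card (MulAction.stabilizer G ω') : ℤ) - z) =
      Nat.card G - z * Nat.card (MulAction.orbit G ω) := by
  have hc : ((Finset.univ.filter (· ∈ MulAction.orbit G ω)).card : ℤ) =
      Nat.card (MulAction.orbit G ω) := by
    rw [Nat.card_eq_fintype_card, Fintype.card_subtype]
  rw [Finset.sum_congr rfl (g := fun _ => (Nat.card (MulAction.stabilizer G ω) : ℤ) - z)
    (fun ω' hω' => by rw [Count2_stab_const (Finset.mem_filter.mp hω').2]),
    Finset.sum_const, nsmul_eq_mul, hc, ← Count2_orbit_mul_stab (G := G) ω]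
  ring

open scoped Classical in
/-- GRP-COUNT2 for one action, the identity being a `Finset.sum` over a filter. -/
theorem Count2_main' [Finite G] [Fintype Ω] (Z : Subgroup G) (P : Ω) (q τ : ℕ) (hq : 2 ≤ q)
    (hZ : ∀ x : G, x ∈ Z → ∀ ω : Ω, x • ω = ω)
    (hS : Nat.card (MulAction.stabilizer G P) = Nat.card Z * q * τ)
    (hn : q + 1 ≤ Nat.card (MulAction.orbit G P))
    (hT : ∑ ω ∈ Finset.univ.filter (· ∉ MulAction.orbit G P),
      ((Nat.card (MulAction.stabilizer G ω) : ℤ) - Nat.card Z) =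
      (Nat.card G : ℤ) - 2 * Nat.card Z - Nat.card Z * (q - 2) * Nat.card (MulAction.orbit G P)) :
    q - 1 ≤ 2 * τ := by
  set z : ℤ := (Nat.card Z : ℤ) with hzdef
  set N : ℤ := (Nat.card G : ℤ) with hNdef
  set n : ℤ := (Nat.card (MulAction.orbit G P) : ℤ) with hndef
  have hz : 0 < z := by rw [hzdef]; exact_mod_cast Nat.card_pos
  have hq' : (2 : ℤ) ≤ q := by exact_mod_cast hq
  have hn' : (q : ℤ) + 1 ≤ n := by rw [hndef]; exact_mod_cast hn
  have hspos : ∀ ω : Ω, (0 : ℤ) < Nat.card (MulAction.stabilizer G ω) := fun ω => by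
    exact_mod_cast Nat.card_pos
  have hdvd : ∀ ω : Ω, z ∣ (Nat.card (MulAction.stabilizer G ω) : ℤ) := fun ω => by
    rw [hzdef]
    have hle : Z ≤ MulAction.stabilizer G ω := fun x hx => MulAction.mem_stabilizer_iff.mpr (hZ x hx ω)
    exact_mod_cast Subgroup.card_dvd_of_le hle
  have hf0 : ∀ ω : Ω, 0 ≤ (Nat.card (MulAction.stabilizer G ω) : ℤ) - z := fun ω => by
    have := Int.le_of_dvd (hspos ω) (hdvd ω)
    linarith
  have hf2 : ∀ ω : Ω, (Nat.card (MulAction.stabilizer G ω) : ℤ) - z ≠ 0 →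
      2 * z ≤ (Nat.card (MulAction.stabilizer G ω) : ℤ) := fun ω hω => by
    obtain ⟨e, he⟩ := hdvd ω
    have hsp := hspos ω
    rw [he] at hω hsp ⊢
    have he0 : 0 < e := by
      by_contra hcon
      have : z * e ≤ 0 := mul_nonpos_of_nonneg_of_nonpos hz.le (not_lt.mp hcon)
      linarith
    have he1 : e ≠ 1 := fun h1 => hω (by rw [h1]; ring)
    have he2 : 2 ≤ e := by omega
    nlinarith
  have hS' : (Nat.card (MulAction.stabilizer G P) : ℤ) = z * q * τ := by
    rw [hzdef]; exact_mod_cast hS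
  have hN : n * (z * q * τ) = N := by
    rw [← hS']; exact Count2_orbit_mul_stab P
  have hτ : (1 : ℤ) ≤ τ := by
    have h0 : τ ≠ 0 := by
      rintro rfl
      have := hspos P
      rw [hS'] at this
      simp at this
    have : 1 ≤ τ := Nat.one_le_iff_ne_zero.mpr h0
    exact_mod_cast this
  -- a half
  have hhalf : ∀ ω : Ω, (Nat.card (MulAction.stabilizer G ω) : ℤ) - z ≠ 0 →
      2 * (z * Nat.card (MulAction.orbit G ω)) ≤ N := fun ω hω => by
    have h1 := Count2_orbit_mul_stab (G := G) ω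
    have h2 := hf2 ω hω
    have h3 := Count2_orbit_pos (G := G) ω
    rw [← hNdef] at h1
    nlinarith
  -- step 1
  have hT0 : ∑ ω ∈ Finset.univ.filter (· ∉ MulAction.orbit G P),
      ((Nat.card (MulAction.stabilizer G ω) : ℤ) - z) ≠ 0 := by
    rw [hT]
    intro h0
    refine Count2_arith0 q τ n hq' hn' (mul_left_cancel₀ hz.ne' ?_)
    linear_combination h0 + hN
  obtain ⟨ω1, hω1, hfω1⟩ := Finset.exists_ne_zero_of_sum_ne_zero hT0
  have hω1P : ω1 ∉ MulAction.orbit G P := (Finset.mem_filter.mp hω1).2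
  -- orbits outside of the orbit of `P`
  have hsub : ∀ ω : Ω, ω ∉ MulAction.orbit G P →
      Finset.univ.filter (· ∈ MulAction.orbit G ω) ⊆
        Finset.univ.filter (· ∉ MulAction.orbit G P) := fun ω hω ω' hω' => by
    refine Finset.mem_filter.mpr ⟨Finset.mem_univ _, fun hP => hω ?_⟩
    have h1 : ω' ∈ MulAction.orbit G ω := (Finset.mem_filter.mp hω').2
    rw [← MulAction.orbit_eq_iff.mpr hP, MulAction.orbit_eq_iff.mpr h1]
    exact MulAction.mem_orbit_self ω
  -- step 3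
  have hvan : ∀ ω ∈ Finset.univ.filter (· ∉ MulAction.orbit G P),
      ω ∉ Finset.univ.filter (· ∈ MulAction.orbit G ω1) →
      (Nat.card (MulAction.stabilizer G ω) : ℤ) - z = 0 := by
    intro ω2 hω2 hω21
    by_contra hfω2
    have hω2P : ω2 ∉ MulAction.orbit G P := (Finset.mem_filter.mp hω2).2
    have hω21' : ω2 ∉ MulAction.orbit G ω1 := fun h =>
      hω21 (Finset.mem_filter.mpr ⟨Finset.mem_univ _, h⟩)
    have hdisj : Disjoint (Finset.univ.filter (· ∈ MulAction.orbit G ω1))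
        (Finset.univ.filter (· ∈ MulAction.orbit G ω2)) := by
      rw [Finset.disjoint_left]
      intro ω' h1 h2
      have h1' : ω' ∈ MulAction.orbit G ω1 := (Finset.mem_filter.mp h1).2
      have h2' : ω' ∈ MulAction.orbit G ω2 := (Finset.mem_filter.mp h2).2
      apply hω21'
      rw [← MulAction.orbit_eq_iff.mpr h1', MulAction.orbit_eq_iff.mpr h2']
      exact MulAction.mem_orbit_self ω2
    have hle : ∑ ω ∈ Finset.univ.filter (· ∈ MulAction.orbit G ω1) ∪
        Finset.univ.filter (· ∈ MulAction.orbit G ω2),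
        ((Nat.card (MulAction.stabilizer G ω) : ℤ) - z) ≤
        ∑ ω ∈ Finset.univ.filter (· ∉ MulAction.orbit G P),
        ((Nat.card (MulAction.stabilizer G ω) : ℤ) - z) :=
      Finset.sum_le_sum_of_subset_of_nonneg
        (Finset.union_subset (hsub ω1 hω1P) (hsub ω2 hω2P)) (fun ω _ _ => hf0 ω)
    rw [Finset.sum_union hdisj, Count2_sum_orbit, Count2_sum_orbit, hT, ← hNdef] at hle
    have h1 := hhalf ω1 hfω1
    have h2 := hhalf ω2 hfω2
    have h3 : 0 ≤ z * ((q : ℤ) - 2) * n := by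
      have : (0 : ℤ) ≤ n := by linarith
      have : (0 : ℤ) ≤ (q : ℤ) - 2 := by linarith
      positivity
    linarith
  -- step 4
  have hsum := Finset.sum_subset (hsub ω1 hω1P) hvan
  rw [Count2_sum_orbit, hT, ← hNdef] at hsum
  obtain ⟨e1, he1⟩ := hdvd ω1
  have horb := Count2_orbit_mul_stab (G := G) ω1
  rw [he1, ← hNdef, ← hN] at horb
  have key := Count2_arith q τ n (Nat.card (MulAction.orbit G ω1)) e1 hq' hτ hn'
    (mul_left_cancel₀ hz.ne' (by linear_combination -hsum))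
    (mul_left_cancel₀ hz.ne' (by linear_combination horb))
  omega

/-- GRP-COUNT2 for one action, the identity being a `finsum` over the subtype. -/
theorem Count2_main [Finite G] [Finite Ω] (Z : Subgroup G) (P : Ω) (q τ : ℕ) (hq : 2 ≤ q)
    (hZ : ∀ x : G, x ∈ Z → ∀ ω : Ω, x • ω = ω)
    (hS : Nat.card (MulAction.stabilizer G P) = Nat.card Z * q * τ)
    (hn : q + 1 ≤ Nat.card (MulAction.orbit G P))
    (hT : (∑ᶠ ω : {ω : Ω // ω ∉ MulAction.orbit G P},
      ((Nat.card (MulAction.stabilizer G ω.1) : ℤ) - Nat.card Z)) =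
      (Nat.card G : ℤ) - 2 * Nat.card Z - Nat.card Z * (q - 2) * Nat.card (MulAction.orbit G P)) :
    q - 1 ≤ 2 * τ := by
  classical
  have := Fintype.ofFinite Ω
  refine Count2_main' Z P q τ hq hZ hS hn ?_
  rw [← hT, finsum_eq_sum_of_fintype]
  exact (Finset.sum_subtype_eq_sum_filter (s := Finset.univ)
    (f := fun ω : Ω => (Nat.card (MulAction.stabilizer G ω) : ℤ) - Nat.card Z)
    (p := (· ∉ MulAction.orbit G P))).symm.trans (by simp)

end

/-- **GRP-COUNT2**. -/
theorem count (h : Count2_Stmt_Count1) : Stmt_Count := by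
  intro G Ω _ _ _ _ Z P q τ hq hZ h12 hP horb hS hn
  exact Count2_main Z P q τ hq (fun x hx => (hZ x).mp hx) hS hn
    (h G Ω Z P q τ hq hZ h12 hP horb hS)

end Fermat.Agent.TW56.Grp
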