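/-
TEAM TW56 -> S56, block [GRP] (helper74): basic API for `act`, `uu`, cocycles.
-/
import Fermat.Agent.TW56.Grp.Interface

set_option autoImplicit false

noncomputable section

namespace Fermat.Agent.TW56.Grp

open Matrix Polynomial

variable {k : Type} [Field k]

@[simp] theorem coe_uu (x : k) : ((uu x : GL (Fin 2) k) : M2 k) = !![1, x; 0, 1] := rfl

theorem uu_mul (x y : k) : uu x * uu y = uu (x + y) := by
  apply Units.ext
  rw [Units.val_mul, coe_uu, coe_uu, coe_uu]
  ext i j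
  fin_cases i <;> fin_cases j <;> simp [Matrix.mul_apply, Fin.sum_univ_two, add_comm]

theorem uu_zero : uu (0 : k) = 1 := by
  apply Units.ext
  rw [coe_uu]
  ext i j
  fin_cases i <;> fin_cases j <;> simp

theorem uu_inv (x : k) : (uu x)⁻¹ = uu (-x) := by
  rw [inv_eq_iff_mul_eq_one, uu_mul, add_neg_cancel, uu_zero]

theorem uu_injective : Function.Injective (uu : k → GL (Fin 2) k) := by
  intro x y h
  have h1 := congrArg (fun g : GL (Fin 2) k => (g : M2 k) 0 1) h
  simpa using h1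

theorem uu_pow (x : k) (n : ℕ) : uu x ^ n = uu (n * x) := by
  induction n with
  | zero => simp [uu_zero]
  | succ n ih => rw [pow_succ, ih, uu_mul]; congr 1; push_cast; ring

theorem det_uu (x : k) : ((uu x : GL (Fin 2) k) : M2 k).det = 1 := by
  simp [Matrix.det_fin_two]

theorem coe_inv_mul (g : GL (Fin 2) k) : ((g⁻¹ : GL (Fin 2) k) : M2 k) * (g : M2 k) = 1 := by
  rw [← Units.val_mul, inv_mul_cancel, Units.val_one]

theorem coe_mul_inv (g : GL (Fin 2) k) : (g : M2 k) * ((g⁻¹ : GL (Fin 2) k) : M2 k) = 1 := by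
  rw [← Units.val_mul, mul_inv_cancel, Units.val_one]

theorem det_ne_zero' (g : GL (Fin 2) k) : (g : M2 k).det ≠ 0 := by
  intro h
  have h1 := congrArg Matrix.det (coe_mul_inv g)
  rw [Matrix.det_mul, h, zero_mul, Matrix.det_one] at h1
  exact zero_ne_one h1

theorem act_one (m : M2 k) : act (1 : GL (Fin 2) k) m = m := by
  simp [act]

theorem act_mul (g h : GL (Fin 2) k) (m : M2 k) : act (g * h) m = act g (act h m) := by
  unfold act
  rw [_root_.mul_inv_rev, Units.val_mul, Units.val_mul, Matrix.det_mul, Matrix.mul_smul,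
    Matrix.smul_mul, smul_smul]
  congr 1
  simp only [Matrix.mul_assoc]

theorem act_add (g : GL (Fin 2) k) (m m' : M2 k) : act g (m + m') = act g m + act g m' := by
  unfold act
  rw [Matrix.mul_add, Matrix.add_mul, smul_add]

theorem act_zero (g : GL (Fin 2) k) : act g (0 : M2 k) = 0 := by
  simp [act]

theorem act_neg (g : GL (Fin 2) k) (m : M2 k) : act g (-m) = -act g m := by
  unfold act
  rw [Matrix.mul_neg, Matrix.neg_mul, smul_neg]

theorem act_sub (g : GL (Fin 2) k) (m m' : M2 k) : act g (m - m') = act g m - act g m' := by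
  rw [sub_eq_add_neg, act_add, act_neg, ← sub_eq_add_neg]

theorem act_smul (g : GL (Fin 2) k) (c : k) (m : M2 k) : act g (c • m) = c • act g m := by
  unfold act
  rw [Matrix.mul_smul, Matrix.smul_mul, smul_comm]

theorem trace_act (g : GL (Fin 2) k) (m : M2 k) : (act g m).trace = (g : M2 k).det * m.trace := by
  unfold act
  rw [Matrix.trace_smul, smul_eq_mul, Matrix.trace_mul_cycle, coe_inv_mul, Matrix.one_mul]

theorem act_inv_act (g : GL (Fin 2) k) (m : M2 k) : act g⁻¹ (act g m) = m := by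
  rw [← act_mul, inv_mul_cancel, act_one]

theorem act_act_inv (g : GL (Fin 2) k) (m : M2 k) : act g (act g⁻¹ m) = m := by
  rw [← act_mul, mul_inv_cancel, act_one]

/-- `act` as a monoid homomorphism to the linear endomorphisms of `M₂(k)`. -/
def actHom : GL (Fin 2) k →* Module.End k (M2 k) where
  toFun g := { toFun := act g, map_add' := act_add g, map_smul' := fun c m => act_smul g c m }
  map_one' := by ext1 m; exact act_one m
  map_mul' g h := by ext1 m; exact act_mul g h m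

@[simp] theorem actHom_apply (g : GL (Fin 2) k) (m : M2 k) : actHom g m = act g m := rfl

/-- entries of `act (uu x) m`. -/
theorem act_uu (x : k) (m : M2 k) :
    act (uu x) m = !![m 0 0 + x * m 1 0, m 0 1 - x * m 0 0 + x * m 1 1 - x ^ 2 * m 1 0;
      m 1 0, m 1 1 - x * m 1 0] := by
  unfold act
  rw [det_uu, one_smul, uu_inv, coe_uu, coe_uu]
  ext i j
  fin_cases i <;> fin_cases j <;>
    simp [Matrix.mul_apply, Fin.sum_univ_two, Matrix.vecMul, dotProduct] <;> ring

namespace IsCoc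

variable {GG : Subgroup (GL (Fin 2) k)} {κ : GL (Fin 2) k → M2 k}

theorem map_one (h : IsCoc GG κ) : κ 1 = 0 := by
  have h1 := h.coc 1 GG.one_mem 1 GG.one_mem
  rw [mul_one, act_one] at h1
  exact left_eq_add.mp h1

theorem map_inv (h : IsCoc GG κ) {g : GL (Fin 2) k} (hg : g ∈ GG) : κ g⁻¹ = -act g⁻¹ (κ g) := by
  have h1 := h.coc g⁻¹ (GG.inv_mem hg) g hg
  rw [inv_mul_cancel, h.map_one] at h1
  exact eq_neg_of_add_eq_zero_left h1.symm

theorem conj (h : IsCoc GG κ) {t u : GL (Fin 2) k} (ht : t ∈ GG) (hu : u ∈ GG) :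
    κ (t * u * t⁻¹) = act t (κ u) - (act (t * u * t⁻¹) (κ t) - κ t) := by
  rw [h.coc _ (GG.mul_mem ht hu) _ (GG.inv_mem ht), h.coc _ ht _ hu, h.map_inv ht, act_neg,
    ← act_mul]
  abel

/-- subtracting a coboundary -/
theorem sub_cob (h : IsCoc GG κ) {m : M2 k} (hm : m.trace = 0) :
    IsCoc GG fun g => κ g - (act g m - m) where
  tr g hg := by
    rw [Matrix.trace_sub, Matrix.trace_sub, h.tr g hg, trace_act, hm]; simp
  coc g hg g' hg' := by
    show κ (g * g') - (act (g * g') m - m) = κ g - (act g m - m) + act g (κ g' - (act g' m - m))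
    rw [h.coc g hg g' hg', act_sub, act_sub, act_mul]
    abel

end IsCoc

theorem IsCob.of_sub {D : Subgroup (GL (Fin 2) k)} {κ : GL (Fin 2) k → M2 k} {m : M2 k}
    (hm : m.trace = 0) (h : IsCob D fun g => κ g - (act g m - m)) : IsCob D κ := by
  obtain ⟨m', hm', h'⟩ := h
  refine ⟨m' + m, by rw [Matrix.trace_add, hm', hm, add_zero], fun g hg => ?_⟩
  have h1 : κ g - (act g m - m) = act g m' - m' := h' g hg
  rw [act_add, eq_add_of_sub_eq h1]
  abel

/-- `XX GG` as an additive subgroup. -/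
def XXs (GG : Subgroup (GL (Fin 2) k)) : AddSubgroup k where
  carrier := XX GG
  zero_mem' := by show uu 0 ∈ GG; rw [uu_zero]; exact GG.one_mem
  add_mem' {x y} hx hy := by show uu (x + y) ∈ GG; rw [← uu_mul]; exact GG.mul_mem hx hy
  neg_mem' {x} hx := by show uu (-x) ∈ GG; rw [← uu_inv]; exact GG.inv_mem hx

theorem mem_XXs {GG : Subgroup (GL (Fin 2) k)} {x : k} : x ∈ XXs GG ↔ uu x ∈ GG := Iff.rfl

theorem mem_XX {GG : Subgroup (GL (Fin 2) k)} {x : k} : x ∈ XX GG ↔ uu x ∈ GG := Iff.rfl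

/-- the subgroup `{uu x ∈ GG}`. -/
def UU (GG : Subgroup (GL (Fin 2) k)) : Subgroup (GL (Fin 2) k) where
  carrier := {g | g ∈ GG ∧ ∃ x : k, g = uu x}
  one_mem' := ⟨GG.one_mem, 0, uu_zero.symm⟩
  mul_mem' := by
    rintro _ _ ⟨h1, x, rfl⟩ ⟨h2, y, rfl⟩
    exact ⟨GG.mul_mem h1 h2, x + y, uu_mul x y⟩
  inv_mem' := by
    rintro _ ⟨h1, x, rfl⟩
    exact ⟨GG.inv_mem h1, -x, uu_inv x⟩

theorem UU_le (GG : Subgroup (GL (Fin 2) k)) : UU GG ≤ GG := fun _ h => h.1

theorem uu_mem_UU {GG : Subgroup (GL (Fin 2) k)} {x : k} : uu x ∈ UU GG ↔ x ∈ XX GG :=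
  ⟨fun h => h.1, fun h => ⟨h, x, rfl⟩⟩

/-- `XX GG ≃ UU GG`. -/
def equivUU (GG : Subgroup (GL (Fin 2) k)) : XX GG ≃ UU GG where
  toFun x := ⟨uu x.1, uu_mem_UU.2 x.2⟩
  invFun g := ⟨(g.1 : M2 k) 0 1, by
    obtain ⟨g, h1, x, rfl⟩ := g
    show uu _ ∈ GG
    simpa using h1⟩
  left_inv x := by ext; simp
  right_inv g := by
    obtain ⟨g, h1, x, rfl⟩ := g
    ext : 1
    simp

theorem card_UU (GG : Subgroup (GL (Fin 2) k)) : Nat.card (UU GG) = Nat.card (XX GG) :=
  (Nat.card_congr (equivUU GG)).symm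

theorem idxLe2_self {G : Type} [Group G] (GG : Subgroup G) : IdxLe2 GG GG :=
  ⟨le_rfl, fun _ ha _ _ h _ => absurd ha h⟩

/-- the standard basis of `ad⁰`. -/
def mE : M2 k := !![0, 1; 0, 0]
/-- the standard basis of `ad⁰`. -/
def mH : M2 k := !![1, 0; 0, -1]
/-- the standard basis of `ad⁰`. -/
def mF : M2 k := !![0, 0; 1, 0]

theorem trace_mE : (mE : M2 k).trace = 0 := by simp [mE, Matrix.trace_fin_two]
theorem trace_mH : (mH : M2 k).trace = 0 := by simp [mH, Matrix.trace_fin_two]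
theorem trace_mF : (mF : M2 k).trace = 0 := by simp [mF, Matrix.trace_fin_two]

theorem eq_of_trace_zero {m : M2 k} (h : m.trace = 0) :
    m = m 0 1 • mE + m 0 0 • mH + m 1 0 • mF := by
  rw [Matrix.trace_fin_two] at h
  have h1 : m 1 1 = -m 0 0 := eq_neg_of_add_eq_zero_right h
  ext i j
  fin_cases i <;> fin_cases j <;> simp [mE, mH, mF, h1]

theorem act_uu_mH (x : k) : act (uu x) mH - mH = (-2 * x) • (mE : M2 k) := by
  rw [act_uu]
  ext i j
  fin_cases i <;> fin_cases j <;> simp [mE, mH] <;> ring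

theorem act_uu_mF (x : k) : act (uu x) mF - mF = x • (mH : M2 k) - x ^ 2 • (mE : M2 k) := by
  rw [act_uu]
  ext i j
  fin_cases i <;> fin_cases j <;> simp [mE, mH, mF]

theorem act_uu_mE (x : k) : act (uu x) mE = (mE : M2 k) := by
  rw [act_uu]
  ext i j
  fin_cases i <;> fin_cases j <;> simp [mE]

end Fermat.Agent.TW56.Grp

end
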