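/-
TEAM TW56 -> S56, block [GRP], GRP-EQ : the functional equations for the entries of `κ (uu x)`.
-/
import Fermat.Agent.TW56.Grp.Api

set_option autoImplicit false

namespace Fermat.Agent.TW56.Grp

open Matrix

theorem eqs : Stmt_Eqs := by
  intro k _ GG κ h x hx y hy
  have h1 : κ (uu (x + y)) = κ (uu x) + act (uu x) (κ (uu y)) := by
    rw [← uu_mul]
    exact h.coc _ hx _ hy
  have h2 : (κ (uu y)) 1 1 = -(κ (uu y)) 0 0 := by
    have := h.tr _ hy
    rw [Matrix.trace_fin_two] at this
    exact eq_neg_of_add_eq_zero_right this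
  rw [h1, act_uu]
  refine ⟨?_, ?_, ?_⟩
  · simp
  · simp
    ring
  · simp [h2]
    ring

end Fermat.Agent.TW56.Grp
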