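import Fermat.Agent.TW56.Grp.Interface

/-!
# TW56 / Grp : GRP-FRAT  (the Frattini argument)
-/

set_option autoImplicit false

noncomputable section

namespace Fermat.Agent.TW56.Grp

open Matrix

variable {k : Type} [Field k]

theorem Frat_coe_uu (x : k) : ((uu x : GL (Fin 2) k) : M2 k) = !![1, x; 0, 1] := rfl

theorem Frat_uu_add (x y : k) : uu (x + y) = uu x * uu y := by
  apply Units.ext
  rw [Units.val_mul, Frat_coe_uu, Frat_coe_uu, Frat_coe_uu]
  ext i j
  fin_cases i <;> fin_cases j <;> simp [Matrix.mul_apply, Fin.sum_univ_two, add_comm]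

theorem Frat_uu_zero : uu (0 : k) = 1 := by
  apply Units.ext
  rw [Frat_coe_uu]
  ext i j
  fin_cases i <;> fin_cases j <;> simp

theorem Frat_uu_injective : Function.Injective (uu : k → GL (Fin 2) k) := by
  intro x y h
  have := congrArg (fun g : GL (Fin 2) k => (g : M2 k) 0 1) h
  simpa [Frat_coe_uu] using this

theorem Frat_det_uu (x : k) : ((uu x : GL (Fin 2) k) : M2 k).det = 1 := by
  rw [Frat_coe_uu, Matrix.det_fin_two]
  simp

/-- `x ↦ uu x` as a homomorphism. -/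
def Frat_uuHom (k : Type) [Field k] : Multiplicative k →* GL (Fin 2) k where
  toFun x := uu (Multiplicative.toAdd x)
  map_one' := Frat_uu_zero
  map_mul' _ _ := Frat_uu_add _ _

theorem Frat_isPGroup (p : ℕ) [CharP k p] : IsPGroup p (Frat_uuHom k).range := by
  rintro ⟨u, x, rfl⟩
  refine ⟨1, Subtype.ext ?_⟩
  show (Frat_uuHom k x) ^ p ^ 1 = 1
  rw [pow_one, ← map_pow]
  have : x ^ p = 1 := by
    apply Multiplicative.toAdd.injective
    rw [toAdd_pow, toAdd_one, nsmul_eq_mul, CharP.cast_eq_zero, zero_mul]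
  rw [this, map_one]

/-- **GRP-FRAT** -/
theorem frat : Stmt_Frat := by
  intro p _ k _ _ _ GG hx hidx g hg
  obtain ⟨x0, hx0, hx0G⟩ := hx
  let N : Subgroup GG := (Matrix.GeneralLinearGroup.det.comp GG.subtype).ker
  let P1 : Subgroup GG := (Frat_uuHom k).range.comap GG.subtype
  have hmemN : ∀ u : GG, u ∈ N ↔ ((u : GL (Fin 2) k) : M2 k).det = 1 := by
    intro u
    show Matrix.GeneralLinearGroup.det (u : GL (Fin 2) k) = 1 ↔ _
    rw [← Units.val_inj, Matrix.GeneralLinearGroup.val_det_apply, Units.val_one]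
  have hmemP1 : ∀ u : GG, u ∈ P1 ↔ ∃ x : k, uu x = (u : GL (Fin 2) k) := by
    intro u
    constructor
    · rintro ⟨x, hx⟩
      exact ⟨Multiplicative.toAdd x, hx⟩
    · rintro ⟨x, hx⟩
      exact ⟨Multiplicative.ofAdd x, hx⟩
  have hP1N : P1 ≤ N := by
    intro u hu
    obtain ⟨x, hx⟩ := (hmemP1 u).1 hu
    rw [hmemN, ← hx, Frat_det_uu]
  have hcard : Nat.card (XX GG) = Nat.card P1 := by
    refine Nat.card_congr (Equiv.ofBijective
      (fun x : XX GG => (⟨⟨uu x.1, x.2⟩, (hmemP1 _).2 ⟨x.1, rfl⟩⟩ : P1)) ⟨?_, ?_⟩)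
    · intro x y h
      have h1 : uu x.1 = uu y.1 := congrArg (fun u : P1 => ((u : GG) : GL (Fin 2) k)) h
      exact Subtype.ext (Frat_uu_injective h1)
    · rintro ⟨u, hu⟩
      obtain ⟨x, hx⟩ := (hmemP1 u).1 hu
      refine ⟨⟨x, ?_⟩, ?_⟩
      · show uu x ∈ GG
        rw [hx]; exact u.2
      · exact Subtype.ext (Subtype.ext hx)
  have hP1idx : P1.index = Nat.card GG / Nat.card (XX GG) := by
    rw [hcard]
    exact (Nat.div_eq_of_eq_mul_right Nat.card_pos P1.card_mul_index.symm).symm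
  have hP1p : IsPGroup p P1 := (Frat_isPGroup p).comap_subtype
  have hP0 : IsPGroup p (P1.subgroupOf N) := hP1p.comap_subtype
  have hP0idx : ¬ p ∣ (P1.subgroupOf N).index := by
    intro h
    apply hidx
    rw [← hP1idx, ← Subgroup.relIndex_mul_index hP1N]
    exact Dvd.dvd.mul_right h _
  let P : Sylow p N := hP0.toSylow hP0idx
  have hfr := Sylow.normalizer_sup_eq_top P
  have hmap : ((P : Subgroup N).map N.subtype) = P1 := Subgroup.map_subgroupOf_eq_of_le hP1N
  rw [hmap] at hfr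
  have hgtop : (⟨g, hg⟩ : GG) ∈ ((Subgroup.normalizer (P1 : Set GG) ⊔ N : Subgroup GG) : Set GG) := by
    rw [hfr]; trivial
  rw [Subgroup.mul_normal] at hgtop
  obtain ⟨t, ht, n, hn, htn⟩ := Set.mem_mul.1 hgtop
  refine ⟨t, t.2, ?_, ?_⟩
  · have h1 := (Subgroup.mem_normalizer_iff.1 ht ⟨uu x0, hx0G⟩).1 ((hmemP1 _).2 ⟨x0, rfl⟩)
    obtain ⟨y, hy⟩ := (hmemP1 _).1 h1
    have h2 : (t : GL (Fin 2) k) * uu x0 = uu y * t := by
      have h3 : uu y = (t : GL (Fin 2) k) * uu x0 * (t : GL (Fin 2) k)⁻¹ := hy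
      rw [h3]; group
    have h3 := congrArg (fun m : GL (Fin 2) k => (m : M2 k) 1 1) h2
    simp only [Units.val_mul, Frat_coe_uu, Matrix.mul_apply, Fin.sum_univ_two] at h3
    simp at h3
    exact h3.resolve_right hx0
  · have h1 : ((t : GL (Fin 2) k) : M2 k) * ((n : GL (Fin 2) k) : M2 k) = (g : M2 k) :=
      congrArg (fun u : GG => ((u : GL (Fin 2) k) : M2 k)) htn
    rw [← h1, Matrix.det_mul, (hmemN n).1 hn, mul_one]

end Fermat.Agent.TW56.Grp

end

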