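/-
TEAM TW56 -> S56, block [GRP], package GRP-INV: invariance under the upper triangular elements.
-/
import Fermat.Agent.TW56.Grp.Api

set_option autoImplicit false

noncomputable section

namespace Fermat.Agent.TW56.Grp

open Matrix Polynomial

variable {k : Type} [Field k]

/-- `det g • g⁻¹` is the adjugate. -/
theorem Inv_adjugate (g : GL (Fin 2) k) :
    (g : M2 k).det • ((g⁻¹ : GL (Fin 2) k) : M2 k) = (g : M2 k).adjugate := by
  have h := Matrix.mul_adjugate (g : M2 k)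
  have h2 := congrArg (fun m => ((g⁻¹ : GL (Fin 2) k) : M2 k) * m) h
  simp only [← Matrix.mul_assoc, coe_inv_mul, Matrix.one_mul, Matrix.mul_smul, Matrix.mul_one] at h2
  exact h2.symm

theorem Inv_act_eq (g : GL (Fin 2) k) (m : M2 k) :
    act g m = (g : M2 k) * m * (g : M2 k).adjugate := by
  unfold act
  rw [← Inv_adjugate, Matrix.mul_smul]

/-- entries of `act t m` for `t` upper triangular. -/
theorem Inv_act_tri (t : GL (Fin 2) k) (ht : (t : M2 k) 1 0 = 0) (m : M2 k) :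
    act t m 1 0 = (t : M2 k) 1 1 ^ 2 * m 1 0 ∧
    act t m 0 0 = ((t : M2 k) 0 0 * m 0 0 + (t : M2 k) 0 1 * m 1 0) * (t : M2 k) 1 1 ∧
    act t m 0 1 = -(((t : M2 k) 0 0 * m 0 0 + (t : M2 k) 0 1 * m 1 0) * (t : M2 k) 0 1) +
      ((t : M2 k) 0 0 * m 0 1 + (t : M2 k) 0 1 * m 1 1) * (t : M2 k) 0 0 := by
  rw [Inv_act_eq, Matrix.adjugate_fin_two]
  refine ⟨?_, ?_, ?_⟩
  · simp [Matrix.mul_apply, Fin.sum_univ_two, ht]; ring
  · simp [Matrix.mul_apply, Fin.sum_univ_two, ht]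
  · simp [Matrix.mul_apply, Fin.sum_univ_two, ht]

theorem Inv_diag_ne (t : GL (Fin 2) k) (ht : (t : M2 k) 1 0 = 0) :
    (t : M2 k) 0 0 ≠ 0 ∧ (t : M2 k) 1 1 ≠ 0 := by
  have h := det_ne_zero' t
  rw [Matrix.det_fin_two, ht, mul_zero, sub_zero] at h
  exact ⟨left_ne_zero_of_mul h, right_ne_zero_of_mul h⟩

/-- `t (uu x) t⁻¹ = uu (λ x)`. -/
theorem Inv_conj_uu (t : GL (Fin 2) k) (ht : (t : M2 k) 1 0 = 0) (x : k) :
    t * uu x * t⁻¹ = uu ((t : M2 k) 0 0 / (t : M2 k) 1 1 * x) := by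
  obtain ⟨-, hd⟩ := Inv_diag_ne t ht
  rw [mul_inv_eq_iff_eq_mul]
  apply Units.ext
  rw [Units.val_mul, Units.val_mul, coe_uu, coe_uu]
  ext i j
  fin_cases i <;> fin_cases j <;> simp [Matrix.mul_apply, Fin.sum_univ_two, ht]
  field_simp
  ring

theorem inv : Stmt_Inv := by
  intro k _ GG κ hκ t ht ht0
  obtain ⟨ha, hd⟩ := Inv_diag_ne t ht0
  have hmem : ∀ x ∈ XX GG, (t : M2 k) 0 0 / (t : M2 k) 1 1 * x ∈ XX GG := by
    intro x hx
    show uu _ ∈ GG
    rw [← Inv_conj_uu t ht0 x]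
    exact GG.mul_mem (GG.mul_mem ht hx) (GG.inv_mem ht)
  have hconj : ∀ x ∈ XX GG, κ (uu ((t : M2 k) 0 0 / (t : M2 k) 1 1 * x)) =
      act t (κ (uu x)) - (act (uu ((t : M2 k) 0 0 / (t : M2 k) 1 1 * x)) (κ t) - κ t) := by
    intro x hx
    have h := hκ.conj ht hx
    rwa [Inv_conj_uu t ht0 x] at h
  refine ⟨hmem, fun x hx => ?_, fun h0 => ?_⟩
  · rw [hconj x hx, act_uu]
    simp [(Inv_act_tri t ht0 (κ (uu x))).1]
  · have htr : (κ t) 1 1 = -(κ t) 0 0 := by
      have h := hκ.tr t ht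
      rw [Matrix.trace_fin_two] at h
      exact eq_neg_of_add_eq_zero_right h
    have h11 : ∀ x ∈ XX GG, κ (uu x) 1 1 = 0 := by
      intro x hx
      have h := hκ.tr _ hx
      rw [Matrix.trace_fin_two, (h0 x hx).2, zero_add] at h
      exact h
    -- the `(0,0)` entries
    have hn : ∀ x ∈ XX GG, x * (κ t) 1 0 = 0 := by
      intro x hx
      have h := congrArg (fun m : M2 k => m 0 0) (hconj x hx)
      simp only [act_uu] at h
      rw [(h0 _ (hmem x hx)).2] at h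
      simp only [Matrix.sub_apply, (Inv_act_tri t ht0 (κ (uu x))).2.1, (h0 x hx).1, (h0 x hx).2]
        at h
      simp at h
      rcases h with ((h | h) | h) | h
      · exact absurd h ha
      · exact absurd h hd
      · rw [h, zero_mul]
      · rw [h, mul_zero]
    refine ⟨2 * ((t : M2 k) 0 0 / (t : M2 k) 1 1) * (κ t) 0 0, fun x hx => ?_⟩
    have h := congrArg (fun m : M2 k => m 0 1) (hconj x hx)
    simp only [act_uu] at h
    simp only [Matrix.sub_apply, (Inv_act_tri t ht0 (κ (uu x))).2.2, (h0 x hx).1, (h0 x hx).2,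
      h11 x hx, htr] at h
    simp at h
    rw [h]
    have h2 := hn x hx
    linear_combination ((t : M2 k) 0 0 / (t : M2 k) 1 1) ^ 2 * x * h2

end Fermat.Agent.TW56.Grp

end
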