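import Fermat.Agent.TW56.Grp.Api

/-!
# TW56 / Grp / MAIN : `H¹(GG, ad⁰ ⊗ det) = 0`, reduction to the normal form
-/

set_option autoImplicit false

namespace Fermat.Agent.TW56.Grp

open Matrix Polynomial

theorem Main_isPGroup_UU (p : ℕ) (k : Type) [Field k] [CharP k p]
    (GG : Subgroup (GL (Fin 2) k)) : IsPGroup p (UU GG) := by
  rintro ⟨g, -, x, rfl⟩
  refine ⟨1, ?_⟩
  apply Subtype.ext
  rw [pow_one, SubmonoidClass.coe_pow, Subgroup.coe_one, uu_pow, CharP.cast_eq_zero, zero_mul,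
    uu_zero]

/-- after conjugation, `{uu x ∈ GG}` is a Sylow `p`-subgroup. -/
theorem Main_sylow (hUni : Stmt_Uni) (p : ℕ) [hp : Fact p.Prime] (k : Type) [Field k] [Finite k]
    [CharP k p] (GG : Subgroup (GL (Fin 2) k)) :
    ∃ P : GL (Fin 2) k, ¬ p ∣ Nat.card (GG.map (MulAut.conj P).toMonoidHom) /
      Nat.card (XX (GG.map (MulAut.conj P).toMonoidHom)) := by
  classical
  obtain ⟨S⟩ : Nonempty (Sylow p GG) := inferInstance
  have hS'p : IsPGroup p ((S : Subgroup GG).map GG.subtype) := S.isPGroup'.map GG.subtype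
  obtain ⟨P, hP⟩ := hUni p k _ hS'p
  refine ⟨P, ?_⟩
  have hinj : Function.Injective (MulAut.conj P).toMonoidHom := (MulAut.conj P).injective
  have hcardGG : Nat.card (GG.map (MulAut.conj P).toMonoidHom) = Nat.card GG :=
    Subgroup.card_map_of_injective hinj
  have hcardT : Nat.card (((S : Subgroup GG).map GG.subtype).map (MulAut.conj P).toMonoidHom)
      = p ^ (Nat.card GG).factorization p := by
    rw [Subgroup.card_map_of_injective hinj,
      Subgroup.card_map_of_injective GG.subtype_injective, S.card_eq_multiplicity]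
  have hTU : ((S : Subgroup GG).map GG.subtype).map (MulAut.conj P).toMonoidHom
      ≤ UU (GG.map (MulAut.conj P).toMonoidHom) := by
    rintro _ ⟨u, hu, rfl⟩
    refine ⟨Subgroup.mem_map_of_mem _ ?_, ?_⟩
    · obtain ⟨s, _, rfl⟩ := hu
      exact s.2
    · obtain ⟨x, hx⟩ := hP u hu
      exact ⟨x, hx⟩
  have hN0 : Nat.card GG ≠ 0 := Nat.card_pos.ne'
  obtain ⟨n, hn⟩ := (IsPGroup.iff_card (p := p)).1
    (Main_isPGroup_UU p k (GG.map (MulAut.conj P).toMonoidHom))
  have h1 : p ^ n ∣ Nat.card GG := by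
    rw [← hn, ← hcardGG]
    exact Subgroup.card_dvd_of_le (UU_le _)
  have h2 : n ≤ (Nat.card GG).factorization p :=
    (Nat.Prime.pow_dvd_iff_le_factorization hp.out hN0).1 h1
  have h3 : p ^ (Nat.card GG).factorization p ≤ p ^ n := by
    rw [← hn, ← hcardT]
    exact Subgroup.card_le_of_le hTU
  have h4 : (Nat.card GG).factorization p ≤ n :=
    (Nat.pow_le_pow_iff_right hp.out.one_lt).1 h3
  have h5 : n = (Nat.card GG).factorization p := le_antisymm h2 h4
  rw [← card_UU, hn, hcardGG, h5]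
  exact Nat.not_dvd_ordCompl hp.out hN0

/-- the case of a group of order prime to `p`. -/
theorem Main_coprime (hAvg : Stmt_Avg) (p : ℕ) [hp : Fact p.Prime] (k : Type) [Field k] [Finite k]
    [CharP k p] (hp2 : p ≠ 2) (GG : Subgroup (GL (Fin 2) k)) (hN : ¬ p ∣ Nat.card GG)
    (κ : GL (Fin 2) k → M2 k) (hκ : IsCoc GG κ) : IsCob GG κ := by
  have h2 : (2 : k) ≠ 0 := by
    intro h
    have h' : ((2 : ℕ) : k) = 0 := by exact_mod_cast h
    rw [CharP.cast_eq_zero_iff k p 2] at h'
    exact hp2 ((Nat.prime_dvd_prime_iff_eq hp.out Nat.prime_two).1 h')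
  obtain ⟨m, hm⟩ := hAvg k (M2 k) GG (actHom.comp GG.subtype) ⊥
    (by
      rw [Subgroup.index_bot]
      intro h
      rw [CharP.cast_eq_zero_iff k p] at h
      exact hN h)
    (fun g => κ g)
    (fun g h => hκ.coc g g.2 h h.2)
    (by
      intro u hu
      rw [Subgroup.mem_bot] at hu
      rw [hu]
      exact hκ.map_one)
  have hm' : ∀ g ∈ GG, κ g = act g m - m := fun g hg => hm ⟨g, hg⟩
  have htr : ∀ g ∈ GG, (g : M2 k).det * m.trace = m.trace := by
    intro g hg
    have h1 := hκ.tr g hg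
    rw [hm' g hg, Matrix.trace_sub, trace_act] at h1
    exact sub_eq_zero.1 h1
  refine ⟨m - (m.trace / 2) • (1 : M2 k), ?_, ?_⟩
  · rw [Matrix.trace_sub, Matrix.trace_smul, Matrix.trace_one, Fintype.card_fin, smul_eq_mul]
    push_cast
    field_simp
    ring
  · intro g hg
    have h1 : act g (1 : M2 k) = (g : M2 k).det • (1 : M2 k) := by
      unfold act
      rw [Matrix.mul_one, coe_mul_inv]
    rw [hm' g hg, act_sub, act_smul, h1, smul_smul]
    have h3 : m.trace / 2 * (g : M2 k).det = m.trace / 2 := by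
      have := htr g hg
      field_simp
      linear_combination this
    rw [h3]
    abel

theorem h1van (hNF : Stmt_H1vanNF) (hUni : Stmt_Uni) (hConj : Stmt_Conj) (hAvg : Stmt_Avg) :
    Stmt_H1van := by
  intro p _ k _ _ _ hp2 GG hBig κ hκ
  obtain ⟨P, hP⟩ := Main_sylow hUni p k GG
  obtain ⟨hB, hC⟩ := hConj p k GG P
  obtain ⟨hC1, hC2⟩ := hC κ
  apply hC2
  by_cases hx : ∃ x : k, x ≠ 0 ∧ uu x ∈ GG.map (MulAut.conj P).toMonoidHom
  · exact hNF p k hp2 _ (hB hBig) hx hP _ (hC1 hκ)
  · refine Main_coprime hAvg p k hp2 _ ?_ _ (hC1 hκ)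
    have hXX : XX (GG.map (MulAut.conj P).toMonoidHom) = {0} := by
      ext x
      rw [Set.mem_singleton_iff, mem_XX]
      constructor
      · intro h
        by_contra hx0
        exact hx ⟨x, hx0, h⟩
      · rintro rfl
        rw [uu_zero]
        exact Subgroup.one_mem _
    rw [hXX] at hP
    simpa using hP

end Fermat.Agent.TW56.Grp
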