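import Fermat.Agent.TW56.Grp.Interface

/-!
# TW56 / Grp : GRP-NF, the vanishing theorem in normal form (`Stmt_H1vanNF`), assembly
-/

set_option autoImplicit false

noncomputable section

namespace Fermat.Agent.TW56.Grp

open Matrix Polynomial

variable {k : Type} [Field k]

/-! ### basic API -/

theorem NF_coe_uu (x : k) : ((uu x : GL (Fin 2) k) : M2 k) = !![1, x; 0, 1] := rfl

theorem NF_uu_mul (x y : k) : uu x * uu y = uu (x + y) := by
  apply Units.ext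
  rw [Units.val_mul, NF_coe_uu, NF_coe_uu, NF_coe_uu]
  ext i j
  fin_cases i <;> fin_cases j <;> simp [Matrix.mul_apply, Fin.sum_univ_two, add_comm]

theorem NF_uu_zero : uu (0 : k) = 1 := by
  apply Units.ext
  rw [NF_coe_uu]
  ext i j
  fin_cases i <;> fin_cases j <;> simp

theorem NF_uu_inv (x : k) : (uu x)⁻¹ = uu (-x) := by
  rw [inv_eq_iff_mul_eq_one, NF_uu_mul, add_neg_cancel, NF_uu_zero]

theorem NF_uu_inj {x y : k} (h : uu x = uu y) : x = y := by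
  have h1 := congrArg (fun g : GL (Fin 2) k => (g : M2 k) 0 1) h
  simpa [NF_coe_uu] using h1

theorem NF_det_uu (x : k) : ((uu x : GL (Fin 2) k) : M2 k).det = 1 := by
  rw [NF_coe_uu, Matrix.det_fin_two_of]
  ring

theorem NF_act_add (g : GL (Fin 2) k) (m m' : M2 k) : act g (m + m') = act g m + act g m' := by
  simp only [act, Matrix.mul_add, Matrix.add_mul, smul_add]

theorem NF_act_smul (g : GL (Fin 2) k) (c : k) (m : M2 k) : act g (c • m) = c • act g m := by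
  simp only [act, Matrix.mul_smul, Matrix.smul_mul]
  rw [smul_comm]

theorem NF_act_neg (g : GL (Fin 2) k) (m : M2 k) : act g (-m) = -act g m := by
  simp only [act, Matrix.mul_neg, Matrix.neg_mul, smul_neg]

theorem NF_act_sub (g : GL (Fin 2) k) (m m' : M2 k) : act g (m - m') = act g m - act g m' := by
  rw [sub_eq_add_neg, NF_act_add, NF_act_neg, ← sub_eq_add_neg]

theorem NF_act_one (m : M2 k) : act (1 : GL (Fin 2) k) m = m := by
  simp [act]

theorem NF_act_mul (g h : GL (Fin 2) k) (m : M2 k) : act (g * h) m = act g (act h m) := by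
  simp only [act, _root_.mul_inv_rev, Units.val_mul, Matrix.det_mul, Matrix.mul_smul, Matrix.smul_mul,
    smul_smul, Matrix.mul_assoc]

theorem NF_trace_act (g : GL (Fin 2) k) (m : M2 k) :
    (act g m).trace = (g : M2 k).det * m.trace := by
  rw [act, Matrix.trace_smul, smul_eq_mul, Matrix.trace_mul_comm, ← Matrix.mul_assoc,
    ← Units.val_mul, inv_mul_cancel, Units.val_one, Matrix.one_mul]

theorem NF_act_id (g : GL (Fin 2) k) : act g (1 : M2 k) = (g : M2 k).det • (1 : M2 k) := by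
  rw [act, Matrix.mul_one, ← Units.val_mul, mul_inv_cancel, Units.val_one]

theorem NF_act_uu (x : k) (m : M2 k) :
    act (uu x) m = !![m 0 0 + x * m 1 0, m 0 1 + x * m 1 1 - x * m 0 0 - x ^ 2 * m 1 0;
      m 1 0, m 1 1 - x * m 1 0] := by
  rw [act, NF_det_uu, one_smul, NF_uu_inv, NF_coe_uu, NF_coe_uu]
  ext i j
  fin_cases i <;> fin_cases j <;>
    simp [Matrix.mul_apply, Fin.sum_univ_two, Matrix.vecMul, dotProduct] <;> ring

theorem NF_det_ne_zero (g : GL (Fin 2) k) : (g : M2 k).det ≠ 0 :=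
  ((Matrix.isUnit_iff_isUnit_det _).1 g.isUnit).ne_zero

/-- `XX GG` as an additive subgroup. -/
def NF_X (GG : Subgroup (GL (Fin 2) k)) : AddSubgroup k where
  carrier := XX GG
  add_mem' := fun {x y} hx hy => by
    show uu (x + y) ∈ GG
    rw [← NF_uu_mul]
    exact GG.mul_mem hx hy
  zero_mem' := by
    show uu 0 ∈ GG
    rw [NF_uu_zero]
    exact GG.one_mem
  neg_mem' := fun {x} hx => by
    show uu (-x) ∈ GG
    rw [← NF_uu_inv]
    exact GG.inv_mem hx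

theorem NF_card_X (GG : Subgroup (GL (Fin 2) k)) : Nat.card (NF_X GG) = Nat.card (XX GG) := rfl

/-- subtracting a coboundary. -/
theorem NF_coc_sub {GG : Subgroup (GL (Fin 2) k)} {κ : GL (Fin 2) k → M2 k} (h : IsCoc GG κ)
    (m : M2 k) (hm : m.trace = 0) : IsCoc GG (fun g => κ g - (act g m - m)) where
  tr g hg := by
    rw [Matrix.trace_sub, Matrix.trace_sub, h.tr g hg, NF_trace_act, hm, mul_zero, sub_zero,
      sub_zero]
  coc g hg g' hg' := by
    show κ (g * g') - (act (g * g') m - m) = κ g - (act g m - m) + act g (κ g' - (act g' m - m))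
    rw [h.coc g hg g' hg', NF_act_mul, NF_act_sub, NF_act_sub]
    abel

/-- `GG ∩ SL₂`. -/
def NF_G1 (GG : Subgroup (GL (Fin 2) k)) : Subgroup (GL (Fin 2) k) :=
  GG ⊓ (Matrix.GeneralLinearGroup.det : GL (Fin 2) k →* kˣ).ker

theorem NF_mem_ker {g : GL (Fin 2) k} :
    g ∈ (Matrix.GeneralLinearGroup.det : GL (Fin 2) k →* kˣ).ker ↔ (g : M2 k).det = 1 := by
  rw [MonoidHom.mem_ker, Units.ext_iff, Matrix.GeneralLinearGroup.val_det_apply, Units.val_one]

theorem NF_mem_G1 {GG : Subgroup (GL (Fin 2) k)} {g : GL (Fin 2) k} :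
    g ∈ NF_G1 GG ↔ g ∈ GG ∧ (g : M2 k).det = 1 := by
  rw [NF_G1, Subgroup.mem_inf, NF_mem_ker]

theorem NF_XX_G1 (GG : Subgroup (GL (Fin 2) k)) : XX (NF_G1 GG) = XX GG := by
  ext x
  show uu x ∈ NF_G1 GG ↔ uu x ∈ GG
  rw [NF_mem_G1]
  exact ⟨fun h => h.1, fun h => ⟨h, NF_det_uu x⟩⟩

theorem NF_Lam_G1 (GG : Subgroup (GL (Fin 2) k)) : Lam (NF_G1 GG) = Lam GG := by
  ext l
  constructor
  · rintro ⟨t, ht, h1, h2, h3⟩
    exact ⟨t, (NF_mem_G1.1 ht).1, h1, h2, h3⟩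
  · rintro ⟨t, ht, h1, h2, h3⟩
    exact ⟨t, NF_mem_G1.2 ⟨ht, h2⟩, h1, h2, h3⟩

/-- `GG ∩ SL₂` is not upper triangular. -/
theorem NF_exists_lower {p : ℕ} {GG : Subgroup (GL (Fin 2) k)} (hB : Big p GG) {x₀ : k}
    (hx₀ : x₀ ≠ 0) (hx₀G : uu x₀ ∈ GG) : ∃ g ∈ NF_G1 GG, (g : M2 k) 1 0 ≠ 0 := by
  by_contra hcon
  push Not at hcon
  apply hB.irr GG ⟨le_rfl, fun a ha b _ ha' _ => absurd ha ha'⟩
  refine ⟨![1, 0], fun h => one_ne_zero (congrFun h 0), fun g hg => ⟨(g : M2 k) 0 0, ?_⟩⟩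
  have hc : (g : M2 k) 1 0 = 0 := by
    have hhG : g * uu x₀ * g⁻¹ ∈ NF_G1 GG :=
      Subgroup.mem_inf.2 ⟨GG.mul_mem (GG.mul_mem hg hx₀G) (GG.inv_mem hg),
        (MonoidHom.normal_ker _).conj_mem _ (NF_mem_ker.2 (NF_det_uu x₀)) g⟩
    have h10 := hcon _ hhG
    have e : g * uu x₀ * g⁻¹ * g = g * uu x₀ := by group
    have e' : ((g * uu x₀ * g⁻¹ : GL (Fin 2) k) : M2 k) * (g : M2 k)
        = (g : M2 k) * (uu x₀ : M2 k) := by
      rw [← Units.val_mul, e, Units.val_mul]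
    have e10 := congrFun (congrFun e' 1) 0
    have e11 := congrFun (congrFun e' 1) 1
    simp only [Matrix.mul_apply, Fin.sum_univ_two, h10, zero_mul, zero_add, NF_coe_uu] at e10 e11
    simp at e10 e11
    by_contra hc
    have h11 := mul_right_cancel₀ hc (e10.trans (one_mul _).symm)
    rw [h11, one_mul] at e11
    have h0 : (g : M2 k) 1 0 * x₀ = 0 := by linear_combination -e11
    exact (mul_ne_zero hc hx₀) h0
  ext i
  fin_cases i <;> simp [Matrix.mulVec, dotProduct, Fin.sum_univ_two, hc]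

/-! ### Step I : `c₀ = 0` -/

theorem NF_p5 (p q : ℕ) (hp : p.Prime) (h2 : p ≠ 2) (h3 : p ≠ 3) (hd : p ∣ q) (hq0 : 0 < q)
    (hq : q ≤ 5) : p = 5 ∧ q = 5 := by
  have hle : p ≤ 5 := (Nat.le_of_dvd hq0 hd).trans hq
  interval_cases p
  · exact absurd hp (by norm_num)
  · exact absurd hp (by norm_num)
  · exact absurd rfl h2
  · exact absurd rfl h3
  · exact absurd hp (by norm_num)
  · obtain ⟨m, rfl⟩ := hd
    exact ⟨rfl, by omega⟩

theorem NF_sq_ne_two (j : ℤ) : ¬ (5 : ℤ) ∣ j ^ 2 - 2 := by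
  intro h
  have h1 : ((j ^ 2 - 2 : ℤ) : ZMod 5) = 0 := (ZMod.intCast_zmod_eq_zero_iff_dvd _ 5).2 h
  push_cast at h1
  generalize (j : ZMod 5) = y at h1
  revert y
  decide

theorem NF_stepI (hInv : Stmt_Inv) (hFr : Stmt_Frat) (p : ℕ) [Fact p.Prime] [Finite k]
    [CharP k p] (hp2 : p ≠ 2) (GG : Subgroup (GL (Fin 2) k)) (hB : Big p GG) {x₀ : k}
    (hx₀ : x₀ ≠ 0) (hx₀G : uu x₀ ∈ GG) (hidx : ¬ p ∣ Nat.card GG / Nat.card (XX GG))
    (κ : GL (Fin 2) k → M2 k) (hκ : IsCoc GG κ)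
    (hcard : Nat.card (XX GG) - 1 ≤ 2 * Nat.card (Lam GG))
    (c₀ : k) (h3 : p = 3 → c₀ = 0) (hγ : ∀ x ∈ XX GG, κ (uu x) 1 0 = c₀ * x) : c₀ = 0 := by
  by_contra hc₀
  have hl : ∀ t ∈ GG, (t : M2 k) 1 0 = 0 →
      (t : M2 k) 0 0 / (t : M2 k) 1 1 = (t : M2 k) 1 1 ^ 2 ∧
      (t : M2 k) 0 0 / (t : M2 k) 1 1 * x₀ ∈ XX GG := by
    intro t ht h10
    obtain ⟨hX, hg, -⟩ := hInv k GG κ hκ t ht h10
    refine ⟨?_, hX x₀ hx₀G⟩
    have h1 := hg x₀ hx₀G
    rw [hγ _ (hX x₀ hx₀G), hγ _ hx₀G] at h1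
    have h2 : c₀ * x₀ * ((t : M2 k) 0 0 / (t : M2 k) 1 1) = c₀ * x₀ * (t : M2 k) 1 1 ^ 2 := by
      linear_combination h1
    exact mul_left_cancel₀ (mul_ne_zero hc₀ hx₀) h2
  have hLam : Lam GG ⊆ {1, -1} := by
    rintro l ⟨t, ht, h10, hdet, rfl⟩
    have h1 := (hl t ht h10).1
    rw [Matrix.det_fin_two, h10, mul_zero, sub_zero] at hdet
    have hd : (t : M2 k) 1 1 ≠ 0 := right_ne_zero_of_mul_eq_one hdet
    have h2 : (t : M2 k) 0 0 / (t : M2 k) 1 1 * ((t : M2 k) 0 0 / (t : M2 k) 1 1) = 1 := by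
      nth_rewrite 2 [h1]
      rw [← hdet]
      field_simp
    exact mul_self_eq_one_iff.1 h2
  have hLc : Nat.card (Lam GG) ≤ 2 := by
    rw [Nat.card_coe_set_eq]
    calc (Lam GG).ncard ≤ ({1, -1} : Set k).ncard := Set.ncard_le_ncard hLam (Set.toFinite _)
      _ ≤ ({-1} : Set k).ncard + 1 := Set.ncard_insert_le _ _
      _ = 2 := by rw [Set.ncard_singleton]
  have hp : p.Prime := Fact.out
  have hpx : p • x₀ = 0 := by rw [nsmul_eq_mul, CharP.cast_eq_zero, zero_mul]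
  have hord : addOrderOf x₀ = p := addOrderOf_eq_prime hpx hx₀
  have hord' : addOrderOf (⟨x₀, hx₀G⟩ : NF_X GG) = p :=
    addOrderOf_eq_prime (Subtype.ext hpx) (fun h => hx₀ (congrArg Subtype.val h))
  have hdvd : p ∣ Nat.card (XX GG) := by
    rw [← NF_card_X, ← hord']
    exact addOrderOf_dvd_natCard _
  have hq0 : 0 < Nat.card (XX GG) := by
    rw [← NF_card_X]
    exact Nat.card_pos
  obtain ⟨rfl, hq5⟩ := NF_p5 p _ hp hp2 (fun h => hc₀ (h3 h)) hdvd hq0 (by omega)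
  have hz : AddSubgroup.zmultiples x₀ = NF_X GG :=
    AddSubgroup.eq_of_le_of_card_ge (by rw [AddSubgroup.zmultiples_le]; exact hx₀G)
      (by rw [Nat.card_zmultiples, hord, NF_card_X, hq5])
  obtain ⟨g, hg, hdet⟩ := hB.det 2 (by norm_num)
  obtain ⟨t, ht, h10, hdt⟩ := hFr 5 k GG ⟨x₀, hx₀, hx₀G⟩ hidx g hg
  obtain ⟨h1, h2⟩ := hl t ht h10
  have h2' : (t : M2 k) 0 0 / (t : M2 k) 1 1 * x₀ ∈ AddSubgroup.zmultiples x₀ := by
    rw [hz]; exact h2
  obtain ⟨j, hj⟩ := AddSubgroup.mem_zmultiples_iff.1 h2'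
  rw [zsmul_eq_mul] at hj
  have hj' : (j : k) = (t : M2 k) 0 0 / (t : M2 k) 1 1 := mul_right_cancel₀ hx₀ hj
  have hdne := NF_det_ne_zero t
  rw [hdet, Matrix.det_fin_two, h10, mul_zero, sub_zero] at hdt
  rw [Matrix.det_fin_two, h10, mul_zero, sub_zero] at hdne
  have hd : (t : M2 k) 1 1 ≠ 0 := right_ne_zero_of_mul hdne
  have h5 : (j : k) ^ 2 = 2 := by
    have h6 : (t : M2 k) 0 0 / (t : M2 k) 1 1 * (t : M2 k) 1 1 ^ 2
        = (t : M2 k) 0 0 * (t : M2 k) 1 1 := by field_simp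
    rw [pow_two]
    nth_rewrite 2 [hj']
    rw [h1, hj', h6, hdt]
    norm_num
  apply NF_sq_ne_two j
  have h7 : ((j ^ 2 - 2 : ℤ) : k) = 0 := by
    push_cast
    rw [h5, sub_self]
  exact_mod_cast (CharP.intCast_eq_zero_iff k 5 _).1 h7

/-! ### Step III : averaging -/

/-- the action as a monoid homomorphism. -/
def NF_actHom (GG : Subgroup (GL (Fin 2) k)) : ↥GG →* Module.End k (M2 k) where
  toFun g :=
    { toFun := act (g : GL (Fin 2) k)
      map_add' := NF_act_add _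
      map_smul' := fun c m => NF_act_smul _ c m }
  map_one' := by
    apply LinearMap.ext
    intro m
    show act ((1 : ↥GG) : GL (Fin 2) k) m = m
    rw [Subgroup.coe_one, NF_act_one]
  map_mul' g h := by
    apply LinearMap.ext
    intro m
    show act ((g * h : ↥GG) : GL (Fin 2) k) m = act (g : GL (Fin 2) k) (act (h : GL (Fin 2) k) m)
    rw [Subgroup.coe_mul, NF_act_mul]

/-- the unipotent subgroup. -/
def NF_U (GG : Subgroup (GL (Fin 2) k)) : Subgroup ↥GG where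
  carrier := {g | ∃ x, (g : GL (Fin 2) k) = uu x}
  mul_mem' := by
    rintro a b ⟨x, hx⟩ ⟨y, hy⟩
    exact ⟨x + y, by rw [Subgroup.coe_mul, hx, hy, NF_uu_mul]⟩
  one_mem' := ⟨0, by rw [Subgroup.coe_one, NF_uu_zero]⟩
  inv_mem' := by
    rintro a ⟨x, hx⟩
    exact ⟨-x, by rw [Subgroup.coe_inv, hx, NF_uu_inv]⟩

theorem NF_card_U (GG : Subgroup (GL (Fin 2) k)) : Nat.card (NF_U GG) = Nat.card (XX GG) := by
  symm
  refine Nat.card_eq_of_bijective
    (fun x : XX GG => (⟨⟨uu x.1, x.2⟩, ⟨x.1, rfl⟩⟩ : NF_U GG)) ⟨?_, ?_⟩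
  · intro x y h
    have h1 : uu x.1 = uu y.1 := congrArg (fun g : NF_U GG => ((g : ↥GG) : GL (Fin 2) k)) h
    exact Subtype.ext (NF_uu_inj h1)
  · rintro ⟨⟨g, hg⟩, ⟨x, hx⟩⟩
    have hx' : g = uu x := hx
    subst hx'
    exact ⟨⟨x, hg⟩, rfl⟩

theorem NF_two_ne_zero (p : ℕ) [Fact p.Prime] [CharP k p] (hp2 : p ≠ 2) : (2 : k) ≠ 0 := by
  intro h
  have h1 : ((2 : ℕ) : k) = 0 := by exact_mod_cast h
  rw [CharP.cast_eq_zero_iff k p] at h1
  exact hp2 ((Nat.prime_dvd_prime_iff_eq Fact.out Nat.prime_two).1 h1)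

theorem NF_stepIII (hAvg : Stmt_Avg) (p : ℕ) [Fact p.Prime] [Finite k] [CharP k p] (hp2 : p ≠ 2)
    (GG : Subgroup (GL (Fin 2) k)) (hidx : ¬ p ∣ Nat.card GG / Nat.card (XX GG))
    (κ : GL (Fin 2) k → M2 k) (hκ : IsCoc GG κ) (hvan : ∀ x ∈ XX GG, κ (uu x) = 0) :
    IsCob GG κ := by
  have hidx' : (((NF_U GG).index : ℕ) : k) ≠ 0 := by
    rw [Ne, CharP.cast_eq_zero_iff k p]
    have h1 := (NF_U GG).index_mul_card
    rw [NF_card_U] at h1
    have hq0 : 0 < Nat.card (XX GG) := by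
      rw [← NF_card_X]
      exact Nat.card_pos
    have h2 : Nat.card GG / Nat.card (XX GG) = (NF_U GG).index :=
      Nat.div_eq_of_eq_mul_left hq0 h1.symm
    rwa [h2] at hidx
  obtain ⟨m, hm⟩ := hAvg k (M2 k) ↥GG (NF_actHom GG) (NF_U GG) hidx' (fun g => κ g)
    (fun g h => hκ.coc g g.2 h h.2) (by
      rintro u ⟨x, hx⟩
      show κ (u : GL (Fin 2) k) = 0
      rw [hx]
      exact hvan x (by show uu x ∈ GG; rw [← hx]; exact u.2))
  have h2 : (2 : k) ≠ 0 := NF_two_ne_zero p hp2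
  have hm' : ∀ g ∈ GG, κ g = act g m - m := fun g hg => hm ⟨g, hg⟩
  have hτ : ∀ g ∈ GG, ((g : M2 k).det - 1) * m.trace = 0 := by
    intro g hg
    have h1 := congrArg Matrix.trace (hm' g hg)
    rw [hκ.tr g hg, Matrix.trace_sub, NF_trace_act] at h1
    linear_combination -h1
  refine ⟨m - (m.trace / 2) • (1 : M2 k), ?_, fun g hg => ?_⟩
  · rw [Matrix.trace_sub, Matrix.trace_smul, Matrix.trace_one, Fintype.card_fin, smul_eq_mul]
    push_cast
    field_simp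
    ring
  · rw [hm' g hg, NF_act_sub, NF_act_smul, NF_act_id]
    have h3 : (m.trace / 2) • (g : M2 k).det • (1 : M2 k) = (m.trace / 2) • (1 : M2 k) := by
      rw [smul_smul]
      congr 1
      have h4 := hτ g hg
      field_simp
      linear_combination h4
    rw [h3]
    abel

/-! ### assembly -/

/-- **GRP-NF.** -/
theorem h1vanNF (hAvg : Stmt_Avg) (hCocU : Stmt_CocU) (hEqs : Stmt_Eqs) (hInv : Stmt_Inv)
    (hT : Stmt_LemmaT) (h2 : Stmt_TypeII) (hFr : Stmt_Frat) : Stmt_H1vanNF := by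
  intro p _ k _ _ _ hp2 GG hB hx hidx κ hκ
  obtain ⟨x₀, hx₀, hx₀G⟩ := hx
  have h20 : (2 : k) ≠ 0 := NF_two_ne_zero p hp2
  -- Lemma T
  have hcard : Nat.card (XX GG) - 1 ≤ 2 * Nat.card (Lam GG) := by
    have h := hT p k hp2 (NF_G1 GG) (fun g hg => (NF_mem_G1.1 hg).2)
      (fun g hg => hB.split g (NF_mem_G1.1 hg).1) ⟨x₀, hx₀, NF_mem_G1.2 ⟨hx₀G, NF_det_uu x₀⟩⟩
      (NF_exists_lower hB hx₀ hx₀G)
    rwa [NF_XX_G1, NF_Lam_G1] at h
  -- the shape of `κ` on the unipotent subgroup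
  obtain ⟨c₀, c₁, h3, hγ, hβ, hα⟩ := hCocU p k hp2 (NF_X GG) (fun x => κ (uu x) 0 1)
    (fun x => κ (uu x) 0 0) (fun x => κ (uu x) 1 0) ⟨x₀, hx₀G, hx₀⟩
    (fun x hx y hy => (hEqs k GG κ hκ x hx y hy).1)
    (fun x hx y hy => (hEqs k GG κ hκ x hx y hy).2.1)
    (fun x hx y hy => (hEqs k GG κ hκ x hx y hy).2.2)
  have hc₀ : c₀ = 0 := NF_stepI hInv hFr p hp2 GG hB hx₀ hx₀G hidx κ hκ hcard c₀ h3 hγ
  subst hc₀
  simp only [zero_mul, zero_div, zero_add, add_zero] at hγ hβ hα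
  have h11 : ∀ x ∈ XX GG, κ (uu x) 1 1 = -(c₁ * x) := by
    intro x hx
    have h := hκ.tr (uu x) hx
    rw [Matrix.trace_fin_two, hβ x hx] at h
    linear_combination h
  -- first modification
  have hκ1 := NF_coc_sub hκ !![0, 0; c₁, 0] (by simp [Matrix.trace_fin_two])
  have e10 : ∀ x ∈ XX GG, (κ (uu x) - (act (uu x) !![0, 0; c₁, 0] - !![0, 0; c₁, 0])) 1 0 = 0 := by
    intro x hx
    rw [NF_act_uu]
    simp [hγ x hx]
  have e00 : ∀ x ∈ XX GG, (κ (uu x) - (act (uu x) !![0, 0; c₁, 0] - !![0, 0; c₁, 0])) 0 0 = 0 := by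
    intro x hx
    rw [NF_act_uu]
    simp [hβ x hx, mul_comm]
  have e01 : ∀ x : k, (κ (uu x) - (act (uu x) !![0, 0; c₁, 0] - !![0, 0; c₁, 0])) 0 1
      = κ (uu x) 0 1 + c₁ * x ^ 2 := by
    intro x
    rw [NF_act_uu]
    simp [mul_comm]
  -- type II
  obtain ⟨c, hc⟩ := h2 p k (NF_X GG) (Lam GG)
    (by
      rintro l ⟨t, ht, h10, hdet, rfl⟩
      rw [Matrix.det_fin_two, h10, mul_zero, sub_zero] at hdet
      exact div_ne_zero (left_ne_zero_of_mul_eq_one hdet) (right_ne_zero_of_mul_eq_one hdet))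
    ⟨1, GG.one_mem, by simp, by simp, by simp⟩
    (by
      rintro l ⟨t, ht, h10, hdet, rfl⟩ l' ⟨t', ht', h10', hdet', rfl⟩
      refine ⟨t * t', GG.mul_mem ht ht', ?_, ?_, ?_⟩
      · simp [Matrix.mul_apply, Fin.sum_univ_two, h10, h10']
      · rw [Units.val_mul, Matrix.det_mul, hdet, hdet', one_mul]
      · simp [Matrix.mul_apply, Fin.sum_univ_two, h10, h10', div_mul_div_comm])
    (by
      rintro l ⟨t, ht, h10, hdet, rfl⟩ x hx
      exact (hInv k GG κ hκ t ht h10).1 x hx)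
    (by rw [NF_card_X]; exact hcard)
    (fun x => κ (uu x) 0 1 + c₁ * x ^ 2) hα
    (by
      rintro l ⟨t, ht, h10, hdet, rfl⟩
      obtain ⟨b, hb⟩ := (hInv k GG _ hκ1 t ht h10).2.2 (fun x hx => ⟨e10 x hx, e00 x hx⟩)
      refine ⟨b, fun x hx => ?_⟩
      have h := hb x hx
      rw [e01, e01] at h
      rw [Matrix.det_fin_two, h10, mul_zero, sub_zero] at hdet
      have hd : (t : M2 k) 1 1 ≠ 0 := right_ne_zero_of_mul_eq_one hdet
      have hl : (t : M2 k) 0 0 ^ 2 = (t : M2 k) 0 0 / (t : M2 k) 1 1 := by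
        rw [eq_div_iff hd]
        linear_combination (t : M2 k) 0 0 * hdet
      rw [hl] at h
      exact h)
  -- second modification
  have hκ2 := NF_coc_sub hκ !![-(c / 2), 0; c₁, c / 2] (by simp [Matrix.trace_fin_two])
  obtain ⟨m, hmtr, hm⟩ := NF_stepIII hAvg p hp2 GG hidx _ hκ2 (by
    intro x hx
    have hcx := hc x hx
    rw [NF_act_uu]
    ext i j
    fin_cases i <;> fin_cases j
    · simp [hβ x hx, mul_comm]
    · simp
      field_simp
      linear_combination 2 * hcx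
    · simp [hγ x hx]
    · simp [h11 x hx, mul_comm])
  refine ⟨m + !![-(c / 2), 0; c₁, c / 2], ?_, fun g hg => ?_⟩
  · rw [Matrix.trace_add, hmtr]
    simp [Matrix.trace_fin_two]
  · have h := hm g hg
    rw [sub_eq_iff_eq_add] at h
    rw [h, NF_act_add]
    abel

end Fermat.Agent.TW56.Grp

end
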