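/-
TEAM TW56 -> S56, block [GRP] : GRP-REGSS, regular semisimple elements in `G'` (helper19).
-/
import Fermat.Agent.TW56.Grp.Api

set_option autoImplicit false

namespace Fermat.Agent.TW56.Grp

open Matrix Polynomial

variable {k : Type} [Field k]

theorem RegSS_tr_det {M : M2 k} {a b : k} (h : M.charpoly = (X - C a) * (X - C b)) :
    M.trace = a + b ∧ M.det = a * b := by
  rw [Matrix.charpoly_fin_two] at h
  have h0 := congrArg (Polynomial.eval 0) h
  have h1 := congrArg (Polynomial.eval 1) h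
  simp at h0 h1
  exact ⟨by linear_combination h0 - h1, h0⟩

/-- Cayley-Hamilton in dimension two. -/
theorem RegSS_ch (M : M2 k) : M * M = M.trace • M - M.det • (1 : M2 k) := by
  ext i j
  fin_cases i <;> fin_cases j <;>
    simp [Matrix.mul_apply, Fin.sum_univ_two, Matrix.trace_fin_two, Matrix.det_fin_two] <;> ring

/-- two nilpotent matrices with `tr (N N') = 0` have product zero. -/
theorem RegSS_nil_mul {N N' : M2 k} (h1 : N.trace = 0) (h2 : N.det = 0) (h1' : N'.trace = 0)
    (h2' : N'.det = 0) (hτ : (N * N').trace = 0) : N * N' = 0 := by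
  rw [Matrix.trace_fin_two] at h1 h1'
  rw [Matrix.det_fin_two] at h2 h2'
  rw [Matrix.trace_fin_two, Matrix.mul_apply, Matrix.mul_apply, Fin.sum_univ_two,
    Fin.sum_univ_two] at hτ
  have hw : N 1 1 = - N 0 0 := by linear_combination h1
  have hw' : N' 1 1 = - N' 0 0 := by linear_combination h1'
  rw [hw] at h2 hτ
  rw [hw'] at h2' hτ
  ext i j
  fin_cases i <;> fin_cases j
  · show (N * N') 0 0 = 0
    rw [Matrix.mul_apply, Fin.sum_univ_two]
    linear_combination (exp := 2) (N 0 1 * N' 1 0) * hτ - (N' 0 0) ^ 2 * h2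
      + (N 0 1 * N 1 0) * h2'
  · show (N * N') 0 1 = 0
    rw [Matrix.mul_apply, Fin.sum_univ_two, hw']
    linear_combination (exp := 2) (-(N 0 1 * N' 0 1)) * hτ - (N' 0 1) ^ 2 * h2
      - (N 0 1) ^ 2 * h2'
  · show (N * N') 1 0 = 0
    rw [Matrix.mul_apply, Fin.sum_univ_two, hw]
    linear_combination (exp := 2) (-(N 1 0 * N' 1 0)) * hτ - (N' 1 0) ^ 2 * h2
      - (N 1 0) ^ 2 * h2'
  · show (N * N') 1 1 = 0
    rw [Matrix.mul_apply, Fin.sum_univ_two, hw, hw']
    linear_combination (exp := 2) (N 1 0 * N' 0 1) * hτ - (N' 0 0) ^ 2 * h2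
      + (N 0 1 * N 1 0) * h2'

theorem RegSS_prop {u v : Fin 2 → k} (hv : v ≠ 0) (h : u 0 * v 1 - u 1 * v 0 = 0) :
    ∃ c : k, u = c • v := by
  by_cases h0 : v 0 = 0
  · have h1 : v 1 ≠ 0 := by
      intro h1
      apply hv
      ext i
      fin_cases i
      · exact h0
      · exact h1
    refine ⟨u 1 / v 1, ?_⟩
    ext i
    fin_cases i
    · show u 0 = u 1 / v 1 * v 0
      rw [h0, mul_zero, sub_zero] at h
      rw [h0, mul_zero]
      exact (mul_eq_zero.1 h).resolve_right h1
    · show u 1 = u 1 / v 1 * v 1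
      field_simp
  · refine ⟨u 0 / v 0, ?_⟩
    ext i
    fin_cases i
    · show u 0 = u 0 / v 0 * v 0
      field_simp
    · show u 1 = u 0 / v 0 * v 1
      field_simp
      linear_combination -h

theorem RegSS_ker {M : M2 k} (hM : M ≠ 0) {u v : Fin 2 → k} (hu : M *ᵥ u = 0)
    (hv : M *ᵥ v = 0) : u 0 * v 1 - u 1 * v 0 = 0 := by
  by_contra hδ
  apply hM
  have hu' : ∀ i, M i 0 * u 0 + M i 1 * u 1 = 0 := fun i => by
    have := congrFun hu i
    simpa [Matrix.mulVec, dotProduct, Fin.sum_univ_two] using this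
  have hv' : ∀ i, M i 0 * v 0 + M i 1 * v 1 = 0 := fun i => by
    have := congrFun hv i
    simpa [Matrix.mulVec, dotProduct, Fin.sum_univ_two] using this
  ext i j
  fin_cases j
  · have : M i 0 * (u 0 * v 1 - u 1 * v 0) = 0 := by
      linear_combination v 1 * hu' i - u 1 * hv' i
    exact (mul_eq_zero.1 this).resolve_right hδ
  · have : M i 1 * (u 0 * v 1 - u 1 * v 0) = 0 := by
      linear_combination u 0 * hv' i - v 0 * hu' i
    exact (mul_eq_zero.1 this).resolve_right hδ

/-- the kernel of a nonzero matrix is at most a line. -/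
theorem RegSS_line {M : M2 k} (hM : M ≠ 0) {u v : Fin 2 → k} (hv0 : v ≠ 0) (hu : M *ᵥ u = 0)
    (hv : M *ᵥ v = 0) : ∃ c : k, u = c • v :=
  RegSS_prop hv0 (RegSS_ker hM hu hv)

theorem RegSS_sub_det {M : M2 k} {a b : k} (htr : M.trace = a + b) (hdet : M.det = a * b) :
    (M - a • (1 : M2 k)).det = 0 := by
  rw [Matrix.trace_fin_two] at htr
  rw [Matrix.det_fin_two] at hdet
  rw [Matrix.det_fin_two]
  simp
  linear_combination hdet - a * htr

theorem RegSS_sub_trace {M : M2 k} {e : k} (htr : M.trace = 2 * e) :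
    (M - e • (1 : M2 k)).trace = 0 := by
  rw [Matrix.trace_fin_two] at htr
  rw [Matrix.trace_fin_two]
  simp
  linear_combination htr

/-- the core computation of case 1. -/
theorem RegSS_core (h2 : (2 : k) ≠ 0) {A B : M2 k} {e : k} (he : e * e = 1)
    (hA : A.trace = 2 * e) (hAd : A.det = 1) (hB : B.trace = 2 * e) (hBd : B.det = 1)
    (h1 : (A * B).trace ^ 2 = 4) (h3 : (A * A * B).trace ^ 2 = 4) :
    (A - e • (1 : M2 k)) * (B - e • (1 : M2 k)) = 0 := by
  have e1 : ((A - e • (1 : M2 k)) * (B - e • (1 : M2 k))).trace = (A * B).trace - 2 := by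
    have : (A - e • (1 : M2 k)) * (B - e • (1 : M2 k)) =
        A * B - e • A - e • B + (e * e) • (1 : M2 k) := by
      rw [Matrix.sub_mul, Matrix.mul_sub, Matrix.mul_sub, Matrix.mul_smul, Matrix.mul_one,
        Matrix.smul_mul, Matrix.one_mul, Matrix.smul_mul, Matrix.one_mul, smul_smul]
      abel
    rw [this, Matrix.trace_add, Matrix.trace_sub, Matrix.trace_sub, Matrix.trace_smul,
      Matrix.trace_smul, Matrix.trace_smul, hA, hB, Matrix.trace_one, Fintype.card_fin]
    simp only [smul_eq_mul]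
    push_cast
    linear_combination (-2 : k) * he
  have e2 : (A * A * B).trace = 2 * e * (A * B).trace - 2 * e := by
    rw [RegSS_ch A, hA, hAd, Matrix.sub_mul, Matrix.smul_mul, Matrix.smul_mul, Matrix.one_mul,
      Matrix.trace_sub, Matrix.trace_smul, Matrix.trace_smul, hB]
    simp only [smul_eq_mul]
    ring
  have hτ : (A * B).trace - 2 = 0 := by
    rw [e2] at h3
    have h8 : (2 : k) ^ 3 * ((A * B).trace - 2) = 0 := by
      linear_combination 4 * h1 - h3 + (4 * ((A * B).trace - 1) ^ 2) * he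
    exact (mul_eq_zero.1 h8).resolve_left (pow_ne_zero 3 h2)
  have hab : A.trace = e + e := by rw [hA]; ring
  have hab' : B.trace = e + e := by rw [hB]; ring
  exact RegSS_nil_mul (RegSS_sub_trace hA) (RegSS_sub_det hab (by rw [hAd, he]))
    (RegSS_sub_trace hB) (RegSS_sub_det hab' (by rw [hBd, he])) (by rw [e1, hτ])

theorem RegSS_exists_mulVec_ne {M : M2 k} (hM : M ≠ 0) : ∃ w : Fin 2 → k, M *ᵥ w ≠ 0 := by
  by_contra hcon
  push Not at hcon
  apply hM
  ext i j
  have := congrFun (hcon (Pi.single j 1)) i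
  simpa using this

/-- **GRP-REGSS** -/
theorem regSS : Stmt_RegSS := by
  intro p _ k _ _ _ hp GG hBig G' hle hnorm hcomm hdet
  by_contra hcon
  push Not at hcon
  have h2 : (2 : k) ≠ 0 := Ring.two_ne_zero (by rw [ringChar.eq k p]; exact hp)
  have hT : ∀ h ∈ G', ∃ e : k, e * e = 1 ∧ (h : M2 k).trace = 2 * e := by
    intro h hh
    obtain ⟨a, b, hab⟩ := hBig.split h (hle hh)
    have hab' : a = b := by
      by_contra hne
      exact hcon h hh a b hne hab
    subst hab'
    obtain ⟨h1, h3⟩ := RegSS_tr_det hab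
    exact ⟨a, by rw [← h3, hdet h hh], by rw [h1]; ring⟩
  have hT' : ∀ h ∈ G', (h : M2 k).trace ^ 2 = 4 := by
    intro h hh
    obtain ⟨e, he, htr⟩ := hT h hh
    rw [htr]
    linear_combination 4 * he
  by_cases hsc : ∀ h ∈ G', ∃ c : k, (h : M2 k) = c • (1 : M2 k)
  · -- CASE 2 : all elements of `G'` are scalar
    have hns : ∃ g0 ∈ GG, ∀ c : k, (g0 : M2 k) ≠ c • (1 : M2 k) := by
      by_contra hall
      push Not at hall
      apply hBig.irr GG (idxLe2_self GG)
      refine ⟨![1, 0], ?_, fun g hg => ?_⟩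
      · intro h0
        have := congrFun h0 0
        simp at this
      · obtain ⟨c, hc⟩ := hall g hg
        exact ⟨c, by rw [hc, Matrix.smul_mulVec, Matrix.one_mulVec]⟩
    obtain ⟨g0, hg0, hg0ns⟩ := hns
    -- the commutator with `g0` is a sign
    have hsign : ∀ a ∈ GG, (a : M2 k) * (g0 : M2 k) = (g0 : M2 k) * (a : M2 k) ∨
        (a : M2 k) * (g0 : M2 k) = -((g0 : M2 k) * (a : M2 k)) := by
      intro a ha
      have hm := hcomm a ha g0 hg0
      obtain ⟨c, hc⟩ := hsc _ hm
      have hd := hdet _ hm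
      rw [hc, Matrix.det_smul, Matrix.det_one, Fintype.card_fin, mul_one] at hd
      have e : (a : M2 k) * (g0 : M2 k) = c • ((g0 : M2 k) * (a : M2 k)) := by
        have e1 : ((a * g0 * a⁻¹ * g0⁻¹ : GL (Fin 2) k) : M2 k) * ((g0 * a : GL (Fin 2) k) : M2 k)
            = (a : M2 k) * (g0 : M2 k) := by
          rw [← Units.val_mul, ← Units.val_mul]
          congr 1
          group
        rw [← e1, hc, Matrix.smul_mul, Matrix.one_mul, Units.val_mul]
      have hc2 : (c - 1) * (c + 1) = 0 := by linear_combination hd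
      rcases mul_eq_zero.1 hc2 with h | h
      · left
        rw [e, sub_eq_zero.1 h, one_smul]
      · right
        rw [e, eq_neg_of_add_eq_zero_left h, neg_smul, one_smul]
    let H : Subgroup (GL (Fin 2) k) := GG ⊓ Subgroup.centralizer {g0}
    have hmemH : ∀ a : GL (Fin 2) k, a ∈ H ↔ a ∈ GG ∧ (a : M2 k) * (g0 : M2 k)
        = (g0 : M2 k) * (a : M2 k) := by
      intro a
      show a ∈ GG ∧ a ∈ Subgroup.centralizer {g0} ↔ _
      rw [Subgroup.mem_centralizer_singleton_iff]
      constructor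
      · rintro ⟨h1, h3⟩
        refine ⟨h1, ?_⟩
        rw [← Units.val_mul, ← Units.val_mul, h3]
      · rintro ⟨h1, h3⟩
        refine ⟨h1, Units.ext ?_⟩
        rw [Units.val_mul, Units.val_mul, h3]
    have hidx : IdxLe2 H GG := by
      refine ⟨inf_le_left, fun a ha b hb haH hbH => ?_⟩
      have ha' : (a : M2 k) * (g0 : M2 k) = -((g0 : M2 k) * (a : M2 k)) :=
        (hsign a ha).resolve_left fun h => haH ((hmemH a).2 ⟨ha, h⟩)
      have hb' : (b : M2 k) * (g0 : M2 k) = -((g0 : M2 k) * (b : M2 k)) :=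
        (hsign b hb).resolve_left fun h => hbH ((hmemH b).2 ⟨hb, h⟩)
      refine (hmemH _).2 ⟨GG.mul_mem ha hb, ?_⟩
      rw [Units.val_mul, Matrix.mul_assoc, hb', Matrix.mul_neg, ← Matrix.mul_assoc, ha',
        Matrix.neg_mul, neg_neg, Matrix.mul_assoc]
    apply hBig.irr H hidx
    obtain ⟨α, β, hαβ⟩ := hBig.split g0 hg0
    obtain ⟨h1, h3⟩ := RegSS_tr_det hαβ
    have hM0 : (g0 : M2 k) - α • (1 : M2 k) ≠ 0 := fun h => hg0ns α (sub_eq_zero.1 h)
    obtain ⟨v, hv, hMv⟩ := Matrix.exists_mulVec_eq_zero_iff.2 (RegSS_sub_det h1 h3)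
    refine ⟨v, hv, fun h hh => ?_⟩
    refine RegSS_line hM0 hv ?_ hMv
    have hc := ((hmemH h).1 hh).2
    have e : ((g0 : M2 k) - α • (1 : M2 k)) * (h : M2 k) =
        (h : M2 k) * ((g0 : M2 k) - α • (1 : M2 k)) := by
      rw [Matrix.sub_mul, Matrix.mul_sub, hc, Matrix.smul_mul, Matrix.mul_smul, Matrix.one_mul,
        Matrix.mul_one]
    rw [Matrix.mulVec_mulVec, e, ← Matrix.mulVec_mulVec, hMv, Matrix.mulVec_zero]
  · -- CASE 1 : some element of `G'` is not scalar
    push Not at hsc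
    obtain ⟨h0, hh0, hns⟩ := hsc
    obtain ⟨e, he, htr⟩ := hT h0 hh0
    have hM0 : (h0 : M2 k) - e • (1 : M2 k) ≠ 0 := fun h => hns e (sub_eq_zero.1 h)
    have htr' : (h0 : M2 k).trace = e + e := by rw [htr]; ring
    have hsq : ((h0 : M2 k) - e • (1 : M2 k)) * ((h0 : M2 k) - e • (1 : M2 k)) = 0 := by
      rw [RegSS_ch, RegSS_sub_trace htr, RegSS_sub_det htr' (by rw [hdet h0 hh0, he]), zero_smul,
        zero_smul, sub_zero]
    have hkey : ∀ g ∈ GG, ((h0 : M2 k) - e • (1 : M2 k)) * (g : M2 k) *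
        ((h0 : M2 k) - e • (1 : M2 k)) = 0 := by
      intro g hg
      have hm := hnorm g hg h0 hh0
      have hB : ((g * h0 * g⁻¹ : GL (Fin 2) k) : M2 k).trace = 2 * e := by
        rw [Units.val_mul, Units.val_mul, Matrix.trace_units_conj, htr]
      have h1 := hT' _ (G'.mul_mem hh0 hm)
      have h3 := hT' _ (G'.mul_mem (G'.mul_mem hh0 hh0) hm)
      rw [Units.val_mul] at h1
      rw [Units.val_mul, Units.val_mul] at h3
      have hc := RegSS_core h2 he htr (hdet h0 hh0) hB (hdet _ hm) h1 h3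
      have e1 : ((g * h0 * g⁻¹ : GL (Fin 2) k) : M2 k) - e • (1 : M2 k) =
          (g : M2 k) * ((h0 : M2 k) - e • (1 : M2 k)) * ((g⁻¹ : GL (Fin 2) k) : M2 k) := by
        rw [Matrix.mul_sub, Matrix.sub_mul, Matrix.mul_smul, Matrix.mul_one, Matrix.smul_mul,
          coe_mul_inv, Units.val_mul, Units.val_mul]
      rw [e1] at hc
      have hc' := congrArg (fun m : M2 k => m * (g : M2 k)) hc
      simp only [Matrix.zero_mul] at hc'
      rw [Matrix.mul_assoc, Matrix.mul_assoc, coe_inv_mul, Matrix.mul_one, ← Matrix.mul_assoc]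
        at hc'
      exact hc'
    obtain ⟨w, hw⟩ := RegSS_exists_mulVec_ne hM0
    apply hBig.irr GG (idxLe2_self GG)
    refine ⟨_, hw, fun g hg => ?_⟩
    refine RegSS_line hM0 hw ?_ ?_
    · rw [Matrix.mulVec_mulVec, Matrix.mulVec_mulVec, hkey g hg, Matrix.zero_mulVec]
    · rw [Matrix.mulVec_mulVec, hsq, Matrix.zero_mulVec]

end Fermat.Agent.TW56.Grp
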