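/-
TEAM TW56 -> S56, block [GRP], task GRP-T2 (helper31): type II classes vanish (Leibniz rule).
-/
import Fermat.Agent.TW56.Grp.Interface

set_option autoImplicit false

namespace Fermat.Agent.TW56.Grp

/-- Leibniz rule, iterated. -/
theorem TypeII_leibniz {k : Type} [Field k] (Λ : Set k)
    (hm : ∀ l ∈ Λ, ∀ l' ∈ Λ, l * l' ∈ Λ) (d : k → k)
    (hd : ∀ l ∈ Λ, ∀ l' ∈ Λ, d (l * l') = l * d l' + l' * d l) (l : k) (hl : l ∈ Λ) (N : ℕ) :
    l ^ (N + 1) ∈ Λ ∧ d (l ^ (N + 1)) = ((N + 1 : ℕ) : k) * l ^ N * d l := by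
  induction N with
  | zero => simp [hl]
  | succ n ih =>
    obtain ⟨ih1, ih2⟩ := ih
    refine ⟨by rw [pow_succ]; exact hm _ ih1 _ hl, ?_⟩
    rw [pow_succ l (n + 1), hd _ ih1 _ hl, ih2]
    push_cast
    ring

/-- a derivation-like map on a multiplicative subset of a finite field vanishes. -/
theorem TypeII_der_zero {k : Type} [Field k] [Finite k] (Λ : Set k) (h0 : ∀ l ∈ Λ, l ≠ 0)
    (hm : ∀ l ∈ Λ, ∀ l' ∈ Λ, l * l' ∈ Λ) (d : k → k) (hd1 : d 1 = 0)
    (hd : ∀ l ∈ Λ, ∀ l' ∈ Λ, d (l * l') = l * d l' + l' * d l) (l : k) (hl : l ∈ Λ) :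
    d l = 0 := by
  classical
  have : Fintype k := Fintype.ofFinite k
  have hl0 := h0 l hl
  have hcard : 2 ≤ Fintype.card k := Fintype.one_lt_card
  obtain ⟨N, hN⟩ : ∃ N, Fintype.card k = N + 2 := ⟨Fintype.card k - 2, by omega⟩
  have hpow : l ^ (N + 1) = 1 := by
    have := FiniteField.pow_card_sub_one_eq_one l hl0
    rwa [hN] at this
  have h2 := (TypeII_leibniz Λ hm d hd l hl N).2
  rw [hpow, hd1] at h2
  have hc : ((N + 1 : ℕ) : k) = -1 := by
    have : ((Fintype.card k : ℕ) : k) = 0 := FiniteField.cast_card_eq_zero k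
    rw [hN] at this
    push_cast at this ⊢
    linear_combination this
  rw [hc] at h2
  have h3 : l ^ N * d l = 0 := by linear_combination h2
  rcases mul_eq_zero.mp h3 with h | h
  · exact absurd h (pow_ne_zero _ hl0)
  · exact h

/-- the orbit of `x0` generates `X`. -/
theorem TypeII_gen {k : Type} [Field k] [Finite k] (X : AddSubgroup k)
    (Λ : Set k) (h0 : ∀ l ∈ Λ, l ≠ 0)
    (hX : ∀ l ∈ Λ, ∀ x ∈ X, l * x ∈ X) (hc : Nat.card X - 1 ≤ 2 * Nat.card Λ)
    (x0 : k) (hx0 : x0 ∈ X) (hx0n : x0 ≠ 0) :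
    AddSubgroup.closure ((fun l => l * x0) '' Λ) = X := by
  classical
  set Y := AddSubgroup.closure ((fun l => l * x0) '' Λ) with hY
  have hYX : Y ≤ X := by
    rw [hY, AddSubgroup.closure_le]
    rintro _ ⟨l, hl, rfl⟩
    exact hX l hl x0 hx0
  -- counting
  have hinj : Function.Injective (fun l : k => l * x0) := fun a b h => mul_right_cancel₀ hx0n h
  have hS : insert (0 : k) ((fun l => l * x0) '' Λ) ⊆ (Y : Set k) := by
    intro y hy
    rcases hy with rfl | hy
    · exact Y.zero_mem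
    · exact AddSubgroup.subset_closure hy
  have hcardS : Nat.card (insert (0 : k) ((fun l => l * x0) '' Λ) : Set k) = Nat.card Λ + 1 := by
    have hnot : (0 : k) ∉ (fun l => l * x0) '' Λ := by
      rintro ⟨l, hl, h⟩
      exact (mul_ne_zero (h0 l hl) hx0n) h
    rw [Nat.card_coe_set_eq, Set.ncard_insert_of_notMem hnot (Set.toFinite _),
      Set.ncard_image_of_injective _ hinj, Nat.card_coe_set_eq]
  have hle : Nat.card Λ + 1 ≤ Nat.card Y := by
    rw [← hcardS]
    exact Nat.card_mono (Set.toFinite _) hS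
  have hdvd : Nat.card Y ∣ Nat.card X := AddSubgroup.card_dvd_of_le hYX
  obtain ⟨m, hm⟩ := hdvd
  have hXpos : 0 < Nat.card X := Nat.card_pos
  have hm1 : m = 1 := by
    rcases m with _ | _ | m
    · simp at hm; omega
    · rfl
    · exfalso
      have : Nat.card X = Nat.card Y * m + 2 * Nat.card Y := by rw [hm]; ring
      have h3 : 0 ≤ Nat.card Y * m := Nat.zero_le _
      omega
  rw [hm1, mul_one] at hm
  exact AddSubgroup.eq_of_le_of_card_ge hYX hm.le

theorem typeII : Stmt_TypeII := by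
  intro p _ k _ _ _ X Λ h0 h1 hm hX hc α₀ ha hl
  classical
  have hα0 : α₀ 0 = 0 := by
    have := ha 0 X.zero_mem 0 X.zero_mem
    rw [add_zero] at this
    linear_combination -this
  by_cases hX0 : ∀ x ∈ X, x = 0
  · refine ⟨0, fun x hx => ?_⟩
    rw [hX0 x hx, hα0, mul_zero]
  push Not at hX0
  obtain ⟨x0, hx0, hx0n⟩ := hX0
  have hgen := TypeII_gen X Λ h0 hX hc x0 hx0 hx0n
  -- the corrected map
  set D : k → k := fun x => α₀ x - (x / x0) * α₀ x0 with hD
  have hDadd : ∀ x ∈ X, ∀ y ∈ X, D (x + y) = D x + D y := by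
    intro x hx y hy
    simp only [hD, ha x hx y hy]
    ring
  have hD0 : D 0 = 0 := by simp [hD, hα0]
  have hDx0 : D x0 = 0 := by
    simp only [hD, div_self hx0n]; ring
  have hDneg : ∀ x ∈ X, D (-x) = - D x := by
    intro x hx
    have := hDadd x hx (-x) (X.neg_mem hx)
    rw [add_neg_cancel, hD0] at this
    linear_combination -this
  have hDl : ∀ l ∈ Λ, ∃ b : k, ∀ x ∈ X, D (l * x) = l * D x + b * x := by
    intro l hlΛ
    obtain ⟨b, hb⟩ := hl l hlΛ
    refine ⟨b, fun x hx => ?_⟩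
    simp only [hD, hb x hx]
    ring
  set d : k → k := fun l => D (l * x0) / x0 with hd
  have hd1 : d 1 = 0 := by simp [hd, hDx0]
  have hdL : ∀ l ∈ Λ, ∀ l' ∈ Λ, d (l * l') = l * d l' + l' * d l := by
    intro l hlΛ l' hl'Λ
    obtain ⟨b, hb⟩ := hDl l hlΛ
    have e1 := hb x0 hx0
    have e2 := hb (l' * x0) (hX l' hl'Λ x0 hx0)
    rw [hDx0, mul_zero, zero_add] at e1
    simp only [hd]
    rw [mul_assoc, e2, e1]
    field_simp
  have hdz : ∀ l ∈ Λ, D (l * x0) = 0 := by
    intro l hlΛ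
    have := TypeII_der_zero Λ h0 hm d hd1 hdL l hlΛ
    simp only [hd] at this
    rcases div_eq_zero_iff.mp this with h | h
    · exact h
    · exact absurd h hx0n
  have hDX : ∀ x ∈ X, D x = 0 := by
    intro x hx
    rw [← hgen] at hx
    have key : x ∈ X ∧ D x = 0 := by
      induction hx using AddSubgroup.closure_induction with
      | mem y hy =>
        obtain ⟨l, hlΛ, rfl⟩ := hy
        exact ⟨hX l hlΛ x0 hx0, hdz l hlΛ⟩
      | zero => exact ⟨X.zero_mem, hD0⟩
      | add y z _ _ ihy ihz =>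
        exact ⟨X.add_mem ihy.1 ihz.1, by rw [hDadd y ihy.1 z ihz.1, ihy.2, ihz.2, add_zero]⟩
      | neg y _ ihy =>
        exact ⟨X.neg_mem ihy.1, by rw [hDneg y ihy.1, ihy.2, neg_zero]⟩
    exact key.2
  refine ⟨α₀ x0 / x0, fun x hx => ?_⟩
  have := hDX x hx
  simp only [hD] at this
  have h2 : α₀ x = x / x0 * α₀ x0 := by linear_combination this
  rw [h2]
  ring

end Fermat.Agent.TW56.Grp

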