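import Fermat.Agent.TW56.Grp.Interface

/-!
# TW56 / Grp : GRP-UNI  (`p`-subgroups of `GL₂(k)` are unitriangular up to conjugacy)
-/

set_option autoImplicit false

noncomputable section

namespace Fermat.Agent.TW56.Grp

open Matrix

variable {k : Type} [Field k]

theorem Uni_coe_uu (x : k) : ((uu x : GL (Fin 2) k) : M2 k) = !![1, x; 0, 1] := rfl

/-- a `p`-group of matrices fixes a nonzero vector. -/
theorem Uni_exists_fixed (p : ℕ) [Fact p.Prime] [Finite k] [CharP k p]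
    (U : Subgroup (GL (Fin 2) k)) (hU : IsPGroup p U) :
    ∃ v : Fin 2 → k, v ≠ 0 ∧ ∀ u ∈ U, (u : M2 k) *ᵥ v = v := by
  let _ : MulAction U (Fin 2 → k) :=
    { smul := fun u v => ((u : GL (Fin 2) k) : M2 k) *ᵥ v
      one_smul := fun v => by
        show (((1 : U) : GL (Fin 2) k) : M2 k) *ᵥ v = v
        simp
      mul_smul := fun a b v => by
        show (((a * b : U) : GL (Fin 2) k) : M2 k) *ᵥ v
          = ((a : GL (Fin 2) k) : M2 k) *ᵥ (((b : GL (Fin 2) k) : M2 k) *ᵥ v)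
        rw [Matrix.mulVec_mulVec]
        rfl }
  have hpk : p ∣ Nat.card k := by
    have h1 : addOrderOf (1 : k) = p := CharP.eq k (CharP.addOrderOf_one k) inferInstance
    rw [← h1]
    exact addOrderOf_dvd_natCard 1
  have hcard : p ∣ Nat.card (Fin 2 → k) := by
    rw [Nat.card_fun]
    simp only [Nat.card_eq_fintype_card, Fintype.card_fin]
    exact dvd_pow hpk two_ne_zero
  have h0 : (0 : Fin 2 → k) ∈ MulAction.fixedPoints U (Fin 2 → k) := by
    intro u
    show ((u : GL (Fin 2) k) : M2 k) *ᵥ (0 : Fin 2 → k) = 0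
    simp
  obtain ⟨v, hv, hne⟩ := hU.exists_fixed_point_of_prime_dvd_card_of_fixed_point (Fin 2 → k) hcard h0
  exact ⟨v, hne.symm, fun u hu => hv ⟨u, hu⟩⟩

/-- completion of a nonzero vector to a basis. -/
theorem Uni_exists_basis (v : Fin 2 → k) (hv : v ≠ 0) :
    ∃ Q : GL (Fin 2) k, (Q : M2 k) *ᵥ ![1, 0] = v := by
  by_cases h0 : v 0 = 0
  · have h1 : v 1 ≠ 0 := by
      intro h1
      apply hv
      ext i
      fin_cases i
      · exact h0
      · exact h1
    refine ⟨Matrix.GeneralLinearGroup.mkOfDetNeZero !![v 0, 1; v 1, 0]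
      (by simp [Matrix.det_fin_two, h1]), ?_⟩
    show !![v 0, 1; v 1, 0] *ᵥ ![1, 0] = v
    ext i
    fin_cases i <;> simp [Matrix.mulVec, dotProduct, Fin.sum_univ_two]
  · refine ⟨Matrix.GeneralLinearGroup.mkOfDetNeZero !![v 0, 0; v 1, 1]
      (by simp [Matrix.det_fin_two, h0]), ?_⟩
    show !![v 0, 0; v 1, 1] *ᵥ ![1, 0] = v
    ext i
    fin_cases i <;> simp [Matrix.mulVec, dotProduct, Fin.sum_univ_two]

/-- `kˣ` has no `p`-torsion. -/
theorem Uni_eq_one_of_pow (p : ℕ) [Fact p.Prime] [CharP k p] {d : k} {n : ℕ}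
    (h : d ^ p ^ n = 1) : d = 1 := by
  have h1 : (d - 1) ^ p ^ n = 0 := by
    rw [sub_pow_char_pow, h, one_pow, sub_self]
  exact sub_eq_zero.1 (pow_eq_zero_iff (pow_ne_zero n (Fact.out : p.Prime).ne_zero) |>.1 h1)

/-- **GRP-UNI** -/
theorem uni : Stmt_Uni := by
  intro p _ k _ _ _ U hU
  obtain ⟨v, hv, hfix⟩ := Uni_exists_fixed p U hU
  obtain ⟨Q, hQ⟩ := Uni_exists_basis v hv
  refine ⟨Q⁻¹, fun u hu => ?_⟩
  rw [inv_inv]
  set M : GL (Fin 2) k := Q⁻¹ * u * Q with hM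
  have hMe : (M : M2 k) *ᵥ ![1, 0] = ![1, 0] := by
    have h1 : (M : M2 k) = ((Q⁻¹ : GL (Fin 2) k) : M2 k) * (u : M2 k) * (Q : M2 k) := rfl
    rw [h1, ← Matrix.mulVec_mulVec, hQ, ← Matrix.mulVec_mulVec, hfix u hu, ← hQ,
      Matrix.mulVec_mulVec]
    have h2 : ((Q⁻¹ : GL (Fin 2) k) : M2 k) * (Q : M2 k) = 1 := by
      rw [← Units.val_mul, inv_mul_cancel, Units.val_one]
    rw [h2, Matrix.one_mulVec]
  have h00 : (M : M2 k) 0 0 = 1 := by
    have := congrFun hMe 0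
    simpa [Matrix.mulVec, dotProduct, Fin.sum_univ_two] using this
  have h10 : (M : M2 k) 1 0 = 0 := by
    have := congrFun hMe 1
    simpa [Matrix.mulVec, dotProduct, Fin.sum_univ_two] using this
  obtain ⟨n, hn⟩ := hU ⟨u, hu⟩
  have hun : u ^ p ^ n = 1 := congrArg Subtype.val hn
  have hMn : M ^ p ^ n = 1 := by
    have h1 : M = Q⁻¹ * u * (Q⁻¹)⁻¹ := by rw [inv_inv]
    rw [h1, conj_pow, hun, mul_one, mul_inv_cancel]
  have hdet : (M : M2 k).det ^ p ^ n = 1 := by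
    rw [← Matrix.det_pow, ← Units.val_pow_eq_pow_val, hMn, Units.val_one, Matrix.det_one]
  have hdet1 : (M : M2 k).det = 1 := Uni_eq_one_of_pow p hdet
  have h11 : (M : M2 k) 1 1 = 1 := by
    rw [Matrix.det_fin_two, h00, h10] at hdet1
    simpa using hdet1
  refine ⟨(M : M2 k) 0 1, Units.ext ?_⟩
  rw [Uni_coe_uu]
  ext i j
  fin_cases i <;> fin_cases j
  · exact h00
  · rfl
  · exact h10
  · exact h11

end Fermat.Agent.TW56.Grp

end

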