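/-
TEAM TW56 -> S56, block [GRP] (helper74): all packages put together.
-/
import Fermat.Agent.TW56.Grp.Avg
import Fermat.Agent.TW56.Grp.Uni
import Fermat.Agent.TW56.Grp.CocU
import Fermat.Agent.TW56.Grp.Count1
import Fermat.Agent.TW56.Grp.Count2
import Fermat.Agent.TW56.Grp.TypeII
import Fermat.Agent.TW56.Grp.Eqs
import Fermat.Agent.TW56.Grp.Inv
import Fermat.Agent.TW56.Grp.Frat
import Fermat.Agent.TW56.Grp.Conj
import Fermat.Agent.TW56.Grp.NF
import Fermat.Agent.TW56.Grp.Main
import Fermat.Agent.TW56.Grp.AdIrr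
import Fermat.Agent.TW56.Grp.RegSS
import Fermat.Agent.TW56.Grp.Coker

set_option autoImplicit false

namespace Fermat.Agent.TW56.Grp

theorem all_count : Stmt_Count := count count1

/-- `H¹(GG, ad⁰ ⊗ det) = 0`, modulo Lemma T. -/
theorem all_h1van_of (hT : Stmt_LemmaT) : Stmt_H1van :=
  h1van (h1vanNF avg cocU eqs inv hT typeII frat) uni conj avg

end Fermat.Agent.TW56.Grp
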