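/-
TEAM TW56 -> S56, block [GRP] (helper74): elementary lemmas on `2 × 2` matrices: kernels are lines,
eigenvectors, split characteristic polynomials.
-/
import Fermat.Agent.TW56.Grp.Api

set_option autoImplicit false

noncomputable section

namespace Fermat.Agent.TW56.Grp

open Matrix Polynomial

variable {k : Type} [Field k]

/-- the kernel of a nonzero `2 × 2` matrix is at most a line. -/
theorem Lines_ker {N : M2 k} (hN : N ≠ 0) {v w : Fin 2 → k} (hv : v ≠ 0) (h1 : N *ᵥ v = 0)
    (h2 : N *ᵥ w = 0) : ∃ c : k, w = c • v := by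
  have e1 := congrFun h1 0
  have e2 := congrFun h1 1
  have e3 := congrFun h2 0
  have e4 := congrFun h2 1
  simp only [Matrix.mulVec, dotProduct, Fin.sum_univ_two, Pi.zero_apply] at e1 e2 e3 e4
  by_cases hd : v 0 * w 1 - v 1 * w 0 = 0
  · by_cases h0 : v 0 = 0
    · have h1' : v 1 ≠ 0 := by
        intro h; apply hv; ext i; fin_cases i <;> simp [h0, h]
      refine ⟨w 1 / v 1, ?_⟩
      have hw0 : w 0 = 0 := by
        rw [h0, zero_mul, zero_sub, neg_eq_zero] at hd
        exact (mul_eq_zero.1 hd).resolve_left h1'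
      ext i; fin_cases i
      · simp [h0, hw0]
      · simp [h1']
    · refine ⟨w 0 / v 0, ?_⟩
      ext i; fin_cases i
      · simp [h0]
      · simp only [Fin.mk_one, Fin.isValue, Pi.smul_apply, smul_eq_mul]
        field_simp
        linear_combination hd
  · exfalso
    apply hN
    have a00 : N 0 0 = 0 := by
      have : N 0 0 * (v 0 * w 1 - v 1 * w 0) = 0 := by linear_combination w 1 * e1 - v 1 * e3
      exact (mul_eq_zero.1 this).resolve_right hd
    have a01 : N 0 1 = 0 := by
      have : N 0 1 * (v 0 * w 1 - v 1 * w 0) = 0 := by linear_combination v 0 * e3 - w 0 * e1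
      exact (mul_eq_zero.1 this).resolve_right hd
    have a10 : N 1 0 = 0 := by
      have : N 1 0 * (v 0 * w 1 - v 1 * w 0) = 0 := by linear_combination w 1 * e2 - v 1 * e4
      exact (mul_eq_zero.1 this).resolve_right hd
    have a11 : N 1 1 = 0 := by
      have : N 1 1 * (v 0 * w 1 - v 1 * w 0) = 0 := by linear_combination v 0 * e4 - w 0 * e2
      exact (mul_eq_zero.1 this).resolve_right hd
    ext i j; fin_cases i <;> fin_cases j <;> simp [a00, a01, a10, a11]

/-- a matrix commuting with `N ≠ 0` preserves the line `ker N`. -/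
theorem Lines_comm {N B : M2 k} (hN : N ≠ 0) {v : Fin 2 → k} (hv : v ≠ 0) (h1 : N *ᵥ v = 0)
    (hB : N * B = B * N) : ∃ c : k, B *ᵥ v = c • v := by
  apply Lines_ker hN hv h1
  rw [Matrix.mulVec_mulVec, hB, ← Matrix.mulVec_mulVec, h1, Matrix.mulVec_zero]

theorem Lines_split {M : M2 k} {a b : k} (h : M.charpoly = (X - C a) * (X - C b)) :
    M.trace = a + b ∧ M.det = a * b := by
  rw [Matrix.charpoly_fin_two] at h
  have h0 := congrArg (fun P => Polynomial.coeff P 0) h
  have h1 := congrArg (fun P => Polynomial.coeff P 1) h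
  have e : (X - C a) * (X - C b) = X ^ 2 - C (a + b) * X + C (a * b) := by
    rw [C_add, C_mul]; ring
  rw [e] at h0 h1
  simp [Polynomial.coeff_X, Polynomial.coeff_C] at h0 h1
  exact ⟨by linear_combination -h1, h0⟩

theorem Lines_split_of {M : M2 k} {a b : k} (h1 : M.trace = a + b) (h2 : M.det = a * b) :
    M.charpoly = (X - C a) * (X - C b) := by
  rw [Matrix.charpoly_fin_two, h1, h2, C_add, C_mul]; ring

/-- an eigenvector for a root of the characteristic polynomial. -/
theorem Lines_eigen {M : M2 k} {a b : k} (h : M.charpoly = (X - C a) * (X - C b)) :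
    ∃ v : Fin 2 → k, v ≠ 0 ∧ (M - a • (1 : M2 k)) *ᵥ v = 0 := by
  obtain ⟨h1, h2⟩ := Lines_split h
  rw [Matrix.exists_mulVec_eq_zero_iff]
  rw [Matrix.trace_fin_two] at h1
  rw [Matrix.det_fin_two] at h2
  rw [Matrix.det_fin_two]
  simp
  linear_combination h2 - a * h1

theorem Lines_mulVec_sub {M : M2 k} {a : k} {v : Fin 2 → k} :
    (M - a • (1 : M2 k)) *ᵥ v = 0 ↔ M *ᵥ v = a • v := by
  rw [Matrix.sub_mulVec, Matrix.smul_mulVec, Matrix.one_mulVec, sub_eq_zero]

/-- Cayley-Hamilton for trace zero matrices. -/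
theorem Lines_sq {A : M2 k} (h : A.trace = 0) : A * A = (-A.det) • (1 : M2 k) := by
  rw [Matrix.trace_fin_two] at h
  have h1 : A 1 1 = -A 0 0 := eq_neg_of_add_eq_zero_right h
  ext i j
  fin_cases i <;> fin_cases j <;>
    simp [Matrix.mul_apply, Fin.sum_univ_two, Matrix.det_fin_two, h1] <;> ring

/-- trace zero matrices which commute are proportional (`char ≠ 2`). -/
theorem Lines_prop (h2 : (2 : k) ≠ 0) {A A' : M2 k} (hA : A ≠ 0) (ht : A.trace = 0)
    (ht' : A'.trace = 0) (hc : A * A' = A' * A) : ∃ c : k, A' = c • A := by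
  rw [Matrix.trace_fin_two] at ht ht'
  have h1 : A 1 1 = -A 0 0 := eq_neg_of_add_eq_zero_right ht
  have h1' : A' 1 1 = -A' 0 0 := eq_neg_of_add_eq_zero_right ht'
  have e00 := congrFun (congrFun hc 0) 0
  have e01 := congrFun (congrFun hc 0) 1
  have e10 := congrFun (congrFun hc 1) 0
  simp only [Matrix.mul_apply, Fin.sum_univ_two, h1, h1'] at e00 e01 e10
  have f1 : A 0 1 * A' 1 0 = A' 0 1 * A 1 0 := by linear_combination e00
  have f2 : A 0 0 * A' 0 1 = A' 0 0 * A 0 1 := by
    have : 2 * (A 0 0 * A' 0 1 - A' 0 0 * A 0 1) = 0 := by linear_combination e01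
    exact sub_eq_zero.1 ((mul_eq_zero.1 this).resolve_left h2)
  have f3 : A 1 0 * A' 0 0 = A' 1 0 * A 0 0 := by
    have : 2 * (A 1 0 * A' 0 0 - A' 1 0 * A 0 0) = 0 := by linear_combination e10
    exact sub_eq_zero.1 ((mul_eq_zero.1 this).resolve_left h2)
  by_cases g0 : A 0 0 = 0
  · by_cases g1 : A 0 1 = 0
    · have g2 : A 1 0 ≠ 0 := by
        intro g2; apply hA
        ext i j; fin_cases i <;> fin_cases j <;> simp [g0, g1, g2, h1]
      refine ⟨A' 1 0 / A 1 0, ?_⟩
      have k1 : A' 0 1 = 0 := by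
        rw [g1, zero_mul] at f1
        exact (mul_eq_zero.1 f1.symm).resolve_right g2
      have k2 : A' 0 0 = 0 := by
        rw [g0, mul_zero] at f3
        exact (mul_eq_zero.1 f3).resolve_left g2
      ext i j; fin_cases i <;> fin_cases j <;> simp [g0, g1, g2, h1, h1', k1, k2]
    · refine ⟨A' 0 1 / A 0 1, ?_⟩
      have k2 : A' 0 0 = 0 := by
        rw [g0, zero_mul] at f2
        exact (mul_eq_zero.1 f2.symm).resolve_right g1
      ext i j; fin_cases i <;> fin_cases j
      · simp [g0, k2]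
      · simp [g1]
      · simp only [Fin.mk_one, Fin.isValue, Fin.zero_eta, Matrix.smul_apply, smul_eq_mul]
        field_simp
        linear_combination f1
      · simp [g0, k2, h1, h1']
  · refine ⟨A' 0 0 / A 0 0, ?_⟩
    ext i j; fin_cases i <;> fin_cases j
    · simp [g0]
    · simp only [Fin.mk_one, Fin.isValue, Fin.zero_eta, Matrix.smul_apply, smul_eq_mul]
      field_simp
      linear_combination f2
    · simp only [Fin.mk_one, Fin.isValue, Fin.zero_eta, Matrix.smul_apply, smul_eq_mul]
      field_simp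
      linear_combination -f3
    · simp only [Fin.mk_one, Fin.isValue, Matrix.smul_apply, smul_eq_mul, h1, h1']
      field_simp

/-- scalar subgroups have stable lines -/
theorem Lines_hasLine_of_scalar {H : Subgroup (GL (Fin 2) k)}
    (h : ∀ g ∈ H, ∃ s : k, (g : M2 k) = s • (1 : M2 k)) : HasLine H := by
  refine ⟨![1, 0], by intro h0; simpa using congrFun h0 0, fun g hg => ?_⟩
  obtain ⟨s, hs⟩ := h g hg
  exact ⟨s, by rw [hs, Matrix.smul_mulVec, Matrix.one_mulVec]⟩

/-- a subgroup commuting with a non scalar matrix `B` which has an eigenvalue in `k` has a stable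
line. -/
theorem Lines_hasLine_of_comm {H : Subgroup (GL (Fin 2) k)} {B : M2 k} {a : k}
    (hB : B - a • (1 : M2 k) ≠ 0) {v : Fin 2 → k} (hv : v ≠ 0)
    (hBv : (B - a • (1 : M2 k)) *ᵥ v = 0) (h : ∀ g ∈ H, B * (g : M2 k) = (g : M2 k) * B) :
    HasLine H := by
  refine ⟨v, hv, fun g hg => Lines_comm hB hv hBv ?_⟩
  rw [Matrix.sub_mul, Matrix.mul_sub, h g hg]
  simp

end Fermat.Agent.TW56.Grp

end
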