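/-
TEAM TW56 -> S56, block [GRP], GRP-ADIRR (helper74): `ad⁰` is an irreducible `k[GG]`-module.
-/
import Fermat.Agent.TW56.Grp.Lines

set_option autoImplicit false

noncomputable section

namespace Fermat.Agent.TW56.Grp

open Matrix Polynomial

variable {k : Type} [Field k]

/-- conjugation -/
theorem AdIrr_conj_eq (g : GL (Fin 2) k) (m : M2 k) :
    (g : M2 k) * m * ((g⁻¹ : GL (Fin 2) k) : M2 k) = ((g : M2 k).det)⁻¹ • act g m := by
  unfold act
  rw [smul_smul, inv_mul_cancel₀ (det_ne_zero' g), one_smul]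

/-- from `g A g⁻¹ = c A` to `g A = c A g`. -/
theorem AdIrr_comm {g : GL (Fin 2) k} {A : M2 k} {c : k}
    (h : (g : M2 k) * A * ((g⁻¹ : GL (Fin 2) k) : M2 k) = c • A) :
    (g : M2 k) * A = c • (A * (g : M2 k)) := by
  have h1 := congrArg (fun M => M * (g : M2 k)) h
  simp only [Matrix.mul_assoc, coe_inv_mul, Matrix.mul_one] at h1
  rw [h1, Matrix.smul_mul]

/-- **no stable line in `ad⁰`.** -/
theorem AdIrr_key {p : ℕ} (h2 : (2 : k) ≠ 0) {GG : Subgroup (GL (Fin 2) k)} (hB : Big p GG)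
    {A : M2 k} (hA : A ≠ 0) (ht : A.trace = 0)
    (hc : ∀ g ∈ GG, ∃ c : k, (g : M2 k) * A * ((g⁻¹ : GL (Fin 2) k) : M2 k) = c • A) : False := by
  by_cases hd : A.det = 0
  · -- nilpotent
    obtain ⟨v, hv, hAv⟩ := Matrix.exists_mulVec_eq_zero_iff.2 hd
    apply hB.irr GG (idxLe2_self GG)
    refine ⟨v, hv, fun g hg => ?_⟩
    obtain ⟨c, hc'⟩ := hc g hg
    have h1 := AdIrr_comm hc'
    have hc0 : c ≠ 0 := by
      rintro rfl
      rw [zero_smul] at h1
      apply hA
      have h3 := congrArg (fun M => ((g⁻¹ : GL (Fin 2) k) : M2 k) * M) h1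
      simpa [← Matrix.mul_assoc, coe_inv_mul] using h3
    apply Lines_ker hA hv hAv
    have h3 : (c • (A * (g : M2 k))) *ᵥ v = 0 := by
      rw [← h1, ← Matrix.mulVec_mulVec, hAv, Matrix.mulVec_zero]
    rw [Matrix.smul_mulVec, smul_eq_zero] at h3
    rw [Matrix.mulVec_mulVec]
    exact h3.resolve_left hc0
  · -- semisimple
    have hsign : ∀ g ∈ GG, (g : M2 k) * A = A * (g : M2 k) ∨ (g : M2 k) * A = -(A * (g : M2 k)) := by
      intro g hg
      obtain ⟨c, hc'⟩ := hc g hg
      have h1 := AdIrr_comm hc'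
      have h3 := congrArg Matrix.det hc'
      rw [Matrix.det_mul, Matrix.det_mul, Matrix.det_smul, Fintype.card_fin, mul_right_comm,
        ← Matrix.det_mul, coe_mul_inv, Matrix.det_one, one_mul] at h3
      have h4 : (c - 1) * (c + 1) = 0 := by
        have : (c ^ 2 - 1) * A.det = 0 := by linear_combination -h3
        have := (mul_eq_zero.1 this).resolve_right hd
        linear_combination this
      rcases mul_eq_zero.1 h4 with h5 | h5
      · left; rw [h1, sub_eq_zero.1 h5, one_smul]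
      · right; rw [h1, eq_neg_of_add_eq_zero_left h5, neg_smul, one_smul]
    let H : Subgroup (GL (Fin 2) k) :=
      { carrier := {g | g ∈ GG ∧ (g : M2 k) * A = A * (g : M2 k)}
        one_mem' := ⟨GG.one_mem, by simp⟩
        mul_mem' := by
          rintro a b ⟨ha, ha'⟩ ⟨hb, hb'⟩
          refine ⟨GG.mul_mem ha hb, ?_⟩
          rw [Units.val_mul, Matrix.mul_assoc, hb', ← Matrix.mul_assoc, ha', Matrix.mul_assoc]
        inv_mem' := by
          rintro a ⟨ha, ha'⟩
          refine ⟨GG.inv_mem ha, ?_⟩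
          have h3 := congrArg (fun M => ((a⁻¹ : GL (Fin 2) k) : M2 k) * M *
            ((a⁻¹ : GL (Fin 2) k) : M2 k)) ha'
          simp only [← Matrix.mul_assoc, coe_inv_mul, Matrix.one_mul] at h3
          simp only [Matrix.mul_assoc, coe_mul_inv, Matrix.mul_one] at h3
          exact h3.symm }
    have hH : IdxLe2 H GG := by
      refine ⟨fun g hg => hg.1, fun a ha b hb ha' hb' => ⟨GG.mul_mem ha hb, ?_⟩⟩
      have h1 : (a : M2 k) * A = -(A * (a : M2 k)) :=
        (hsign a ha).resolve_left fun h => ha' ⟨ha, h⟩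
      have h3 : (b : M2 k) * A = -(A * (b : M2 k)) :=
        (hsign b hb).resolve_left fun h => hb' ⟨hb, h⟩
      rw [Units.val_mul, Matrix.mul_assoc, h3, Matrix.mul_neg, ← Matrix.mul_assoc, h1,
        Matrix.neg_mul, neg_neg, Matrix.mul_assoc]
    apply hB.irr H hH
    by_cases hs : ∀ g ∈ H, ∃ s : k, (g : M2 k) = s • (1 : M2 k)
    · exact Lines_hasLine_of_scalar hs
    · push Not at hs
      obtain ⟨h0, hh0, hns⟩ := hs
      obtain ⟨a, b, hab⟩ := hB.split h0 hh0.1
      obtain ⟨v, hv, hv'⟩ := Lines_eigen hab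
      have hne : (h0 : M2 k) - a • (1 : M2 k) ≠ 0 := fun h => hns a (sub_eq_zero.1 h)
      -- `v` is an eigenvector of `A`
      obtain ⟨μ, hμ⟩ := Lines_comm (B := A) hne hv hv' (by
        rw [Matrix.sub_mul, Matrix.mul_sub, hh0.2]; simp)
      have hAμ : A - μ • (1 : M2 k) ≠ 0 := by
        intro h
        have h3 : A = μ • (1 : M2 k) := sub_eq_zero.1 h
        have h4 : A.trace = 2 * μ := by
          rw [h3, Matrix.trace_smul, Matrix.trace_one, Fintype.card_fin]; simp [mul_comm]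
        rw [ht] at h4
        have h5 : μ = 0 := (mul_eq_zero.1 h4.symm).resolve_left h2
        apply hA; rw [h3, h5, zero_smul]
      exact Lines_hasLine_of_comm hAμ hv (Lines_mulVec_sub.2 hμ) fun g hg => hg.2.symm

/-- the trace zero matrices -/
def ad0 (k : Type) [Field k] : Submodule k (M2 k) := LinearMap.ker (Matrix.traceLinearMap (Fin 2) k k)

theorem mem_ad0 {m : M2 k} : m ∈ ad0 k ↔ m.trace = 0 := LinearMap.mem_ker

theorem finrank_ad0 : Module.finrank k (ad0 k) = 3 := by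
  have h1 := LinearMap.finrank_range_add_finrank_ker (Matrix.traceLinearMap (Fin 2) k k)
  have h2 : LinearMap.range (Matrix.traceLinearMap (Fin 2) k k) = ⊤ := by
    rw [LinearMap.range_eq_top]
    intro c
    exact ⟨!![c, 0; 0, 0], by simp [Matrix.trace_fin_two]⟩
  rw [h2, finrank_top, Module.finrank_self, Module.finrank_matrix, Module.finrank_self] at h1
  simp only [Fintype.card_fin] at h1
  unfold ad0
  exact Nat.add_left_cancel (h1.trans (by norm_num : 2 * 2 * 1 = 1 + 3))

theorem adIrr : Stmt_AdIrr := by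
  intro p _ k _ _ hp2 GG hB W hW hst hne
  have h2 : (2 : k) ≠ 0 := by
    intro h
    have h3 : ((2 : ℕ) : k) = 0 := by exact_mod_cast h
    rw [CharP.cast_eq_zero_iff k p] at h3
    exact hp2 ((Nat.prime_dvd_prime_iff_eq Fact.out Nat.prime_two).1 h3)
  have hst' : ∀ g ∈ GG, ∀ m ∈ W, (g : M2 k) * m * ((g⁻¹ : GL (Fin 2) k) : M2 k) ∈ W := by
    intro g hg m hm
    rw [AdIrr_conj_eq]
    exact W.smul_mem _ (hst g hg m hm)
  have hle : W ≤ ad0 k := fun m hm => mem_ad0.2 (hW m hm)
  suffices h : W = ad0 k by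
    intro m hm
    rw [h]
    exact mem_ad0.2 hm
  have hfr : Module.finrank k W ≤ 3 := by
    rw [← finrank_ad0 (k := k)]
    exact Submodule.finrank_mono hle
  have hpos : 0 < Module.finrank k W := by
    obtain ⟨m, hm, hm0⟩ := hne
    have : Nontrivial W := ⟨⟨⟨m, hm⟩, 0, fun h => hm0 (congrArg Subtype.val h)⟩⟩
    exact Module.finrank_pos
  have hcases : Module.finrank k W = 1 ∨ Module.finrank k W = 2 ∨ Module.finrank k W = 3 := by omega
  rcases hcases with h1 | h1 | h1
  · exfalso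
    obtain ⟨⟨A, hAW⟩, hA0, hAs⟩ := finrank_eq_one_iff'.1 h1
    refine AdIrr_key h2 hB (A := A) (fun h => hA0 (Subtype.ext h)) (hW A hAW) fun g hg => ?_
    obtain ⟨c, hc⟩ := hAs ⟨_, hst' g hg A hAW⟩
    exact ⟨c, (congrArg Subtype.val hc).symm⟩
  · exfalso
    let b := Module.finBasisOfFinrankEq k W h1
    have hrep : ∀ w ∈ W, ∃ x y : k, w = x • (b 0 : M2 k) + y • (b 1 : M2 k) := by
      intro w hw
      refine ⟨b.repr ⟨w, hw⟩ 0, b.repr ⟨w, hw⟩ 1, ?_⟩
      have h3 := b.sum_repr ⟨w, hw⟩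
      rw [Fin.sum_univ_two] at h3
      exact (congrArg Subtype.val h3).symm
    have hA0 : (b 0 : M2 k) ≠ 0 := fun h => b.ne_zero 0 (Subtype.ext h)
    set A : M2 k := (b 0 : M2 k) with hAdef
    set A' : M2 k := (b 1 : M2 k) with hA'def
    have hC : A * A' - A' * A ≠ 0 := by
      intro h
      obtain ⟨c, hc⟩ := Lines_prop h2 hA0 (hW _ (b 0).2) (hW _ (b 1).2) (sub_eq_zero.1 h)
      have hli := b.linearIndependent
      rw [Fintype.linearIndependent_iff] at hli
      have h3 := hli ![c, -1] (by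
        rw [Fin.sum_univ_two]
        apply Subtype.ext
        simp only [Matrix.cons_val_zero, Matrix.cons_val_one, Submodule.coe_add,
          Submodule.coe_smul, Submodule.coe_zero]
        show c • A + (-1 : k) • A' = 0
        have hc' : A' = c • A := hc
        rw [hc']; simp) 1
      simp at h3
    refine AdIrr_key h2 hB hC (by rw [Matrix.trace_sub, Matrix.trace_mul_comm, sub_self])
      fun g hg => ?_
    obtain ⟨x, y, hxy⟩ := hrep _ (hst' g hg A (b 0).2)
    obtain ⟨z, t, hzt⟩ := hrep _ (hst' g hg A' (b 1).2)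
    refine ⟨x * t - y * z, ?_⟩
    have e1 : (g : M2 k) * (A * A' - A' * A) * ((g⁻¹ : GL (Fin 2) k) : M2 k) =
        ((g : M2 k) * A * ((g⁻¹ : GL (Fin 2) k) : M2 k)) *
          ((g : M2 k) * A' * ((g⁻¹ : GL (Fin 2) k) : M2 k)) -
        ((g : M2 k) * A' * ((g⁻¹ : GL (Fin 2) k) : M2 k)) *
          ((g : M2 k) * A * ((g⁻¹ : GL (Fin 2) k) : M2 k)) := by
      have e2 : ∀ M N : M2 k, ((g : M2 k) * M * ((g⁻¹ : GL (Fin 2) k) : M2 k)) *
          ((g : M2 k) * N * ((g⁻¹ : GL (Fin 2) k) : M2 k)) =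
          (g : M2 k) * (M * N) * ((g⁻¹ : GL (Fin 2) k) : M2 k) := by
        intro M N
        calc _ = (g : M2 k) * M * (((g⁻¹ : GL (Fin 2) k) : M2 k) * (g : M2 k)) * N *
              ((g⁻¹ : GL (Fin 2) k) : M2 k) := by simp only [Matrix.mul_assoc]
          _ = _ := by rw [coe_inv_mul, Matrix.mul_one]; simp only [Matrix.mul_assoc]
      rw [e2, e2, Matrix.mul_sub, Matrix.sub_mul]
    rw [e1, hxy, hzt]
    simp only [Matrix.add_mul, Matrix.mul_add, Matrix.smul_mul, Matrix.mul_smul,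
      smul_sub, sub_smul]
    module
  · exact Submodule.eq_of_le_of_finrank_eq hle (by rw [h1, finrank_ad0])

end Fermat.Agent.TW56.Grp

end
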